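import Fermat.Agent.Ihara.DegenMaps

/-!
# Characters on parabolic elements: `T_ℓ = ℓ + 1` for `ℓ ≡ 1 (mod N)`

At an even level divisible by `3` this makes `T_ℓ - 2` land in `Hom_cl` for coefficients `ZMod 3`.
-/

noncomputable section

open scoped MatrixGroups
open CongruenceSubgroup
open Fermat.Agent.Ihara (entries_mul entries_inv)

namespace Fermat.Agent.RemoveThree

/-- `1 + h · (p, q)ᵗ (-q, p)`: the parabolic elements fixing the cusp `p / q`. -/
def pbMat (h p q : ℤ) : SL(2, ℤ) :=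
  ⟨!![1 - h * p * q, h * p * p; -(h * q * q), 1 + h * p * q],
    by rw [Matrix.det_fin_two_of]; ring⟩

theorem pbMat_entries (h p q : ℤ) :
    pbMat h p q 0 0 = 1 - h * p * q ∧ pbMat h p q 0 1 = h * p * p ∧
      pbMat h p q 1 0 = -(h * q * q) ∧ pbMat h p q 1 1 = 1 + h * p * q := by
  simp [pbMat]

theorem sl2_ext {g g' : SL(2, ℤ)} (h00 : g 0 0 = g' 0 0) (h01 : g 0 1 = g' 0 1)
    (h10 : g 1 0 = g' 1 0) (h11 : g 1 1 = g' 1 1) : g = g' := by
  refine Subtype.ext ?_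
  rw [Matrix.eta_fin_two g.1, Matrix.eta_fin_two g'.1, h00, h01, h10, h11]

theorem pbMat_conj (γ : SL(2, ℤ)) (h p q : ℤ) :
    γ * pbMat h p q * γ⁻¹ =
      pbMat h (γ 0 0 * p + γ 0 1 * q) (γ 1 0 * p + γ 1 1 * q) := by
  have hd := Grp.det_eq γ
  obtain ⟨e00, e01, e10, e11⟩ := pbMat_entries h p q
  obtain ⟨f00, f01, f10, f11⟩ :=
    pbMat_entries h (γ 0 0 * p + γ 0 1 * q) (γ 1 0 * p + γ 1 1 * q)
  obtain ⟨i00, i01, i10, i11⟩ := entries_inv γ
  apply sl2_ext
  · rw [(entries_mul _ _).1, (entries_mul _ _).1, (entries_mul _ _).2.1, e00, e01, e10, e11, i00,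
      i10, f00]
    linear_combination hd
  · rw [(entries_mul _ _).2.1, (entries_mul _ _).1, (entries_mul _ _).2.1, e00, e01, e10, e11, i01,
      i11, f01]
    ring
  · rw [(entries_mul _ _).2.2.1, (entries_mul _ _).2.2.1, (entries_mul _ _).2.2.2, e00, e01, e10,
      e11, i00, i10, f10]
    ring
  · rw [(entries_mul _ _).2.2.2, (entries_mul _ _).2.2.1, (entries_mul _ _).2.2.2, e00, e01, e10,
      e11, i01, i11, f11]
    linear_combination hd

theorem pbMat_pow (h p q : ℤ) (n : ℕ) : pbMat h p q ^ n = pbMat (n * h) p q := by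
  induction n with
  | zero =>
    rw [pow_zero]
    apply sl2_ext <;> simp [pbMat]
  | succ n ih =>
    rw [pow_succ, ih]
    obtain ⟨a00, a01, a10, a11⟩ := pbMat_entries (n * h) p q
    obtain ⟨e00, e01, e10, e11⟩ := pbMat_entries h p q
    obtain ⟨f00, f01, f10, f11⟩ := pbMat_entries ((n + 1 : ℕ) * h) p q
    apply sl2_ext
    · rw [(entries_mul _ _).1, a00, a01, e00, e10, f00]; push_cast; ring
    · rw [(entries_mul _ _).2.1, a00, a01, e01, e11, f01]; push_cast; ring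
    · rw [(entries_mul _ _).2.2.1, a10, a11, e00, e10, f10]; push_cast; ring
    · rw [(entries_mul _ _).2.2.2, a10, a11, e01, e11, f11]; push_cast; ring

/-- Every element of trace `2` is some `pbMat h p q` with `p`, `q` coprime. -/
theorem exists_pbMat_of_tr {k : SL(2, ℤ)} (htr : Grp.tr k = 2) :
    ∃ h p q : ℤ, IsCoprime p q ∧ k = pbMat h p q := by
  rw [Grp.tr_eq] at htr
  have hd := Grp.det_eq k
  set a := k 0 0 - 1 with ha
  have h00 : k 0 0 = 1 + a := by rw [ha]; ring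
  have h11 : k 1 1 = 1 - a := by rw [ha]; linarith
  have hrel : a * a + k 0 1 * k 1 0 = 0 := by
    rw [h00, h11] at hd; linear_combination -hd
  by_cases hb : k 0 1 = 0
  · have ha0 : a = 0 := by
      rw [hb, zero_mul, add_zero] at hrel
      exact mul_self_eq_zero.1 hrel
    refine ⟨-k 1 0, 0, 1, isCoprime_one_right, ?_⟩
    obtain ⟨f00, f01, f10, f11⟩ := pbMat_entries (-k 1 0) 0 1
    apply sl2_ext
    · rw [f00, h00, ha0]; ring
    · rw [f01, hb]; ring
    · rw [f10]; ring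
    · rw [f11, h11, ha0]; ring
  · have hg : 0 < Int.gcd a (k 0 1) := Nat.pos_of_ne_zero fun e => hb (Int.gcd_eq_zero_iff.1 e).2
    obtain ⟨a', b', hco, ha', hb'⟩ := Int.exists_gcd_one hg
    set g : ℤ := ((Int.gcd a (k 0 1) : ℕ) : ℤ) with hgdef
    have hg0 : g ≠ 0 := by rw [hgdef]; exact_mod_cast hg.ne'
    have hb'0 : b' ≠ 0 := fun e => hb (by rw [hb', e, zero_mul])
    have hrel' : a' * a' * g + b' * k 1 0 = 0 := by
      rw [ha', hb'] at hrel
      refine mul_left_cancel₀ hg0 ?_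
      linear_combination hrel
    have hco' : IsCoprime b' a' := Int.isCoprime_iff_gcd_eq_one.2 (by rw [Int.gcd_comm]; exact hco)
    have hdvd : b' ∣ a' * a' * g := ⟨-k 1 0, by linear_combination hrel'⟩
    obtain ⟨h, hh⟩ := (hco'.mul_right hco').dvd_of_dvd_mul_left hdvd
    have hc : k 1 0 = -(h * (-a') * (-a')) := by
      refine mul_left_cancel₀ hb'0 ?_
      rw [hh] at hrel'
      linear_combination hrel'
    refine ⟨h, b', -a', hco'.neg_right, ?_⟩
    obtain ⟨f00, f01, f10, f11⟩ := pbMat_entries h b' (-a')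
    apply sl2_ext
    · rw [f00, h00, ha', hh]; ring
    · rw [f01, hb', hh]; ring
    · rw [f10, hc]
    · rw [f11, h11, ha', hh]; ring

/-- Primitive vectors congruent mod `N` differ by an element of `Γ₀(N)`. -/
theorem exists_Gamma0_mul_eq {N : ℕ} {p q p' q' : ℤ} (h : IsCoprime p q) (h' : IsCoprime p' q')
    (hp : (N : ℤ) ∣ p' - p) (hq : (N : ℤ) ∣ q' - q) :
    ∃ γ : Gamma0 N, γ.1 0 0 * p + γ.1 0 1 * q = p' ∧ γ.1 1 0 * p + γ.1 1 1 * q = q' := by
  obtain ⟨s, t, hst⟩ := h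
  obtain ⟨s', t', hst'⟩ := h'
  set k : ℤ := s * t' - t * s' with hk
  refine ⟨Hecke.mkGamma0 N (p' * s + (k * p' - t') * (-q)) (p' * t + (k * p' - t') * p)
    (q' * s + (k * q' + s') * (-q)) (q' * t + (k * q' + s') * p) ?_ ?_, ?_, ?_⟩
  · linear_combination (s * p + t * q) * hst' + hst
  · obtain ⟨u, hu⟩ := hp
    obtain ⟨v, hv⟩ := hq
    rw [← ZMod.intCast_zmod_eq_zero_iff_dvd]
    have e1 := congrArg (Int.cast : ℤ → ZMod N) hst
    have e2 := congrArg (Int.cast : ℤ → ZMod N) hst'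
    have e3 := congrArg (Int.cast : ℤ → ZMod N) (show p' = p + N * u by linarith)
    have e4 := congrArg (Int.cast : ℤ → ZMod N) (show q' = q + N * v by linarith)
    push_cast [ZMod.natCast_self, zero_mul, add_zero] at e1 e2 e3 e4
    rw [hk]
    push_cast
    rw [e3, e4] at e2
    rw [e4]
    linear_combination (q : ZMod N) * (s' : ZMod N) * e1 - (q : ZMod N) * (s : ZMod N) * e2
  · rw [Hecke.mkGamma0_val]
    show (p' * s + (k * p' - t') * (-q)) * p + (p' * t + (k * p' - t') * p) * q = p'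
    linear_combination p' * hst
  · rw [Hecke.mkGamma0_val]
    show (q' * s + (k * q' + s') * (-q)) * p + (q' * t + (k * q' + s') * p) * q = q'
    linear_combination q' * hst

/-- A number congruent to `1` modulo a multiple of `3` is `1` in `ZMod 3`. -/
theorem natCast_eq_one_of_dvd_sub_one {ℓ n : ℕ} (h3 : 3 ∣ n) (h : (n : ℤ) ∣ (ℓ : ℤ) - 1) :
    (ℓ : ZMod 3) = 1 := by
  have h' := (Int.natCast_dvd_natCast.2 h3).trans h
  rw [← ZMod.intCast_zmod_eq_zero_iff_dvd] at h'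
  push_cast at h'
  exact sub_eq_zero.1 h'

/-- A prime not dividing a multiple of `3` is invertible in `ZMod 3`. -/
theorem natCast_ne_zero_of_not_dvd {ℓ n : ℕ} (hℓ : ℓ.Prime) (h : ¬ ℓ ∣ n * 3) :
    (ℓ : ZMod 3) ≠ 0 := fun e => h (by
  rw [← (Nat.prime_dvd_prime_iff_eq Nat.prime_three hℓ).1 ((ZMod.natCast_eq_zero_iff _ _).1 e)]
  exact dvd_mul_left 3 n)

/-- The transfer when each orbit contributes proportionally to its length. -/
theorem transferHom_eq_index_nsmul {G : Type*} [Group G] {H : Subgroup G} [H.FiniteIndex]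
    (c : H →* G) {A : Type*} [AddCommGroup A] (χ : Additive G →+ A) (g : G) (a : A)
    (hχ : ∀ (t : G) (n : ℕ), 0 < n → ∀ h : t⁻¹ * g ^ n * t ∈ H,
      χ (Additive.ofMul (c ⟨_, h⟩)) = n • a) :
    Hecke.transferHom c A χ (Additive.ofMul g) = H.index • a := by
  have := H.fintypeQuotientOfFiniteIndex
  have : Fintype (Quotient (MulAction.orbitRel (Subgroup.zpowers g) (G ⧸ H))) := Fintype.ofFinite _
  show Multiplicative.toAdd (MonoidHom.transfer _ g) = _
  rw [MonoidHom.transfer_eq_prod_quotient_orbitRel_zpowers_quot, toAdd_prod,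
    Subgroup.index_eq_sum_minimalPeriod H g, Finset.sum_smul]
  exact Finset.sum_congr rfl fun q _ => hχ _ _ (Nat.pos_of_ne_zero (NeZero.ne _)) _

variable {N : ℕ}

theorem apply_inv_conj {G A : Type*} [Group G] [AddCommGroup A] (φ : Additive G →+ A) (t h : G) :
    φ (Additive.ofMul (t⁻¹ * h * t)) = φ (Additive.ofMul h) := by
  simp [ofMul_mul]

/-- Conjugation by `diag(1, ℓ)` does not change the value at a parabolic element. -/
theorem apply_upperConj_parabolic {ℓ : ℕ} [NeZero ℓ] (h3 : 3 ∣ N) (hℓ : ℓ.Prime)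
    (h1 : (N : ℤ) ∣ (ℓ : ℤ) - 1) (z : Additive (Gamma0 N) →+ ZMod 3)
    (k : Hecke.upperSub N ℓ) (hk : Grp.tr (k.1 : SL(2, ℤ)) = 2) :
    z (Additive.ofMul (Hecke.upperConj N ℓ k)) = z (Additive.ofMul k.1) := by
  have hℓI : Prime (ℓ : ℤ) := Nat.prime_iff_prime_int.1 hℓ
  have hℓ0 : (ℓ : ℤ) ≠ 0 := hℓI.ne_zero
  have hℓ3 : ∀ x : ZMod 3, ℓ • x = x := fun x => by
    rw [nsmul_eq_mul, natCast_eq_one_of_dvd_sub_one h3 h1, one_mul]
  obtain ⟨h, p, q, hco, hke⟩ := exists_pbMat_of_tr hk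
  obtain ⟨f00, f01, f10, f11⟩ := pbMat_entries h p q
  set e := Hecke.upperConj N ℓ k with he
  have eval : (e : SL(2, ℤ)).1 = !![pbMat h p q 0 0, pbMat h p q 0 1 / ℓ;
      (ℓ : ℤ) * pbMat h p q 1 0, pbMat h p q 1 1] := by
    rw [he, Hecke.upperConj_val, hke]
  have hℓb : (ℓ : ℤ) ∣ h * p * p := by
    have := k.2
    rw [Hecke.mem_upperSub, hke] at this
    rwa [f01] at this
  by_cases hℓp : (ℓ : ℤ) ∣ p
  · obtain ⟨p₀, rfl⟩ := hℓp
    have hee : (e : SL(2, ℤ)) = pbMat (h * ℓ) p₀ q := by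
      obtain ⟨g00, g01, g10, g11⟩ := pbMat_entries (h * ℓ) p₀ q
      apply sl2_ext <;> rw [eval] <;>
        simp only [Matrix.of_apply, Matrix.cons_val', Matrix.cons_val_zero, Matrix.cons_val_one,
          Matrix.cons_val_fin_one]
      · rw [f00, g00]; ring
      · rw [f01, g01, show h * (ℓ * p₀) * (ℓ * p₀) = ℓ * (h * ℓ * p₀ * p₀) by ring,
          Int.mul_ediv_cancel_left _ hℓ0]
      · rw [f10, g10]; ring
      · rw [f11, g11]; ring
    obtain ⟨γ, hγ0, hγ1⟩ := exists_Gamma0_mul_eq (N := N) hco hco.of_mul_left_right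
      (by obtain ⟨u, hu⟩ := h1; exact ⟨-(u * p₀), by linear_combination (-p₀) * hu⟩)
      (by simp)
    have key : e = γ * k.1 ^ ℓ * γ⁻¹ := Subtype.ext (by
      push_cast
      rw [hke, pbMat_pow, pbMat_conj, hγ0, hγ1, hee, mul_comm])
    rw [key, Ihara.apply_conj, ofMul_pow, map_nsmul, hℓ3]
  · obtain ⟨h₀, rfl⟩ : (ℓ : ℤ) ∣ h := (hℓI.dvd_mul.1 ((hℓI.dvd_mul.1 hℓb).resolve_right hℓp)
      ).resolve_right hℓp
    have hee : (e : SL(2, ℤ)) = pbMat h₀ p (ℓ * q) := by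
      obtain ⟨g00, g01, g10, g11⟩ := pbMat_entries h₀ p (ℓ * q)
      apply sl2_ext <;> rw [eval] <;>
        simp only [Matrix.of_apply, Matrix.cons_val', Matrix.cons_val_zero, Matrix.cons_val_one,
          Matrix.cons_val_fin_one]
      · rw [f00, g00]; ring
      · rw [f01, g01, show ℓ * h₀ * p * p = ℓ * (h₀ * p * p) by ring,
          Int.mul_ediv_cancel_left _ hℓ0]
      · rw [f10, g10]; ring
      · rw [f11, g11]; ring
    obtain ⟨γ, hγ0, hγ1⟩ := exists_Gamma0_mul_eq (N := N) hco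
      (((hℓI.coprime_iff_not_dvd.2 hℓp).symm).mul_right hco)
      (by simp)
      (by obtain ⟨u, hu⟩ := h1; exact ⟨u * q, by linear_combination q * hu⟩)
    have key : e ^ ℓ = γ * k.1 * γ⁻¹ := Subtype.ext (by
      push_cast
      rw [hee, pbMat_pow, hke, pbMat_conj, hγ0, hγ1])
    calc z (Additive.ofMul e) = z (Additive.ofMul (e ^ ℓ)) := by rw [ofMul_pow, map_nsmul, hℓ3]
      _ = _ := by rw [key, Ihara.apply_conj]

/-- `T_ℓ z = 2 z` on elements of trace `2`. -/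
theorem perTransfer_parabolic [NeZero N] {ℓ : ℕ} [NeZero ℓ] (h3 : 3 ∣ N) (hℓ : ℓ.Prime)
    (h1 : (N : ℤ) ∣ (ℓ : ℤ) - 1) (z : Additive (Gamma0 N) →+ ZMod 3) (g : Gamma0 N)
    (hg : Grp.tr (g : SL(2, ℤ)) = 2) :
    Hecke.perTransfer N ℓ (ZMod 3) z (Additive.ofMul g) = 2 • z (Additive.ofMul g) := by
  have hℓN : ¬ ℓ ∣ N := fun hd => hℓ.not_dvd_one (Int.natCast_dvd_natCast.1 (by
    have := dvd_sub (dvd_refl (ℓ : ℤ)) ((Int.natCast_dvd_natCast.2 hd).trans h1)
    simpa using this))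
  rw [Hecke.perTransfer, transferHom_eq_index_nsmul _ z g (z (Additive.ofMul g)),
    Ihara.index_upperSub hℓ hℓN]
  · rw [add_nsmul, nsmul_eq_mul ℓ, natCast_eq_one_of_dvd_sub_one h3 h1, one_mul, one_nsmul,
      two_nsmul]
  · intro t n _ h
    have htr : Grp.tr ((t⁻¹ * g ^ n * t : Gamma0 N) : SL(2, ℤ)) = 2 := by
      obtain ⟨a, p, q, -, hga⟩ := exists_pbMat_of_tr hg
      push_cast
      have := Grp.tr_conj ((t : SL(2, ℤ))⁻¹) ((g : SL(2, ℤ)) ^ n)
      rw [inv_inv] at this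
      rw [this, hga, pbMat_pow, Grp.tr_eq, (pbMat_entries _ _ _).1, (pbMat_entries _ _ _).2.2.2]
      ring
    rw [apply_upperConj_parabolic h3 hℓ h1 z ⟨_, h⟩ htr, apply_inv_conj, ofMul_pow, map_nsmul]

theorem apply_neg_one_eq_zero (z : Additive (Gamma0 N) →+ ZMod 3) :
    z (Additive.ofMul (⟨-1, Grp.neg_one_mem_Gamma0 N⟩ : Gamma0 N)) = 0 := by
  have h : (⟨-1, Grp.neg_one_mem_Gamma0 N⟩ : Gamma0 N) ^ 2 = 1 := Subtype.ext (by simp)
  have h2 := congrArg (fun x => z (Additive.ofMul x)) h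
  simp only [ofMul_pow, map_nsmul, ofMul_one, map_zero] at h2
  revert h2
  generalize z (Additive.ofMul (⟨-1, Grp.neg_one_mem_Gamma0 N⟩ : Gamma0 N)) = x
  revert x
  decide

/-- At an even level a character killing trace `2` is in `Hom_cl`. -/
theorem isClHom_of_killsTrTwo (h2 : 2 ∣ N) {z : Additive (Gamma0 N) →+ ZMod 3}
    (hz : ∀ g : Gamma0 N, Grp.tr (g : SL(2, ℤ)) = 2 → z (Additive.ofMul g) = 0) :
    Grp.IsClHom (Gamma0 N) z := by
  intro g hg
  have hd := Grp.det_eq (g : SL(2, ℤ))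
  have heven : (2 : ℤ) ∣ Grp.tr (g : SL(2, ℤ)) := by
    have hc : (2 : ℤ) ∣ (g : SL(2, ℤ)) 1 0 :=
      (Int.natCast_dvd_natCast.2 h2).trans (Hecke.Gamma0_dvd g)
    obtain ⟨c, hc⟩ := hc
    rw [hc] at hd
    have hodd : Odd ((g : SL(2, ℤ)) 0 0 * (g : SL(2, ℤ)) 1 1) :=
      ⟨(g : SL(2, ℤ)) 0 1 * c, by linear_combination hd⟩
    obtain ⟨⟨x, hx⟩, ⟨y, hy⟩⟩ := Int.odd_mul.1 hodd
    exact ⟨x + y + 1, by rw [Grp.tr_eq, hx, hy]; ring⟩
  rw [abs_le] at hg
  obtain ⟨m, hm⟩ := heven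
  have hm' : m = -1 ∨ m = 0 ∨ m = 1 := by omega
  set n1 : Gamma0 N := ⟨-1, Grp.neg_one_mem_Gamma0 N⟩ with hn1
  rcases hm' with rfl | rfl | rfl
  · have h := hz (n1 * g) (by
      push_cast [hn1]
      rw [neg_one_mul, Grp.tr_neg, hm]; norm_num)
    rwa [ofMul_mul, map_add, apply_neg_one_eq_zero, zero_add] at h
  · have hsq : g * g = n1 := Subtype.ext (by
      push_cast [hn1]
      rw [Grp.tr_eq] at hm
      have e11 : (g : SL(2, ℤ)) 1 1 = -(g : SL(2, ℤ)) 0 0 := by linarith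
      rw [e11] at hd
      apply sl2_ext
      · rw [(entries_mul _ _).1]; simp; linear_combination -hd
      · rw [(entries_mul _ _).2.1, e11]; simp; ring
      · rw [(entries_mul _ _).2.2.1, e11]; simp; ring
      · rw [(entries_mul _ _).2.2.2, e11]; simp; linear_combination -hd)
    have h := congrArg (fun x => z (Additive.ofMul x)) hsq
    simp only [ofMul_mul, map_add] at h
    rw [hn1, apply_neg_one_eq_zero] at h
    revert h
    generalize z (Additive.ofMul g) = x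
    revert x
    decide
  · exact hz g (by rw [hm]; norm_num)

/-- `T_ℓ - 2` lands in `Hom_cl`. -/
theorem isClHom_perTransfer_sub [NeZero N] {ℓ : ℕ} [NeZero ℓ] (h2 : 2 ∣ N) (h3 : 3 ∣ N)
    (hℓ : ℓ.Prime) (h1 : (N : ℤ) ∣ (ℓ : ℤ) - 1) (z : Additive (Gamma0 N) →+ ZMod 3) :
    Grp.IsClHom (Gamma0 N) (Hecke.perTransfer N ℓ (ZMod 3) z - 2 • z) :=
  isClHom_of_killsTrTwo h2 fun g hg => by
    rw [AddMonoidHom.sub_apply, AddMonoidHom.nsmul_apply, perTransfer_parabolic h3 hℓ h1 z g hg,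
      sub_self]

end Fermat.Agent.RemoveThree
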