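import Mathlib.Algebra.Field.ZMod
import Fermat.Agent.Ihara.DegenComm
import Fermat.Agent.RemoveThree.Parabolic

/-!
# One step down: from `Γ₀(3L)` to `Γ₀(L)` for `6 ∣ L`, coefficients `ZMod 3`

`Γ₀(3L)` is normal of index three in `Γ₀(L)`; the cost is a possible twist of the system of
eigenvalues by `ℓ mod 3`.
-/

noncomputable section

open scoped MatrixGroups
open CongruenceSubgroup
open Fermat.Agent.Ihara (entries_mul entries_inv lowerE lowerE_entries)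

namespace Fermat.Agent.RemoveThree

/-- A nonzero class of level `N` with prescribed eigenvalues at the primes in `P`. -/
structure IsEigenClass (P : ℕ → Prop) (a : ℕ → ZMod 3) (N : ℕ) [NeZero N]
    (x : Additive (Gamma0 N) →+ ZMod 3) : Prop where
  ne_zero : x ≠ 0
  isCl : Grp.IsClHom (Gamma0 N) x
  eig : ∀ ℓ : ℕ, P ℓ → ∀ [NeZero ℓ], Hecke.perTransfer N ℓ (ZMod 3) x = a ℓ • x

theorem lowerE_mul_lowerE (x y : ℤ) : lowerE x * lowerE y = lowerE (x + y) := by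
  obtain ⟨a00, a01, a10, a11⟩ := lowerE_entries x
  obtain ⟨b00, b01, b10, b11⟩ := lowerE_entries y
  obtain ⟨c00, c01, c10, c11⟩ := lowerE_entries (x + y)
  apply sl2_ext
  · rw [(entries_mul _ _).1, a00, a01, b00, c00]; ring
  · rw [(entries_mul _ _).2.1, a00, a01, b01, b11, c01]; ring
  · rw [(entries_mul _ _).2.2.1, a10, a11, b00, b10, c10]; ring
  · rw [(entries_mul _ _).2.2.2, a10, a11, b01, b11, c11]; ring

theorem lowerE_zero : lowerE 0 = 1 := by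
  obtain ⟨a00, a01, a10, a11⟩ := lowerE_entries 0
  apply sl2_ext <;> simp [a00, a01, a10, a11]

theorem lowerE_inv (x : ℤ) : (lowerE x)⁻¹ = lowerE (-x) :=
  inv_eq_of_mul_eq_one_right (by rw [lowerE_mul_lowerE, add_neg_cancel, lowerE_zero])

/-- Entries of a conjugate by a lower unitriangular matrix. -/
theorem lowerE_conj (y : ℤ) (g : SL(2, ℤ)) :
    (lowerE y * g * lowerE (-y)) 0 0 = g 0 0 - g 0 1 * y ∧
    (lowerE y * g * lowerE (-y)) 0 1 = g 0 1 ∧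
    (lowerE y * g * lowerE (-y)) 1 0 = g 1 0 + y * (g 0 0 - g 1 1) - y * y * g 0 1 ∧
    (lowerE y * g * lowerE (-y)) 1 1 = g 1 1 + y * g 0 1 := by
  obtain ⟨a00, a01, a10, a11⟩ := lowerE_entries y
  obtain ⟨b00, b01, b10, b11⟩ := lowerE_entries (-y)
  refine ⟨?_, ?_, ?_, ?_⟩
  · rw [(entries_mul _ _).1, (entries_mul _ _).1, (entries_mul _ _).2.1, a00, a01, b00, b10]; ring
  · rw [(entries_mul _ _).2.1, (entries_mul _ _).1, (entries_mul _ _).2.1, a00, a01, b01, b11]; ring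
  · rw [(entries_mul _ _).2.2.1, (entries_mul _ _).2.2.1, (entries_mul _ _).2.2.2, a10, a11, b00,
      b10]; ring
  · rw [(entries_mul _ _).2.2.2, (entries_mul _ _).2.2.1, (entries_mul _ _).2.2.2, a10, a11, b01,
      b11]; ring

/-- For `3 ∣ N` the diagonal entries of a member of `Γ₀(N)` are congruent modulo `3` and square
to `1`. -/
theorem diag_congr {N : ℕ} (h : 3 ∣ N) (g : Gamma0 N) :
    ((3 : ℕ) : ℤ) ∣ g.1 0 0 - g.1 1 1 ∧ ((3 : ℕ) : ℤ) ∣ 1 - g.1 1 1 * g.1 1 1 := by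
  have hd := congrArg (Int.cast : ℤ → ZMod 3) (Hecke.Gamma0_det g)
  have hc : ((g.1 1 0 : ℤ) : ZMod 3) = 0 := (ZMod.intCast_zmod_eq_zero_iff_dvd _ _).2
    ((Int.natCast_dvd_natCast.2 h).trans (Hecke.Gamma0_dvd g))
  push_cast at hd
  rw [hc, mul_zero, sub_zero] at hd
  rw [← ZMod.intCast_zmod_eq_zero_iff_dvd, ← ZMod.intCast_zmod_eq_zero_iff_dvd]
  push_cast
  revert hd
  generalize ((g.1 0 0 : ℤ) : ZMod 3) = u
  generalize ((g.1 1 1 : ℤ) : ZMod 3) = v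
  revert u v
  decide

variable {L : ℕ}

theorem lowerE_conj_mem (h3 : 3 ∣ L) (n : ℤ) (h : Gamma0 (L * 3)) :
    lowerE (L * n) * h.1 * lowerE (-(L * n)) ∈ Gamma0 (L * 3) := by
  rw [Hecke.Gamma0_mem_iff_dvd, (lowerE_conj _ _).2.2.1]
  push_cast
  obtain ⟨e, he⟩ := (diag_congr (dvd_mul_left 3 L) h).1
  obtain ⟨m, hm⟩ := Hecke.Gamma0_dvd h
  obtain ⟨l, hl⟩ := h3
  push_cast at hm he
  rw [show h.1 1 0 = _ from hm, show h.1 0 0 - h.1 1 1 = _ from he,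
    show (L : ℤ) = 3 * l by rw [hl]; push_cast; ring]
  exact ⟨m + n * e - (l : ℤ) * n * n * h.1 0 1, by ring⟩

/-- Conjugation by `lowerE (L n)` on `Γ₀(3L)`. -/
def conjLow (h3 : 3 ∣ L) (n : ℤ) : Gamma0 (L * 3) →* Gamma0 (L * 3) :=
  MonoidHom.mk' (fun h => ⟨_, lowerE_conj_mem h3 n h⟩) fun a b => Subtype.ext (by
    push_cast
    rw [← lowerE_inv]
    group)

theorem conjLow_val (h3 : 3 ∣ L) (n : ℤ) (h : Gamma0 (L * 3)) :
    (conjLow h3 n h : SL(2, ℤ)) = lowerE (L * n) * h.1 * lowerE (-(L * n)) := rfl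

/-- The induced action on characters. -/
def shiftChar (h3 : 3 ∣ L) (n : ℤ) (x : Additive (Gamma0 (L * 3)) →+ ZMod 3) :
    Additive (Gamma0 (L * 3)) →+ ZMod 3 :=
  x.comp (MonoidHom.toAdditive (conjLow h3 n))

theorem shiftChar_apply (h3 : 3 ∣ L) (n : ℤ) (x : Additive (Gamma0 (L * 3)) →+ ZMod 3)
    (h : Gamma0 (L * 3)) :
    shiftChar h3 n x (Additive.ofMul h) = x (Additive.ofMul (conjLow h3 n h)) := rfl

theorem shiftChar_shiftChar (h3 : 3 ∣ L) (m n : ℤ) (x : Additive (Gamma0 (L * 3)) →+ ZMod 3) :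
    shiftChar h3 m (shiftChar h3 n x) = shiftChar h3 (m + n) x :=
  Hecke.addChar_ext fun h => by
    simp only [shiftChar_apply]
    congr 2
    apply Subtype.ext
    simp only [conjLow_val]
    rw [← lowerE_inv, ← lowerE_inv, ← lowerE_inv,
      show lowerE ((L : ℤ) * (m + n)) = lowerE ((L : ℤ) * n) * lowerE ((L : ℤ) * m) by
        rw [lowerE_mul_lowerE]; ring_nf]
    group

theorem lowerE_three_mem (L : ℕ) (k : ℤ) : lowerE (L * (3 * k)) ∈ Gamma0 (L * 3) := by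
  rw [Hecke.Gamma0_mem_iff_dvd, (lowerE_entries _).2.2.1]
  push_cast
  exact ⟨k, by ring⟩

theorem shiftChar_three (h3 : 3 ∣ L) (k : ℤ) (x : Additive (Gamma0 (L * 3)) →+ ZMod 3) :
    shiftChar h3 (3 * k) x = x :=
  Hecke.addChar_ext fun h => by
    rw [shiftChar_apply, show conjLow h3 (3 * k) h =
      ⟨_, lowerE_three_mem L k⟩ * h * (⟨_, lowerE_three_mem L k⟩ : Gamma0 (L * 3))⁻¹ from
        Subtype.ext (by push_cast; rw [conjLow_val, lowerE_inv]), Ihara.apply_conj]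

theorem shiftChar_congr (h3 : 3 ∣ L) {m n : ℤ} (h : (3 : ℤ) ∣ m - n)
    (x : Additive (Gamma0 (L * 3)) →+ ZMod 3) : shiftChar h3 m x = shiftChar h3 n x := by
  obtain ⟨k, hk⟩ := h
  rw [show m = n + 3 * k by linarith, ← shiftChar_shiftChar, shiftChar_three]

theorem shiftChar_zero (h3 : 3 ∣ L) (x : Additive (Gamma0 (L * 3)) →+ ZMod 3) :
    shiftChar h3 0 x = x := by
  simpa using shiftChar_three h3 0 x

theorem isClHom_shiftChar (h3 : 3 ∣ L) (n : ℤ) {x : Additive (Gamma0 (L * 3)) →+ ZMod 3}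
    (hx : Grp.IsClHom (Gamma0 (L * 3)) x) : Grp.IsClHom (Gamma0 (L * 3)) (shiftChar h3 n x) :=
  fun g hg => hx _ (by rwa [conjLow_val, ← lowerE_inv, Grp.tr_conj])

/-- `T_ℓ` intertwines pullbacks along two homomorphisms matched by `upperConj`. -/
theorem perTransfer_comp_two {N ℓ : ℕ} [NeZero N] [NeZero ℓ] {A : Type*} [AddCommGroup A]
    (hℓ : ℓ.Prime) (hN : ¬ ℓ ∣ N) (c c' : Gamma0 N →* Gamma0 N)
    (hU : ∀ γ, c γ ∈ Hecke.upperSub N ℓ ↔ γ ∈ Hecke.upperSub N ℓ)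
    (hc : ∀ h : Hecke.upperSub N ℓ,
      Hecke.upperConj N ℓ ⟨c h, (hU h).mpr h.2⟩ = c' (Hecke.upperConj N ℓ h))
    (φ : Additive (Gamma0 N) →+ A) :
    Hecke.perTransfer N ℓ A (φ.comp (MonoidHom.toAdditive c')) =
      (Hecke.perTransfer N ℓ A φ).comp (MonoidHom.toAdditive c) := by
  let r := Hecke.upperRepOpt hℓ hN
  have hr := Hecke.upperRepOpt_bijective hℓ hN
  let e := Equiv.ofBijective _ hr
  have hr' : Function.Bijective fun i =>
      ((c (r i) : Gamma0 N) : Gamma0 N ⧸ Hecke.upperSub N ℓ) := by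
    have hinj : Function.Injective fun i =>
        e.symm ((c (r i) : Gamma0 N) : Gamma0 N ⧸ Hecke.upperSub N ℓ) := by
      intro i j h
      have h2 := QuotientGroup.eq.mp (e.symm.injective h)
      rw [← map_inv, ← map_mul, hU] at h2
      exact hr.1 (QuotientGroup.eq.mpr h2)
    have hbij := e.bijective.comp (Finite.injective_iff_bijective.mp hinj)
    simpa [Function.comp_def] using hbij
  refine Hecke.addChar_ext fun γ => ?_
  let σ : Option (Fin ℓ) → Option (Fin ℓ) := fun i => e.symm (γ • e i)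
  have hσ : ∀ i, (r (σ i))⁻¹ * (γ * r i) ∈ Hecke.upperSub N ℓ := fun i => by
    refine QuotientGroup.eq.mp ?_
    show e (σ i) = γ • e i
    exact e.apply_symm_apply _
  have hσ' : ∀ i, (c (r (σ i)))⁻¹ * (c γ * c (r i)) ∈ Hecke.upperSub N ℓ := fun i => by
    rw [← map_inv, ← map_mul, ← map_mul, hU]; exact hσ i
  show _ = Hecke.perTransfer N ℓ A φ (Additive.ofMul (c γ))
  rw [Hecke.perTransfer, Hecke.transferHom_apply_reps _ _ r hr γ σ hσ,
    Hecke.transferHom_apply_reps _ φ (fun i => c (r i)) hr' (c γ) σ hσ']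
  refine Finset.sum_congr rfl fun i _ => ?_
  show φ (Additive.ofMul (c' (Hecke.upperConj N ℓ ⟨_, hσ i⟩))) = _
  rw [← hc]
  refine congrArg φ (congrArg Additive.ofMul (congrArg (Hecke.upperConj N ℓ) (Subtype.ext ?_)))
  simp only [map_mul, map_inv]

/-- `T_ℓ ∘ σ_{ℓ n} = σ_n ∘ T_ℓ`. -/
theorem perTransfer_shiftChar [NeZero L] (h3 : 3 ∣ L) {ℓ : ℕ} [NeZero ℓ] (hℓ : ℓ.Prime)
    (hℓN : ¬ ℓ ∣ L * 3) (n : ℤ) (x : Additive (Gamma0 (L * 3)) →+ ZMod 3) :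
    Hecke.perTransfer (L * 3) ℓ (ZMod 3) (shiftChar h3 (ℓ * n) x) =
      shiftChar h3 n (Hecke.perTransfer (L * 3) ℓ (ZMod 3) x) := by
  have hb : ∀ γ : Gamma0 (L * 3), (conjLow h3 n γ).1 0 1 = γ.1 0 1 := fun γ => by
    rw [conjLow_val, (lowerE_conj _ _).2.1]
  refine perTransfer_comp_two hℓ hℓN (conjLow h3 n) (conjLow h3 (ℓ * n))
    (fun γ => ?_) (fun h => ?_) x
  · rw [Hecke.mem_upperSub, Hecke.mem_upperSub, hb]
  · obtain ⟨b, hb'⟩ := Hecke.mem_upperSub.1 h.2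
    have hℓ0 : (ℓ : ℤ) ≠ 0 := by exact_mod_cast hℓ.ne_zero
    obtain ⟨p00, p01, p10, p11⟩ := lowerE_conj ((L : ℤ) * n) h.1.1
    obtain ⟨q00, q01, q10, q11⟩ :=
      lowerE_conj ((L : ℤ) * (ℓ * n)) (Hecke.upperConj (L * 3) ℓ h).1
    apply Hecke.Gamma0_ext <;>
      simp only [Hecke.upperConj_val, conjLow_val, p00, p01, p10, p11, q00, q01, q10, q11,
        Matrix.of_apply, Matrix.cons_val', Matrix.cons_val_zero, Matrix.cons_val_one,
        Matrix.cons_val_fin_one, show h.1.1 0 1 = _ from hb', Int.mul_ediv_cancel_left _ hℓ0]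
    all_goals ring

/-- `T_ℓ ∘ σ_n = σ_{ℓ n} ∘ T_ℓ`, as `ℓ² ≡ 1 (mod 3)`. -/
theorem perTransfer_shiftChar' [NeZero L] (h3 : 3 ∣ L) {ℓ : ℕ} [NeZero ℓ] (hℓ : ℓ.Prime)
    (hℓN : ¬ ℓ ∣ L * 3) (n : ℤ) (x : Additive (Gamma0 (L * 3)) →+ ZMod 3) :
    Hecke.perTransfer (L * 3) ℓ (ZMod 3) (shiftChar h3 n x) =
      shiftChar h3 (ℓ * n) (Hecke.perTransfer (L * 3) ℓ (ZMod 3) x) := by
  have hsq : ((3 : ℕ) : ℤ) ∣ n - (ℓ : ℤ) * (ℓ * n) := by
    rw [← ZMod.intCast_zmod_eq_zero_iff_dvd]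
    push_cast
    have h0 := natCast_ne_zero_of_not_dvd hℓ hℓN
    revert h0
    generalize (ℓ : ZMod 3) = u
    generalize (n : ZMod 3) = v
    revert u v
    decide
  rw [shiftChar_congr h3 (by exact_mod_cast hsq) x, perTransfer_shiftChar h3 hℓ hℓN]

theorem shiftChar_sub (h3 : 3 ∣ L) (n : ℤ) (x y : Additive (Gamma0 (L * 3)) →+ ZMod 3) :
    shiftChar h3 n (x - y) = shiftChar h3 n x - shiftChar h3 n y := rfl

theorem shiftChar_add (h3 : 3 ∣ L) (n : ℤ) (x y : Additive (Gamma0 (L * 3)) →+ ZMod 3) :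
    shiftChar h3 n (x + y) = shiftChar h3 n x + shiftChar h3 n y := rfl

theorem shiftChar_smul (h3 : 3 ∣ L) (n : ℤ) (c : ZMod 3)
    (x : Additive (Gamma0 (L * 3)) →+ ZMod 3) :
    shiftChar h3 n (c • x) = c • shiftChar h3 n x := rfl

/-- An eigenclass invariant under the translation, up to a twist of the system. -/
theorem exists_invariant [NeZero L] (h3 : 3 ∣ L) {P : ℕ → Prop} {a : ℕ → ZMod 3}
    (hP : ∀ ℓ, P ℓ → ℓ.Prime ∧ ¬ ℓ ∣ L * 3) {x : Additive (Gamma0 (L * 3)) →+ ZMod 3}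
    (hx : IsEigenClass P a (L * 3) x) :
    ∃ y, shiftChar h3 1 y = y ∧
      (IsEigenClass P a (L * 3) y ∨ IsEigenClass P (fun ℓ => (ℓ : ZMod 3) * a ℓ) (L * 3) y) := by
  have hT : ∀ ℓ, P ℓ → ∀ [NeZero ℓ], ∀ n : ℤ,
      Hecke.perTransfer (L * 3) ℓ (ZMod 3) (shiftChar h3 n x) =
        a ℓ • shiftChar h3 ((ℓ : ℤ) * n) x := fun ℓ hℓ _ n => by
    rw [perTransfer_shiftChar' h3 (hP ℓ hℓ).1 (hP ℓ hℓ).2, hx.eig ℓ hℓ, shiftChar_smul]
  have hres : ∀ ℓ, P ℓ → (3 : ℤ) ∣ (ℓ : ℤ) * 1 - 1 ∧ (3 : ℤ) ∣ (ℓ : ℤ) * 2 - 2 ∧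
      (ℓ : ZMod 3) = 1 ∨
      (3 : ℤ) ∣ (ℓ : ℤ) * 1 - 2 ∧ (3 : ℤ) ∣ (ℓ : ℤ) * 2 - 1 ∧ (ℓ : ZMod 3) = 2 := by
    intro ℓ hℓ
    obtain ⟨hp, hN⟩ := hP ℓ hℓ
    have h0 : ℓ % 3 ≠ 0 := fun h => hN (by
      rw [← (Nat.prime_dvd_prime_iff_eq Nat.prime_three hp).1 (Nat.dvd_of_mod_eq_zero h)]
      exact dvd_mul_left 3 L)
    rcases (show ℓ % 3 = 1 ∨ ℓ % 3 = 2 by omega) with h | h
    · exact Or.inl ⟨by omega, by omega,
        by rw [← ZMod.natCast_mod, h, Nat.cast_one]⟩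
    · exact Or.inr ⟨by omega, by omega, by rw [← ZMod.natCast_mod, h]; rfl⟩
  set x₁ := shiftChar h3 1 x with hx₁
  set x₂ := shiftChar h3 2 x with hx₂
  have h12 : shiftChar h3 1 x₁ = x₂ := by rw [hx₁, hx₂, shiftChar_shiftChar]; norm_num
  have h20 : shiftChar h3 1 x₂ = x := by
    rw [hx₂, shiftChar_shiftChar]; simpa using shiftChar_three h3 1 x
  by_cases c0 : x₁ = x
  · exact ⟨x, c0, Or.inl hx⟩
  by_cases c1 : x₂ - x₁ = x₁ - x
  · refine ⟨x₁ - x, by rw [shiftChar_sub, h12, ← hx₁, c1], Or.inr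
      ⟨sub_ne_zero.2 c0, ?_, fun ℓ hℓ _ => ?_⟩⟩
    · exact Submodule.sub_mem (Grp.clHoms (ZMod 3) (Gamma0 (L * 3)) (ZMod 3))
        (isClHom_shiftChar h3 1 hx.isCl) hx.isCl
    · rw [map_sub, hx₁, hT ℓ hℓ, hx.eig ℓ hℓ, ← smul_sub, mul_smul]
      rcases hres ℓ hℓ with ⟨e1, -, e⟩ | ⟨e1, -, e⟩
      · rw [shiftChar_congr h3 e1, ← hx₁, e, one_smul]
      · rw [shiftChar_congr h3 e1, ← hx₂, e, ← hx₁, smul_comm (2 : ZMod 3)]
        congr 1
        rw [show x₂ - x = (x₂ - x₁) + (x₁ - x) by abel, c1, two_smul]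
  · refine ⟨x + x₁ + x₂, by rw [shiftChar_add, shiftChar_add, h12, h20, ← hx₁]; abel, Or.inl
      ⟨fun h => c1 ?_, ?_, fun ℓ hℓ _ => ?_⟩⟩
    · refine Hecke.addChar_ext fun g => ?_
      have hg := DFunLike.congr_fun h (Additive.ofMul g)
      simp only [AddMonoidHom.add_apply, AddMonoidHom.sub_apply, AddMonoidHom.zero_apply] at hg ⊢
      revert hg
      generalize x (Additive.ofMul g) = u
      generalize x₁ (Additive.ofMul g) = v
      generalize x₂ (Additive.ofMul g) = w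
      revert u v w
      decide
    · exact Submodule.add_mem (Grp.clHoms (ZMod 3) (Gamma0 (L * 3)) (ZMod 3))
        (Submodule.add_mem _ hx.isCl (isClHom_shiftChar h3 1 hx.isCl))
        (isClHom_shiftChar h3 2 hx.isCl)
    · rw [map_add, map_add, hx₁, hx₂, hT ℓ hℓ, hT ℓ hℓ, hx.eig ℓ hℓ, ← smul_add, ← smul_add]
      rcases hres ℓ hℓ with ⟨e1, e2, -⟩ | ⟨e1, e2, -⟩
      · rw [shiftChar_congr h3 e1, shiftChar_congr h3 e2]
      · rw [shiftChar_congr h3 e1, shiftChar_congr h3 e2, add_right_comm]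

/-- The exponent of `lowerE L` in the decomposition `g ∈ Γ₀(3L) · (lowerE L) ^ j`. -/
def shiftIndex (g : Gamma0 L) : ℤ := g.1 1 1 * (g.1 1 0 / L)

theorem mul_lowerE_mem [NeZero L] (h3 : 3 ∣ L) (g : Gamma0 L) :
    g.1 * lowerE (-(L * shiftIndex g)) ∈ Gamma0 (L * 3) := by
  obtain ⟨b00, -, b10, -⟩ := lowerE_entries (-((L : ℤ) * shiftIndex g))
  rw [Hecke.Gamma0_mem_iff_dvd, (entries_mul _ _).2.2.1, b00, b10, shiftIndex]
  obtain ⟨m, hm⟩ := Hecke.Gamma0_dvd g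
  obtain ⟨e, he⟩ := (diag_congr h3 g).2
  push_cast at he ⊢
  rw [show g.1 1 0 = _ from hm, Int.mul_ediv_cancel_left _ (by exact_mod_cast NeZero.ne L)]
  exact ⟨m * e, by linear_combination ((L : ℤ) * m) * he⟩

/-- A class of `Γ₀(3L)` invariant under the translations descends to `Γ₀(L)` when its system is
non-Eisenstein at some `ℓ₀ ≡ 1 (mod 3L)`. -/
theorem exists_descend_of_invariant [NeZero L] (h2 : 2 ∣ L) (h3 : 3 ∣ L) {P : ℕ → Prop}
    (hP : ∀ ℓ, P ℓ → ℓ.Prime ∧ ¬ ℓ ∣ L * 3) {ℓ₀ : ℕ} (hℓ₀ : P ℓ₀)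
    (h1 : ((L * 3 : ℕ) : ℤ) ∣ (ℓ₀ : ℤ) - 1) {b : ℕ → ZMod 3} (hb : b ℓ₀ ≠ 2)
    {y : Additive (Gamma0 (L * 3)) →+ ZMod 3} (hinvn : ∀ n : ℤ, shiftChar h3 n y = y)
    (hy : IsEigenClass P b (L * 3) y) : ∃ w, IsEigenClass P b L w := by
  have hwell : ∀ (g : Gamma0 L) (n : ℤ) (hn : g.1 * lowerE (-(L * n)) ∈ Gamma0 (L * 3)),
      y (Additive.ofMul ⟨_, hn⟩) = y (Additive.ofMul ⟨_, mul_lowerE_mem h3 g⟩) := by
    intro g n hn
    have hu : lowerE ((L : ℤ) * (shiftIndex g - n)) ∈ Gamma0 (L * 3) := by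
      have e : lowerE ((L : ℤ) * (shiftIndex g - n)) =
          (g.1 * lowerE (-(L * shiftIndex g)))⁻¹ * (g.1 * lowerE (-(L * n))) := by
        rw [mul_inv_rev, lowerE_inv, mul_assoc, inv_mul_cancel_left, lowerE_mul_lowerE]
        ring_nf
      rw [e]
      exact mul_mem (inv_mem (mul_lowerE_mem h3 g)) hn
    have e : (⟨_, hn⟩ : Gamma0 (L * 3)) = ⟨_, mul_lowerE_mem h3 g⟩ * ⟨_, hu⟩ := Subtype.ext (by
      push_cast
      rw [mul_assoc, lowerE_mul_lowerE]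
      ring_nf)
    rw [e, ofMul_mul, map_add, hy.isCl ⟨_, hu⟩ (by rw [Ihara.tr_lowerE]; norm_num), add_zero]
  let z : Additive (Gamma0 L) →+ ZMod 3 :=
    AddMonoidHom.mk' (fun g => y (Additive.ofMul ⟨_, mul_lowerE_mem h3 (Additive.toMul g)⟩))
      fun A B => by
        obtain ⟨g, rfl⟩ := Additive.ofMul.surjective A
        obtain ⟨g', rfl⟩ := Additive.ofMul.surjective B
        simp only [toMul_add, toMul_ofMul]
        set j := shiftIndex g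
        set j' := shiftIndex g'
        have e : (g * g' : Gamma0 L).1 * lowerE (-(L * (j + j'))) =
            ((⟨_, mul_lowerE_mem h3 g⟩ : Gamma0 (L * 3)) *
              conjLow h3 j ⟨_, mul_lowerE_mem h3 g'⟩).1 := by
          push_cast
          rw [conjLow_val]
          simp only [mul_assoc, lowerE_mul_lowerE]
          rw [← mul_assoc (lowerE (-((L : ℤ) * j))), lowerE_mul_lowerE, neg_add_cancel,
            lowerE_zero, one_mul]
          congr 3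
          ring
        have hmem : (g * g' : Gamma0 L).1 * lowerE (-(L * (j + j'))) ∈ Gamma0 (L * 3) := by
          rw [e]; exact SetLike.coe_mem _
        rw [← hwell (g * g') (j + j') hmem,
          show (⟨_, hmem⟩ : Gamma0 (L * 3)) = _ from Subtype.ext e, ofMul_mul, map_add,
          ← shiftChar_apply, hinvn]
  have hz : Ihara.degA L 3 z = y := Hecke.addChar_ext fun h => by
    show y (Additive.ofMul ⟨_, mul_lowerE_mem h3 ⟨h.1, Ihara.Gamma0_le_mul L 3 h.2⟩⟩) = _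
    have hn : h.1 * lowerE (-((L : ℤ) * 0)) ∈ Gamma0 (L * 3) := by simp [lowerE_zero]
    rw [← hwell ⟨h.1, Ihara.Gamma0_le_mul L 3 h.2⟩ 0 hn]
    exact congrArg y (congrArg Additive.ofMul (Subtype.ext (by simp [lowerE_zero])))
  have : NeZero ℓ₀ := ⟨(hP ℓ₀ hℓ₀).1.ne_zero⟩
  have hp₀ := (hP ℓ₀ hℓ₀).1
  have hnd : ∀ ℓ, P ℓ → ¬ ℓ ∣ L ∧ ¬ ℓ ∣ 3 := fun ℓ hℓ =>
    ⟨fun h => (hP ℓ hℓ).2 (h.mul_right 3), fun h => (hP ℓ hℓ).2 (h.mul_left L)⟩
  set w := Hecke.perTransfer L ℓ₀ (ZMod 3) z - 2 • z with hw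
  have hwcl : Grp.IsClHom (Gamma0 L) w := isClHom_perTransfer_sub h2 h3 hp₀
    ((Int.natCast_dvd_natCast.2 (dvd_mul_right L 3)).trans h1) z
  have hres : Ihara.degA L 3 w = (b ℓ₀ - 2) • y := by
    have hTz := (Ihara.perTransfer_degA hp₀ (hnd _ hℓ₀).1 (hnd _ hℓ₀).2 z).symm
    rw [hz, hy.eig ℓ₀ hℓ₀] at hTz
    refine Hecke.addChar_ext fun h => ?_
    have h' := DFunLike.congr_fun hTz (Additive.ofMul h)
    rw [AddMonoidHom.smul_apply, smul_eq_mul] at h'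
    rw [AddMonoidHom.smul_apply, smul_eq_mul, sub_mul, ← h', ← hz, two_mul, ← two_nsmul]
    rfl
  refine ⟨w, fun h => ?_, hwcl, fun ℓ hℓ _ => ?_⟩
  · rw [h] at hres
    exact hy.ne_zero ((smul_eq_zero.1 (hres.symm.trans (by
      exact Hecke.addChar_ext fun _ => rfl))).resolve_left (sub_ne_zero.2 hb))
  · set v := Hecke.perTransfer L ℓ (ZMod 3) w - b ℓ • w with hv
    have hvcl : Grp.IsClHom (Gamma0 L) v :=
      Submodule.sub_mem (Grp.clHoms (ZMod 3) (Gamma0 L) (ZMod 3))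
        (Hecke.isClHom_perTransfer hwcl) (Submodule.smul_mem _ _ hwcl)
    have hv0 : ∀ h : Gamma0 (L * 3),
        v (Additive.ofMul ⟨h.1, Ihara.Gamma0_le_mul L 3 h.2⟩) = 0 := by
      intro h
      have hp := (hP ℓ hℓ).1
      have hTw := (Ihara.perTransfer_degA hp (hnd _ hℓ).1 (hnd _ hℓ).2 w).symm
      have hsm : Hecke.perTransfer (L * 3) ℓ (ZMod 3) ((b ℓ₀ - 2) • y) =
          (b ℓ₀ - 2) • Hecke.perTransfer (L * 3) ℓ (ZMod 3) y :=
        Hecke.transferHom_smul _ _ _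
      rw [hres, hsm, hy.eig ℓ hℓ, smul_comm, ← hres] at hTw
      have h' := DFunLike.congr_fun hTw (Additive.ofMul h)
      rw [AddMonoidHom.smul_apply] at h'
      exact sub_eq_zero.2 h'
    refine sub_eq_zero.1 (Hecke.addChar_ext fun g => ?_)
    have hu : lowerE (-((L : ℤ) * shiftIndex g)) ∈ Gamma0 L := by
      rw [Hecke.Gamma0_mem_iff_dvd, (lowerE_entries _).2.2.1]
      exact (dvd_mul_right _ _).neg_right
    have h0 := hv0 ⟨_, mul_lowerE_mem h3 g⟩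
    rw [show (⟨g.1 * lowerE (-((L : ℤ) * shiftIndex g)),
        Ihara.Gamma0_le_mul L 3 (mul_lowerE_mem h3 g)⟩ : Gamma0 L) = g * ⟨_, hu⟩ from rfl,
      ofMul_mul, map_add, hvcl ⟨_, hu⟩ (by rw [Ihara.tr_lowerE]; norm_num), add_zero] at h0
    exact h0

/-- **One step down.** -/
theorem exists_descend [NeZero L] (h2 : 2 ∣ L) (h3 : 3 ∣ L) {P : ℕ → Prop} {a : ℕ → ZMod 3}
    (hP : ∀ ℓ, P ℓ → ℓ.Prime ∧ ¬ ℓ ∣ L * 3) {ℓ₀ : ℕ} (hℓ₀ : P ℓ₀)
    (h1 : ((L * 3 : ℕ) : ℤ) ∣ (ℓ₀ : ℤ) - 1) (ha : a ℓ₀ ≠ 2)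
    {x : Additive (Gamma0 (L * 3)) →+ ZMod 3} (hx : IsEigenClass P a (L * 3) x) :
    ∃ w, IsEigenClass P a L w ∨ IsEigenClass P (fun ℓ => (ℓ : ZMod 3) * a ℓ) L w := by
  obtain ⟨y, hinv, hy⟩ := exists_invariant h3 hP hx
  have hinvn : ∀ n : ℤ, shiftChar h3 n y = y := by
    intro n
    have h2' : shiftChar h3 2 y = y := by
      rw [show (2 : ℤ) = 1 + 1 by norm_num, ← shiftChar_shiftChar, hinv, hinv]
    rcases (show (3 : ℤ) ∣ n - 0 ∨ (3 : ℤ) ∣ n - 1 ∨ (3 : ℤ) ∣ n - 2 by omega) with h | h | h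
    · rw [shiftChar_congr h3 h, shiftChar_zero]
    · rw [shiftChar_congr h3 h, hinv]
    · rw [shiftChar_congr h3 h, h2']
  rcases hy with hy | hy
  · obtain ⟨w, hw⟩ := exists_descend_of_invariant h2 h3 hP hℓ₀ h1 ha hinvn hy
    exact ⟨w, Or.inl hw⟩
  · have h31 : (ℓ₀ : ZMod 3) = 1 := natCast_eq_one_of_dvd_sub_one (dvd_mul_left 3 L) h1
    obtain ⟨w, hw⟩ := exists_descend_of_invariant h2 h3 hP hℓ₀ h1
      (b := fun ℓ => (ℓ : ZMod 3) * a ℓ) (by rwa [h31, one_mul]) hinvn hy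
    exact ⟨w, Or.inr hw⟩

end Fermat.Agent.RemoveThree
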