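import Fermat.Agent.Attach.Eigvec
import Fermat.Agent.Attach.Model
import Fermat.Agent.Eis.CongruentClass
import Fermat.Agent.Eis.EigenLift
import Fermat.Agent.Ihara.RaiseBase
import Fermat.Agent.LoweringAtP.HeckeCompat.Theta
import Fermat.Agent.MF.IntegralBasis
import Fermat.Agent.RemoveThree.Descent

/-!
# Eigenforms mod `3` and eigenclasses in `Hom_cl(Γ₀(N), ZMod 3)`

The dictionary between residual systems of eigenvalues and eigenclasses in the cohomology with
coefficients in `ZMod 3`, on which the descent acts.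
-/

noncomputable section

open CongruenceSubgroup ModularFormClass
open scoped MatrixGroups

namespace Fermat.Agent.RemoveThree

/-- A normalised eigenform of level `N` congruent mod `3` to the system `a` on `P`. -/
def ResidualSystem (P : ℕ → Prop) (a : ℕ → ℤ) (N : ℕ) : Prop :=
  ∃ (f : CuspForm (Gamma0 N) 2) (𝔪 : Ideal (integralClosure ℤ ℂ)),
    f.IsNormalizedEigenform ∧ 𝔪.IsMaximal ∧ ((3 : ℕ) : integralClosure ℤ ℂ) ∈ 𝔪 ∧
    ∀ ℓ : ℕ, P ℓ → ∃ c : integralClosure ℤ ℂ,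
      (c : ℂ) = qCoeff f ℓ ∧ c - (a ℓ : integralClosure ℤ ℂ) ∈ 𝔪

variable {N : ℕ} [NeZero N] {P : ℕ → Prop}

/-- Reduction mod `3` of the lattice. -/
def redThree (N : ℕ) : Attach.clLattice N →+ Ihara.clH (ZMod 3) N :=
  Ihara.clMap (Int.castRingHom (ZMod 3))

omit [NeZero N] in
theorem redThree_val (u : Attach.clLattice N) :
    (redThree N u : Additive (Gamma0 N) →+ ZMod 3) =
      (Int.castRingHom (ZMod 3)).toAddMonoidHom.comp (u : Additive (Gamma0 N) →+ ℤ) := rfl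

/-- `T_ℓ` commutes with reduction. -/
theorem redThree_hecke {ℓ : ℕ} [NeZero ℓ] (hℓ : ℓ.Prime) (hℓN : ¬ ℓ ∣ N)
    (u : Attach.clLattice N) :
    (redThree N (Attach.latticeHecke N (CuspForm.heckeAlgebra.T hℓ hℓN hℓN) u) :
        Additive (Gamma0 N) →+ ZMod 3) =
      Hecke.perTransfer N ℓ (ZMod 3) (redThree N u : Additive (Gamma0 N) →+ ZMod 3) := by
  rw [redThree_val, redThree_val, Attach.latticeHecke_T]
  exact (Hecke.transferHom_comp (Hecke.upperConj N ℓ) (Int.castRingHom (ZMod 3)).toAddMonoidHom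
    u.1).symm

/-- `Attach.exists_eigvec` over `ZMod 3`. -/
theorem exists_eigvec_three {T : Type*} [CommRing T] {r : ℕ}
    (ψ : T →+* Matrix (Fin r) (Fin r) ℤ) (hψ : Function.Injective ψ) (θ : T →+* ZMod 3) :
    ∃ v : Fin r → ZMod 3, v ≠ 0 ∧
      ∀ (t : T) (i : Fin r), ∑ j, (ψ t i j : ZMod 3) * v j = θ t * v i := by
  have : Fact (Nat.Prime 3) := ⟨Nat.prime_three⟩
  obtain ⟨v, hv0, hv⟩ := Attach.exists_eigvec ψ hψ θ
  exact ⟨v, hv0, fun t i => congrFun (hv t) i⟩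

/-- `perTransfer` is linear over `ZMod 3`. -/
theorem perTransfer_smul {ℓ : ℕ} [NeZero ℓ] (c : ZMod 3) (φ : Additive (Gamma0 N) →+ ZMod 3) :
    Hecke.perTransfer N ℓ (ZMod 3) (c • φ) = c • Hecke.perTransfer N ℓ (ZMod 3) φ :=
  Hecke.transferHom_smul _ _ _

/-- From a congruent eigenform to an eigenclass. -/
theorem exists_eigenClass (hP : ∀ ℓ, P ℓ → ℓ.Prime ∧ ¬ ℓ ∣ N) {a : ℕ → ℤ}
    (h : ResidualSystem P a N) :
    ∃ x, IsEigenClass P (fun ℓ => (a ℓ : ZMod 3)) N x := by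
  classical
  obtain ⟨g, 𝔪, hg, h𝔪, h3, hcong⟩ := h
  have hNS : ∀ q, q.Prime → q ∣ N → q ∈ {q | ¬ P q} := fun q _ hqN hq => (hP q hq).2 hqN
  let M := Attach.torsionModel N 3
  obtain ⟨θ, hθ⟩ := @LoweringAtP.HeckeCompat.exists_theta_of_congr _ _ 3 ⟨Nat.prime_three⟩ g hg
    _ hNS M 𝔪
    h𝔪 h3 a
    (fun ℓ _ _ hℓS => hcong ℓ (not_not.1 hℓS))
  have : Module.Free ℤ (Attach.clLattice N) := M.instFree
  have : Module.Finite ℤ (Attach.clLattice N) := M.instFinite
  let b := Module.finBasis ℤ (Attach.clLattice N)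
  let ψ := ((LinearMap.toMatrixAlgEquiv b).toRingEquiv.toRingHom.comp
    (Attach.latticeHecke N)).comp (Attach.toAnemic hNS)
  have hψ : Function.Injective ψ :=
    ((LinearMap.toMatrixAlgEquiv b).injective.comp (Attach.latticeHecke_injective N)).comp
      (Attach.toAnemic_injective hNS)
  obtain ⟨v, hv0, hv⟩ := exists_eigvec_three ψ hψ θ
  let x : Grp.clHoms (ZMod 3) (Gamma0 N) (ZMod 3) := ∑ i, v i • redThree N (b i)
  have hx : (x : Additive (Gamma0 N) →+ ZMod 3) =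
      ∑ i, v i • (redThree N (b i) : Additive (Gamma0 N) →+ ZMod 3) := by
    simp only [x, AddSubmonoidClass.coe_finsetSum, Submodule.coe_smul]
  refine ⟨x, ⟨fun h0 => hv0 ?_, x.2, fun ℓ hℓ _ => ?_⟩⟩
  · let w : Attach.clLattice N := ∑ i, ((v i).val : ℤ) • b i
    have hw : redThree N w = 0 := by
      rw [show redThree N w = x from ?_, show x = 0 from Subtype.ext h0]
      simp only [w, x, map_sum, map_zsmul]
      refine Finset.sum_congr rfl fun i _ => ?_
      rw [← Int.cast_smul_eq_zsmul (ZMod 3), Int.cast_natCast, ZMod.natCast_val, ZMod.cast_id]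
    obtain ⟨w', hw'⟩ := Ihara.exists_of_clMap_eq_zero (by norm_num) w hw
    funext i
    have h1 := congrArg (fun u => b.repr u i) hw'
    simp only [w, b.repr_sum_self, map_zsmul, Finsupp.smul_apply, smul_eq_mul] at h1
    have h2 := congrArg (Int.cast : ℤ → ZMod 3) h1
    push_cast at h2
    rw [ZMod.natCast_val, ZMod.cast_id, show (3 : ZMod 3) = 0 from rfl, zero_mul] at h2
    exact h2
  · have hp := (hP ℓ hℓ).1
    have hN := (hP ℓ hℓ).2
    have hS : ℓ ∉ {q | ¬ P q} := fun h => h hℓ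
    set t := CuspForm.heckeAlgebra.T (k := 2) hp hN hS
    have hval : Attach.toAnemic hNS t = CuspForm.heckeAlgebra.T hp hN hN := Subtype.ext rfl
    have hb : ∀ j, Hecke.perTransfer N ℓ (ZMod 3)
        (redThree N (b j) : Additive (Gamma0 N) →+ ZMod 3) =
        ∑ i, (ψ t i j : ZMod 3) • (redThree N (b i) : Additive (Gamma0 N) →+ ZMod 3) := by
      intro j
      have h1 : Attach.latticeHecke N (Attach.toAnemic hNS t) (b j) = ∑ i, ψ t i j • b i := by
        conv_lhs => rw [← b.sum_repr (Attach.latticeHecke N (Attach.toAnemic hNS t) (b j))]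
        refine Finset.sum_congr rfl fun i _ => ?_
        congr 1
        exact (LinearMap.toMatrixAlgEquiv_apply b _ i j).symm
      have h2 := congrArg (fun u => (redThree N u : Additive (Gamma0 N) →+ ZMod 3)) h1
      simp only [map_sum, map_zsmul, AddSubmonoidClass.coe_finsetSum,
        ← Int.cast_smul_eq_zsmul (ZMod 3), Submodule.coe_smul] at h2
      rw [hval, redThree_hecke hp hN] at h2
      exact h2
    rw [hx, map_sum, Finset.smul_sum, Finset.sum_congr rfl fun j _ => perTransfer_smul _ _]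
    simp only [hb, Finset.smul_sum, smul_smul]
    rw [Finset.sum_comm]
    refine Finset.sum_congr rfl fun i _ => ?_
    rw [← Finset.sum_smul]
    congr 1
    have h3 := hv t i
    rw [hθ ℓ hp hN hS] at h3
    rw [← h3]
    exact Finset.sum_congr rfl fun j _ => mul_comm _ _

/-- A mod `3` character of the Hecke algebra away from `S` lifts to a congruent eigenform. -/
theorem residualSystem_of_theta {S : Set ℕ}
    (hP : ∀ ℓ, P ℓ → ℓ.Prime ∧ ¬ ℓ ∣ N ∧ ℓ ∉ S) (a : ℕ → ℤ)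
    (θ : CuspForm.heckeAlgebra N 2 S →+* ZMod 3)
    (hθ : ∀ (ℓ : ℕ) (hℓ : ℓ.Prime) (hℓN : ¬ ℓ ∣ N) (hℓS : ℓ ∉ S),
      θ (CuspForm.heckeAlgebra.T hℓ hℓN hℓS) = (a ℓ : ZMod 3)) :
    ResidualSystem P a N := by
  classical
  have := Eis.moduleFinite_heckeAlgebra (N := N) (MF.hasIntegralStructure N 2)
  let i : CuspForm.heckeAlgebra N 2 S →+* CuspForm.heckeAlgebra N 2 (∅ : Set ℕ) :=
    (Subalgebra.inclusion (CuspForm.heckeAlgebra_mono (Set.empty_subset _))).toRingHom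
  have : Fact (Nat.Prime 3) := ⟨Nat.prime_three⟩
  have hker : (RingHom.ker θ).IsMaximal :=
    RingHom.ker_isMaximal_of_surjective θ (ZMod.ringHom_surjective θ)
  let : Algebra (CuspForm.heckeAlgebra N 2 S) (CuspForm.heckeAlgebra N 2 (∅ : Set ℕ)) :=
    i.toAlgebra
  have : IsScalarTower ℤ (CuspForm.heckeAlgebra N 2 S) (CuspForm.heckeAlgebra N 2 (∅ : Set ℕ)) :=
    IsScalarTower.of_algebraMap_eq' (RingHom.ext_int _ _)
  have : Algebra.IsIntegral (CuspForm.heckeAlgebra N 2 S)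
      (CuspForm.heckeAlgebra N 2 (∅ : Set ℕ)) :=
    ⟨fun x => (Algebra.IsIntegral.isIntegral (R := ℤ) x).tower_top⟩
  obtain ⟨m, hm, hmc⟩ := Ideal.exists_ideal_over_maximal_of_isIntegral
    (S := CuspForm.heckeAlgebra N 2 (∅ : Set ℕ)) (RingHom.ker θ) (fun t ht => by
      have : t = 0 := Subtype.ext (congrArg Subtype.val (RingHom.mem_ker.1 ht) :)
      rw [this]; exact zero_mem _)
  obtain ⟨g, hg, χ, 𝔐, h𝔐, hχm, hχ⟩ := Eis.exists_eigenform_of_maximalIdeal m
  have hmem : ∀ t, θ t = 0 → χ (i t) ∈ 𝔐 := fun t ht => by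
    have h1 : t ∈ m.comap i := by
      rw [show m.comap i = RingHom.ker θ from hmc]
      exact RingHom.mem_ker.2 ht
    rw [← hχm] at h1
    exact h1
  refine ⟨g, 𝔐, hg, h𝔐, ?_, fun ℓ hℓ => ?_⟩
  · have := hmem ((3 : ℕ) : CuspForm.heckeAlgebra N 2 S) (by rw [map_natCast, ZMod.natCast_self])
    rwa [map_natCast, map_natCast] at this
  · obtain ⟨hp, hℓN, hℓS⟩ := hP ℓ hℓ
    refine ⟨χ (i (CuspForm.heckeAlgebra.T hp hℓN hℓS)), ?_, ?_⟩
    · have hgen' : i (CuspForm.heckeAlgebra.T hp hℓN hℓS) =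
          CuspForm.heckeFormsGen N 2 ⟨ℓ, hp⟩ := by
        rw [CuspForm.heckeFormsGen_of_not_dvd (ℓ := ⟨ℓ, hp⟩) hℓN]; rfl
      rw [hgen', hχ ℓ hp]
    · have h := hmem (CuspForm.heckeAlgebra.T hp hℓN hℓS -
        (a ℓ : CuspForm.heckeAlgebra N 2 S)) (by rw [map_sub, map_intCast, hθ, sub_self])
      rwa [map_sub, map_intCast, map_sub, map_intCast] at h

/-- From an eigenclass to a congruent eigenform. -/
theorem residualSystem_of_eigenClass (hP : ∀ ℓ, P ℓ → ℓ.Prime ∧ ¬ ℓ ∣ N) (a : ℕ → ℤ)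
    {x : Additive (Gamma0 N) →+ ZMod 3} (hx : IsEigenClass P (fun ℓ => (a ℓ : ZMod 3)) N x) :
    ResidualSystem P a N := by
  classical
  set S : Set ℕ := {q | ¬ P q}
  have hNS : ∀ q, q.Prime → q ∣ N → q ∈ S := fun q _ hqN hq => (hP q hq).2 hqN
  obtain ⟨x₀, hx₀⟩ : ∃ x₀, redThree N x₀ = ⟨x, hx.isCl⟩ :=
    Ihara.clMap_surjective (k := ZMod 3) (Grp.neg_one_mem_Gamma0 N)
      (fun c => ⟨(c.val : ℤ), by
        rw [eq_intCast, Int.cast_natCast, ZMod.natCast_val, ZMod.cast_id]⟩) ⟨x, hx.isCl⟩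
  let ρ : CuspForm.heckeAlgebra N 2 S →+* Module.End ℤ (Attach.clLattice N) :=
    (Attach.latticeHecke N).comp (Attach.toAnemic hNS)
  let InLine (u : Attach.clLattice N) : Prop := ∃ e : ZMod 3, redThree N u = e • redThree N x₀
  let C : Subring (Module.End ℤ (Attach.clLattice N)) :=
    { carrier := {f | ∃ c : ZMod 3, ∀ u, InLine u → redThree N (f u) = c • redThree N u}
      one_mem' := ⟨1, fun u _ => by rw [Module.End.one_apply, one_smul]⟩
      zero_mem' := ⟨0, fun u _ => by rw [LinearMap.zero_apply, map_zero, zero_smul]⟩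
      add_mem' := by
        rintro f g ⟨c, hc⟩ ⟨d, hd⟩
        exact ⟨c + d, fun u hu => by rw [LinearMap.add_apply, map_add, hc u hu, hd u hu, add_smul]⟩
      neg_mem' := by
        rintro f ⟨c, hc⟩
        exact ⟨-c, fun u hu => by
          rw [LinearMap.neg_apply, map_neg, hc u hu]; exact (neg_smul c (redThree N u)).symm⟩
      mul_mem' := by
        rintro f g ⟨c, hc⟩ ⟨d, hd⟩
        refine ⟨c * d, fun u hu => ?_⟩
        obtain ⟨e, he⟩ := hu
        rw [Module.End.mul_apply, hc (g u) ⟨d * e, by rw [hd u ⟨e, he⟩, he, smul_smul]⟩,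
          hd u ⟨e, he⟩, smul_smul] }
  have hgen : ∀ (ℓ : ℕ) (hℓ : ℓ.Prime) (hℓN : ¬ ℓ ∣ N) (hℓS : ℓ ∉ S) (u : Attach.clLattice N),
      InLine u → redThree N (ρ (CuspForm.heckeAlgebra.T hℓ hℓN hℓS) u) =
        (a ℓ : ZMod 3) • redThree N u := by
    intro ℓ hℓ hℓN hℓS u hu
    obtain ⟨e, he⟩ := hu
    have : NeZero ℓ := ⟨hℓ.ne_zero⟩
    have hval : Attach.toAnemic hNS (CuspForm.heckeAlgebra.T hℓ hℓN hℓS) =
        CuspForm.heckeAlgebra.T hℓ hℓN hℓN := Subtype.ext rfl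
    refine Subtype.ext ?_
    show (redThree N (Attach.latticeHecke N (Attach.toAnemic hNS _) u) :
      Additive (Gamma0 N) →+ ZMod 3) = _
    have hX : (redThree N x₀ : Additive (Gamma0 N) →+ ZMod 3) = x := congrArg Subtype.val hx₀
    rw [hval, redThree_hecke hℓ hℓN, Submodule.coe_smul, he, Submodule.coe_smul, hX]
    rw [perTransfer_smul, hx.eig ℓ (not_not.1 hℓS), smul_comm]
  have hall : ∀ t, ρ t ∈ C := Attach.forall_mem_of_T_mem (fun q hq hq' => hNS q hq' hq) ρ C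
    fun ℓ hℓ hℓN hℓS => ⟨a ℓ, hgen ℓ hℓ hℓN hℓS⟩
  choose c hc using hall
  have hline : InLine x₀ := ⟨1, (one_smul _ _).symm⟩
  have inj : ∀ {r s : ZMod 3}, r • redThree N x₀ = s • redThree N x₀ → r = s := fun {r s} h => by
    obtain ⟨γ, hγ⟩ : ∃ γ, x γ ≠ 0 := by
      by_contra! hall
      exact hx.ne_zero (AddMonoidHom.ext hall)
    have h' := congrArg (fun u : Ihara.clH (ZMod 3) N => (u : Additive (Gamma0 N) →+ ZMod 3) γ) h
    rw [hx₀] at h'
    have h'' : r * x γ = s * x γ := h'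
    exact (by decide : ∀ r s y : ZMod 3, y ≠ 0 → r * y = s * y → r = s) r s _ hγ h''
  let θ : CuspForm.heckeAlgebra N 2 S →+* ZMod 3 :=
    { toFun := c
      map_one' := inj (by rw [← hc _ _ hline, map_one, Module.End.one_apply, one_smul])
      map_mul' := fun t u => inj (by
        rw [← hc _ _ hline, map_mul, Module.End.mul_apply,
          hc t _ ⟨c u, hc u _ hline⟩, hc u _ hline, smul_smul])
      map_zero' := inj (by
        rw [← hc _ _ hline, map_zero, LinearMap.zero_apply, map_zero, zero_smul])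
      map_add' := fun t u => inj (by
        rw [← hc _ _ hline, map_add, LinearMap.add_apply, map_add, hc t _ hline, hc u _ hline,
          add_smul]) }
  have hθ : ∀ (ℓ : ℕ) (hℓ : ℓ.Prime) (hℓN : ¬ ℓ ∣ N) (hℓS : ℓ ∉ S),
      θ (CuspForm.heckeAlgebra.T hℓ hℓN hℓS) = (a ℓ : ZMod 3) := fun ℓ hℓ hℓN hℓS =>
    inj ((hc _ _ hline).symm.trans (hgen ℓ hℓ hℓN hℓS _ hline))
  exact residualSystem_of_theta (S := S)
    (fun ℓ hℓ => ⟨(hP ℓ hℓ).1, (hP ℓ hℓ).2, fun h => h hℓ⟩) a θ hθ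

end Fermat.Agent.RemoveThree
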