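import Fermat.Agent.Gal.Density
import Fermat.Agent.RemoveThree.Descent
import Fermat.Agent.ResidualThree.Galois.Image

/-!
# An auxiliary prime for the descent at `3`

A prime `ℓ ≡ 1 (mod n)` with `a_ℓ ≢ 2 (mod 3)`, and the doubling of a level.
-/

noncomputable section

open scoped MatrixGroups
open CongruenceSubgroup WeierstrassCurve
open Fermat.Agent.Ihara (entries_mul lowerE upperE lowerE_entries upperE_entries)

namespace Fermat.Agent.RemoveThree

local notation "Qbar" => AlgebraicClosure ℚ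
local notation "GQ" => AlgebraicClosure ℚ ≃ₐ[ℚ] AlgebraicClosure ℚ
local notation "M2" => Matrix (Fin 2) (Fin 2) (ZMod 3)

/-- Powers of a unipotent matrix have trace `2`. -/
theorem trace_pow_of_unipotent (a : ℕ) {A : M2} (ht : A.trace = 2) (hd : A.det = 1) :
    (A ^ a).trace = 2 ∧ (A ^ (a + 1)).trace = 2 := by
  induction a with
  | zero => exact ⟨by rw [pow_zero, Matrix.trace_one]; rfl, by rwa [zero_add, pow_one]⟩
  | succ a ih =>
    refine ⟨ih.2, ?_⟩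
    have hsq : A * A = (2 : ZMod 3) • A - 1 := by
      rw [Matrix.det_fin_two] at hd
      rw [Matrix.trace_fin_two] at ht
      ext i j
      fin_cases i <;> fin_cases j <;>
        simp [Matrix.mul_apply, Fin.sum_univ_two]
      · linear_combination (A 0 0) * ht - hd
      · linear_combination (A 0 1) * ht
      · linear_combination (A 1 0) * ht
      · linear_combination (A 1 1) * ht - hd
    rw [show a + 1 + 1 = a + 2 by omega, pow_add, pow_two, hsq, mul_sub, mul_one, mul_smul_comm,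
      ← pow_succ, Matrix.trace_sub, Matrix.trace_smul, ih.1, ih.2]
    rfl

/-- A prime `ℓ ≡ 1 (mod n)` of good reduction outside `S` with `a_ℓ ≢ 2 (mod 3)`. -/
theorem exists_prime_one_mod {W : WeierstrassCurve ℤ} (hΔ : W.Δ ≠ 0) (hW : W.IsSemistableModel)
    (h3 : W.ModRepIsIrreducible 3) {n : ℕ} (hn : 0 < n) (S : Finset ℕ) :
    ∃ ℓ : ℕ, ℓ.Prime ∧ ℓ ∉ S ∧ W.IsGoodPrimeFor ℓ ∧ (n : ℤ) ∣ (ℓ : ℤ) - 1 ∧
      (W.apOfModel ℓ : ZMod 3) ≠ 2 := by
  classical
  have hsurj := ResidualThree.rho_surjective hΔ hW h3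
  obtain ⟨s, hs⟩ := hsurj (Matrix.GeneralLinearGroup.mkOfDetNeZero !![1, 1; 0, 1] (by
    rw [Matrix.det_fin_two_of]; decide))
  obtain ⟨t, ht⟩ := hsurj (Matrix.GeneralLinearGroup.mkOfDetNeZero !![1, 0; 1, 1] (by
    rw [Matrix.det_fin_two_of]; decide))
  set g : GQ := s⁻¹ * t⁻¹ * s * t with hg
  have hgtr : (ResidualThree.rho hΔ g : M2).trace ≠ 2 := by
    rw [hg, map_mul, map_mul, map_mul, map_inv, map_inv, hs, ht]
    simp only [Units.val_mul, Matrix.coe_units_inv]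
    simp only [Matrix.GeneralLinearGroup.mkOfDetNeZero, Matrix.GeneralLinearGroup.mk',
      Matrix.unitOfDetInvertible, Matrix.inv_def]
    simp [Matrix.trace_fin_two]
    decide
  have hgdet : (ResidualThree.rho hΔ g : M2).det = 1 := by
    rw [hg, map_mul, map_mul, map_mul, map_inv, map_inv, hs, ht]
    simp only [Units.val_mul, Matrix.det_mul, Matrix.coe_units_inv, Matrix.det_nonsing_inv]
    simp [Matrix.GeneralLinearGroup.mkOfDetNeZero, Matrix.GeneralLinearGroup.mk',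
      Matrix.unitOfDetInvertible, Matrix.det_fin_two_of]
  have : NeZero n := ⟨hn.ne'⟩
  have : NeZero (n : Qbar) := ⟨Nat.cast_ne_zero.2 hn.ne'⟩
  obtain ⟨ζ, hζ⟩ := HasEnoughRootsOfUnity.exists_primitiveRoot Qbar n
  have hpow : ∀ σ : GQ, ∃ i : ℕ, σ ζ = ζ ^ i := fun σ => by
    obtain ⟨i, -, hi⟩ := hζ.eq_pow_of_pow_eq_one (ξ := σ ζ)
      (by rw [← map_pow, hζ.pow_eq_one, map_one])
    exact ⟨i, hi.symm⟩
  have hgζ : g ζ = ζ := by
    obtain ⟨i, hi⟩ := hpow s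
    obtain ⟨j, hj⟩ := hpow t
    have e : s (t ζ) = t (s ζ) := by rw [hi, hj, map_pow, map_pow, hi, hj, ← pow_mul, ← pow_mul,
      mul_comm]
    rw [hg]
    show s.symm (t.symm (s (t ζ))) = ζ
    rw [e, AlgEquiv.symm_apply_apply, AlgEquiv.symm_apply_apply]
  obtain ⟨L, hL, hLρ⟩ := ResidualThree.rho_factors hΔ
  have : FiniteDimensional ℚ L := hL
  let F : IntermediateField ℚ Qbar := IntermediateField.adjoin ℚ {ζ}
  have : FiniteDimensional ℚ F :=
    IntermediateField.adjoin.finiteDimensional (Algebra.IsIntegral.isIntegral ζ)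
  obtain ⟨ℓ, hℓ, hℓS, A, hA, σ, hσ, a, b, hga, hσb⟩ :=
    Gal.exists_frobenius_generates (L ⊔ F) g (S ∪ W.Δ.natAbs.primeFactors ∪ n.primeFactors ∪ {3})
  simp only [Finset.mem_union, Finset.mem_singleton, not_or] at hℓS
  obtain ⟨⟨⟨hS, hΔℓ⟩, hnℓ⟩, h3ℓ⟩ := hℓS
  have hgood : W.IsGoodPrimeFor ℓ := fun hd => hΔℓ (Nat.mem_primeFactors.2
    ⟨hℓ, Int.natCast_dvd.1 hd, Int.natAbs_ne_zero.2 hΔ⟩)
  have hnd : ¬ ℓ ∣ n := fun hd => hnℓ (Nat.mem_primeFactors.2 ⟨hℓ, hd, hn.ne'⟩)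
  have hζF : ζ ∈ L ⊔ F :=
    (le_sup_right : F ≤ L ⊔ F) (IntermediateField.mem_adjoin_simple_self ℚ ζ)
  have hσζ : σ ζ = ζ := by
    rw [hσb ζ hζF]
    clear hσb hga
    induction b with
    | zero => rfl
    | succ b ih => rw [pow_succ, AlgEquiv.mul_apply, hgζ, ih]
  have hdvd : n ∣ ℓ - 1 := by
    rw [← hζ.pow_eq_one_iff_dvd]
    have h := Gal.isFrobeniusAt_rootOfUnity hℓ hA hσ hnd hζ.pow_eq_one
    rw [hσζ, show ℓ = ℓ - 1 + 1 from (Nat.succ_pred_eq_of_pos hℓ.pos).symm, pow_succ] at h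
    exact mul_right_cancel₀ (hζ.ne_zero hn.ne') (h.symm.trans (one_mul ζ).symm)
  have hℓ1 : (n : ℤ) ∣ (ℓ : ℤ) - 1 := by
    have := Int.natCast_dvd_natCast.2 hdvd
    rwa [Nat.cast_sub hℓ.one_le, Nat.cast_one] at this
  refine ⟨ℓ, hℓ, hS, hgood, hℓ1, fun htwo => hgtr ?_⟩
  have heq : ∀ u v : GQ, (∀ x ∈ L ⊔ F, u x = v x) →
      ResidualThree.rho hΔ u = ResidualThree.rho hΔ v := by
    intro u v h
    have h1 := hLρ (v⁻¹ * u) fun x hx => by
      show v.symm (u x) = x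
      rw [h x ((le_sup_left : L ≤ L ⊔ F) hx), AlgEquiv.symm_apply_apply]
    rw [map_mul, map_inv, inv_mul_eq_one] at h1
    exact h1.symm
  have hρσ : ResidualThree.rho hΔ σ = ResidualThree.rho hΔ g ^ b := by
    rw [heq σ (g ^ b) hσb, map_pow]
  have hρg : ResidualThree.rho hΔ g = ResidualThree.rho hΔ σ ^ a := by
    rw [heq g (σ ^ a) hga, map_pow]
  rw [hρg, Units.val_pow_eq_pow_val]
  refine (trace_pow_of_unipotent a ?_ ?_).1
  · rw [ResidualThree.trace_rho_frobenius hΔ hℓ h3ℓ hgood hA hσ, htwo]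
  · rw [hρσ, Units.val_pow_eq_pow_val, Matrix.det_pow, hgdet, one_pow]

/-- An eigenclass of level `N` gives one of level `2 N`, if no prime in `P` is `2`. -/
theorem exists_double {N : ℕ} [NeZero N] {P : ℕ → Prop} {a : ℕ → ZMod 3}
    (hP : ∀ ℓ, P ℓ → ℓ.Prime ∧ ¬ ℓ ∣ N * 2)
    {x : Additive (Gamma0 N) →+ ZMod 3} (hx : IsEigenClass P a N x) :
    ∃ y, IsEigenClass P a (N * 2) y := by
  refine ⟨Ihara.degA N 2 x, ⟨fun h0 => hx.ne_zero (Hecke.addChar_ext fun g => ?_),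
    Ihara.isClHom_degA hx.isCl, fun ℓ hℓ _ => ?_⟩⟩
  · have hzero : ∀ h : Gamma0 N, (2 : ℤ) * N ∣ h.1 1 0 → x (Additive.ofMul h) = 0 := by
      intro h hd
      have hm : h.1 ∈ Gamma0 (N * 2) := Hecke.Gamma0_mem_iff_dvd.2 (by
        push_cast; rwa [mul_comm])
      exact DFunLike.congr_fun h0 (Additive.ofMul (⟨h.1, hm⟩ : Gamma0 (N * 2)))
    have hlo : ∀ h : Gamma0 N, (2 : ℤ) ∣ h.1 1 1 - 1 → x (Additive.ofMul h) = 0 := by
      intro h hd
      by_cases hc : (2 : ℤ) * N ∣ h.1 1 0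
      · exact hzero h hc
      obtain ⟨c, hc'⟩ := Hecke.Gamma0_dvd h
      have hcodd : (2 : ℤ) ∣ c - 1 := by
        rcases Int.even_or_odd c with ⟨k, hk⟩ | ⟨k, hk⟩
        · exact absurd ⟨k, by rw [hc', hk]; ring⟩ hc
        · exact ⟨k, by rw [hk]; ring⟩
      let u : Gamma0 N := ⟨lowerE N, Hecke.Gamma0_mem_iff_dvd.2 (by simp [lowerE])⟩
      have h1 := hzero (h * u) (by
        obtain ⟨k, hk⟩ := hcodd
        obtain ⟨m, hm⟩ := hd
        rw [Subgroup.coe_mul, (entries_mul _ _).2.2.1, (lowerE_entries _).1,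
          (lowerE_entries _).2.2.1, show h.1 1 0 = _ from hc']
        exact ⟨k + m + 1, by linear_combination (N : ℤ) * hk + (N : ℤ) * hm⟩)
      rwa [ofMul_mul, map_add, hx.isCl u (by rw [Ihara.tr_lowerE]; norm_num), add_zero] at h1
    by_cases hd : (2 : ℤ) ∣ g.1 1 1 - 1
    · exact hlo g hd
    let u : Gamma0 N := ⟨upperE 1, Hecke.Gamma0_mem_iff_dvd.2 (by simp [upperE])⟩
    have hdet := Hecke.Gamma0_det g
    have h1 := hlo (g * u) (by
      rw [Subgroup.coe_mul, (entries_mul _ _).2.2.2, (upperE_entries _).2.1,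
        (upperE_entries _).2.2.2]
      rcases Int.even_or_odd (g.1 1 1) with ⟨k, hk⟩ | ⟨k, hk⟩
      · rcases Int.even_or_odd (g.1 1 0) with ⟨m, hm⟩ | ⟨m, hm⟩
        · rw [hk, hm] at hdet
          exfalso
          have h2 : (2 : ℤ) ∣ 1 := ⟨g.1 0 0 * k - g.1 0 1 * m, by linear_combination -hdet⟩
          norm_num at h2
        · exact ⟨k + m, by rw [hk, hm]; ring⟩
      · exact absurd ⟨k, by rw [hk]; ring⟩ hd)
    rwa [ofMul_mul, map_add, hx.isCl u (by rw [Ihara.tr_upperE]; norm_num), add_zero] at h1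
  · have hp := (hP ℓ hℓ).1
    rw [Ihara.perTransfer_degA hp (fun h => (hP ℓ hℓ).2 (h.mul_right 2))
      (fun h => (hP ℓ hℓ).2 (h.mul_left N)), hx.eig ℓ hℓ]
    rfl

end Fermat.Agent.RemoveThree
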