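import Mathlib.RingTheory.RootsOfUnity.PrimitiveRoots
import Fermat.Agent.Gal.RepTwo
import Fermat.Agent.TW.Flat.Small

/-!
# The shape of tame inertia on a finite flat module killed by `3`

If inertia acts on a plane `U` through the tame characters of level two, the twist of `U` by the
determinant does not embed in a module with a separating model: the first-order coordinate of a
model has valuation `π ^ j` with `1 ≤ j ≤ 4`, and `ζ ^ j` is not an eigenvalue of the twist.
-/

noncomputable section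

open scoped Pointwise

namespace Fermat.Agent.RemoveThree

open Fermat.Agent Fermat.Agent.TW.Flat

local notation "Qbar" => AlgebraicClosure ℚ
local notation "GQ" => (AlgebraicClosure ℚ ≃ₐ[ℚ] AlgebraicClosure ℚ)

theorem eq_zero_or_one_or_neg_one (c : ZMod 3) : c = 0 ∨ c = 1 ∨ c = -1 := by
  revert c; decide

variable {A : ValuationSubring Qbar} {U : Type*} [AddCommGroup U] [Module (ZMod 3) U]

/-- The determinant is `-1` and the trace is not `0` at an inertia element of tame value of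
order `8`. -/
theorem trace_det_of_tame [Module.Finite (ZMod 3) U] (hU : Module.finrank (ZMod 3) U = 2)
    (h3 : (3 : IsLocalRing.ResidueField A) = 0)
    (f : Module.End (ZMod 3) U) (w : U →+ IsLocalRing.ResidueField A) (hw : Function.Injective w)
    {z : IsLocalRing.ResidueField A} (hz : z ^ 4 = -1) (heq : ∀ x, w (f x) = z * w x) :
    LinearMap.det f = -1 ∧ ((LinearMap.trace (ZMod 3) U f = 1 ∧ z ^ 2 = z + 1) ∨
      (LinearMap.trace (ZMod 3) U f = -1 ∧ z ^ 2 = -z + 1)) := by
  have : Fact (Nat.Prime 3) := ⟨Nat.prime_three⟩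
  have h2 : (2 : IsLocalRing.ResidueField A) ≠ 0 := fun e => by
    have : (1 : IsLocalRing.ResidueField A) = 0 := by linear_combination h3 - e
    exact one_ne_zero this
  have : Nontrivial U := Module.nontrivial_of_finrank_pos (R := ZMod 3) (hU ▸ two_pos)
  obtain ⟨x, hx⟩ := exists_ne (0 : U)
  have hwx : w x ≠ 0 := fun e => hx (hw (e.trans (map_zero w).symm))
  have hch := congrArg w (LinearMap.congr_fun (Gal.cayleyHamilton_two hU f) x)
  simp only [Module.End.mul_apply, LinearMap.sub_apply, LinearMap.smul_apply, Module.End.one_apply,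
    map_sub, heq] at hch
  have no4 : z ^ 4 ≠ 1 := fun e => h2 (by linear_combination hz - e)
  rcases eq_zero_or_one_or_neg_one (LinearMap.det f) with hd | hd | hd <;>
    rcases eq_zero_or_one_or_neg_one (LinearMap.trace (ZMod 3) U f) with ht | ht | ht <;>
    simp only [hd, ht, zero_smul, one_smul, neg_smul, map_zero, map_neg, heq, sub_zero, zero_sub,
      sub_neg_eq_add, zero_add] at hch
  · exact absurd (mul_left_cancel₀ (show z * z ≠ 0 from fun e => by
      have : z = 0 := mul_self_eq_zero.mp e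
      rw [this] at hz; simp at hz) (b := w x) (c := 0) (by linear_combination hch)) hwx
  · exfalso
    have hz1 : z = 1 := mul_right_cancel₀ hwx (mul_left_cancel₀ (show z ≠ 0 from fun e => by
      rw [e] at hz; simp at hz) (by linear_combination hch))
    exact no4 (by rw [hz1, one_pow])
  · exfalso
    have hz1 : z = -1 := mul_right_cancel₀ hwx (mul_left_cancel₀ (show z ≠ 0 from fun e => by
      rw [e] at hz; simp at hz) (by linear_combination hch))
    exact no4 (by rw [hz1]; ring)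
  · exfalso
    have hz2 : z ^ 2 = -1 := mul_right_cancel₀ hwx (by linear_combination hch)
    exact no4 (by rw [show 4 = 2 * 2 from rfl, pow_mul, hz2]; ring)
  · exfalso
    have hz2 : (z + 1) ^ 2 = 0 := mul_right_cancel₀ hwx
      (by linear_combination hch + z * w x * h3)
    have hz1 : z = -1 := eq_neg_of_add_eq_zero_left (pow_eq_zero_iff two_ne_zero |>.mp hz2)
    exact no4 (by rw [hz1]; ring)
  · exfalso
    have hz2 : (z - 1) ^ 2 = 0 := mul_right_cancel₀ hwx
      (by linear_combination hch - z * w x * h3)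
    have hz1 : z = 1 := sub_eq_zero.mp (pow_eq_zero_iff two_ne_zero |>.mp hz2)
    exact no4 (by rw [hz1, one_pow])
  · exfalso
    have hz2 : z ^ 2 = 1 := mul_right_cancel₀ hwx (by linear_combination hch)
    exact no4 (by rw [show 4 = 2 * 2 from rfl, pow_mul, hz2, one_pow])
  · exact ⟨hd, Or.inl ⟨ht, mul_right_cancel₀ hwx (by linear_combination hch)⟩⟩
  · exact ⟨hd, Or.inr ⟨ht, mul_right_cancel₀ hwx (by linear_combination hch)⟩⟩

/-- A product over a full period does not depend on where it starts. -/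
theorem prod_range_add_eq_of_periodic {M : Type*} [CommMonoid M] {F : ℕ → M} {n : ℕ}
    (h : ∀ i, F (i + n) = F i) (k : ℕ) :
    ∏ i ∈ Finset.range n, F (i + k) = ∏ i ∈ Finset.range n, F i := by
  induction k with
  | zero => rfl
  | succ k ih =>
    rw [← ih]
    cases n with
    | zero => simp
    | succ m =>
      rw [Finset.prod_range_succ, Finset.prod_range_succ',
        show m + (k + 1) = k + (m + 1) by omega, h, zero_add]
      simp only [add_right_comm _ 1 k, add_assoc]

/-- An endomorphism of a finite plane acting through a scalar other than `1` minus the identity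
is surjective. -/
theorem surjective_apply_sub_self [Finite U] (B : Module.End (ZMod 3) U)
    (w : U →+ IsLocalRing.ResidueField A) (hw : Function.Injective w)
    {c : IsLocalRing.ResidueField A} (hc : c ≠ 1) (hwB : ∀ x, w (B x) = c * w x) :
    Function.Surjective fun y : U => B y - y := by
  refine Finite.injective_iff_surjective.mp fun a b h => ?_
  by_contra hne
  have h' : B (a - b) = a - b := by
    rw [map_sub]
    exact sub_eq_sub_iff_sub_eq_sub.mp h
  have hw' : w (a - b) ≠ 0 := fun e => hne (sub_eq_zero.mp (hw (e.trans (map_zero w).symm)))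
  have e := congrArg w h'
  rw [hwB] at e
  exact hc (mul_right_cancel₀ hw' (e.trans (one_mul _).symm))

/-- If the tame value of `g` at an eighth root of `3` is a primitive eighth root of unity, the
inertia group acts on a plane with tame inertia through the powers of `g`. -/
theorem exists_pow_of_tame (ρ : GQ →* Module.End (ZMod 3) U) {π : Qbar} (hπ : π ^ 8 = 3)
    (w : U →+ IsLocalRing.ResidueField A) (hw : Function.Injective w)
    (hwρ : ∀ σ ∈ A.inertiaSubgroupIn ℚ, ∀ x, w (ρ σ x) = tame A σ π * w x)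
    {g : GQ} (hg : g ∈ A.inertiaSubgroupIn ℚ) (hprim : IsPrimitiveRoot (tame A g π) 8)
    {σ : GQ} (hσ : σ ∈ A.inertiaSubgroupIn ℚ) : ∃ k : ℕ, ρ σ = ρ g ^ k := by
  have h8 : tame A σ π ^ 8 = 1 := by
    rw [← tame_pow_right (inertia_le_decomposition hσ), hπ,
      show (3 : Qbar) = ((3 : ℕ) : Qbar) by norm_num, tame_natCast (by norm_num)]
  obtain ⟨k, -, hk⟩ := hprim.eq_pow_of_pow_eq_one h8
  refine ⟨k, LinearMap.ext fun y => hw ?_⟩
  rw [hwρ σ hσ, ← hk]
  clear hk
  induction k with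
  | zero => simp
  | succ k ih => rw [pow_succ' (ρ g), Module.End.mul_apply, hwρ g hg, ← ih]; ring

/-- An inertia-invariant element whose value is the eighth power of `γ` with `3 ≤ γ ^ 2 < 1`
makes `γ` the value of a power `π ^ n` with `1 ≤ n ≤ 4`. -/
theorem exists_pow_val_eq (hA : A.LiesOverPrime 3) {π : Qbar} (hπ : π ^ 8 = 3)
    {γ : A.ValueGroup} (hγ1 : γ < 1) (hγ2 : A.valuation ((3 : ℕ) : Qbar) ≤ γ ^ 2) {y : Qbar}
    (hvy : A.valuation y = γ ^ 8) (hy : ∀ σ ∈ A.inertiaSubgroupIn ℚ, σ y = y) :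
    ∃ n : ℕ, (1 ≤ n ∧ n ≤ 4) ∧ γ = A.valuation π ^ n := by
  have hq : A.valuation ((3 : ℕ) : Qbar) = A.valuation π ^ 8 := by rw [← map_pow, hπ]; norm_num
  have hπ0 : π ≠ 0 := fun e => by simp [e] at hπ
  obtain ⟨j, hj⟩ := exists_val_eq_of_inertia (p := 3) Nat.prime_three hA (x := y) hy (fun e => by
    rw [e, map_zero] at hvy
    rw [eq_zero_of_pow_eq_zero hvy.symm, zero_pow two_ne_zero] at hγ2
    exact (zero_lt_iff.mpr (A.valuation.ne_zero_iff.mpr (by norm_num))).not_ge hγ2)
  set ε := A.valuation π with hε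
  have hε0 : 0 < ε := zero_lt_iff.mpr (A.valuation.ne_zero_iff.mpr hπ0)
  have hε1 : ε < 1 := by
    refine not_le.mp fun h => (show A.valuation ((3 : ℕ) : Qbar) < 1 from hA).not_ge ?_
    rw [hq]; exact one_le_pow₀ h
  have hγj : γ = ε ^ j := by
    refine (pow_left_inj₀ zero_le (zpow_pos hε0 j).le (n := 8) (by norm_num)).mp ?_
    rw [← hvy, hj, hq, ← zpow_natCast, ← zpow_mul, ← zpow_natCast (ε ^ j), ← zpow_mul, mul_comm]
  have hjpos : 0 < j := by
    rw [hγj, ← zpow_zero ε, zpow_lt_zpow_iff_right_of_lt_one₀ hε0 hε1] at hγ1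
    exact hγ1
  have hj4 : j ≤ 4 := by
    rw [hγj, hq, ← zpow_natCast, ← zpow_natCast, ← zpow_mul,
      zpow_le_zpow_iff_right_of_lt_one₀ hε0 hε1] at hγ2
    push_cast at hγ2
    omega
  obtain ⟨n, rfl⟩ := Int.eq_ofNat_of_zero_le hjpos.le
  exact ⟨n, ⟨by exact_mod_cast hjpos, by exact_mod_cast hj4⟩, by rw [hγj, zpow_natCast]⟩

/-- With `z ^ 4 = -1` in characteristic `3` and `z` a root of `X ^ 2 - X - 1` (resp.
`X ^ 2 + X - 1`), no `z ^ n`, `1 ≤ n ≤ 4`, is a root of `X ^ 2 + X - 1` (resp. `X ^ 2 - X - 1`). -/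
theorem false_of_quadratic {κ : Type*} [Field κ] (h3κ : (3 : κ) = 0) {z : κ} (hgz : z ^ 4 = -1)
    {n : ℕ} (hn1 : 1 ≤ n) (hn4 : n ≤ 4)
    (h : (z ^ 2 = z + 1 ∧ z ^ n * z ^ n + z ^ n - 1 = 0) ∨
      (z ^ 2 = -z + 1 ∧ z ^ n * z ^ n - z ^ n - 1 = 0)) : False := by
  have h2 : (2 : κ) ≠ 0 := fun e => one_ne_zero (α := κ) (by linear_combination h3κ - e)
  have hz0 : z ≠ 0 := fun e => by rw [e] at hgz; simp at hgz
  have hz4 : z ^ 4 ≠ 1 := fun e => h2 (by linear_combination hgz - e)
  rcases h with ⟨hz2, key⟩ | ⟨hz2, key⟩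
  · interval_cases n
    · exact mul_ne_zero h2 hz0 (by linear_combination key - hz2)
    · have e : z ^ 2 = -1 := by linear_combination key - hgz + h3κ
      exact hz4 (by rw [show 4 = 2 * 2 from rfl, pow_mul, e]; ring)
    · refine mul_ne_zero h2 (pow_ne_zero 3 hz0) ?_
      linear_combination key - (z ^ 2 - z - 1) ^ 2 * hz2 - (z ^ 5 - 2 * z ^ 3 + z) * h3κ
    · exact one_ne_zero (α := κ) (by linear_combination -key + z ^ 4 * hgz)
  · interval_cases n
    · exact mul_ne_zero h2 hz0 (by linear_combination -key + hz2)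
    · have e : z ^ 2 = 1 := by linear_combination -key + hgz - h3κ
      exact hz4 (by rw [show 4 = 2 * 2 from rfl, pow_mul, e, one_pow])
    · refine mul_ne_zero h2 (pow_ne_zero 3 hz0) ?_
      linear_combination -key + (z ^ 2 + z - 1) ^ 2 * hz2 - (z ^ 5 - 2 * z ^ 3 + z) * h3κ
    · exact one_ne_zero (α := κ) (by linear_combination key - (z ^ 4 - 2) * hgz)

/-- The first-order coordinate: if inertia acts on a plane killed by `3` inside the connected part
of a separating model through the powers of `B`, with `g` acting by `B`, some nonzero additive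
`φ` to the residue field has `φ (B u) = z ^ n * φ u`, `z` the tame value of `g` and `1 ≤ n ≤ 4`. -/
theorem exists_first_order [Finite U] [Nontrivial U] (hA : A.LiesOverPrime 3)
    {π : Qbar} (hπ : π ^ 8 = 3) {g : GQ} (hg : g ∈ A.inertiaSubgroupIn ℚ)
    {V : Type*} [AddCommGroup V] {act : GQ → V → V} {Γ : Subgroup GQ} (P : FnModel A Γ act)
    (hP : P.Sep) (hΓ : A.inertiaSubgroupIn ℚ ≤ Γ) (ι : U →+ V) (hι : Function.Injective ι)
    (hconn : ∀ x, ι x ∈ P.conn) {B : Module.End (ZMod 3) U} (hB8 : B ^ 8 = 1)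
    (hpow : ∀ σ ∈ A.inertiaSubgroupIn ℚ, ∃ k : ℕ, ∀ x, act σ (ι x) = ι ((B ^ k) x))
    (hactg : ∀ x, act g (ι x) = ι (B x)) :
    ∃ (n : ℕ) (φ : U → IsLocalRing.ResidueField A) (u₀ : U), (1 ≤ n ∧ n ≤ 4) ∧ φ u₀ ≠ 0 ∧
      (∀ u u', φ (u + u') = φ u + φ u') ∧ (∀ u, φ (-u) = -φ u) ∧
      ∀ u, φ (B u) = tame A g π ^ n * φ u := by
  classical
  have : Fact (Nat.Prime 3) := ⟨Nat.prime_three⟩
  set v := A.valuation
  set κ := IsLocalRing.ResidueField A
  set z := tame A g π with hzdef
  have hπ0 : π ≠ 0 := fun e => by simp [e] at hπ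
  -- the largest distance
  obtain ⟨u₁, hu₁⟩ := exists_ne (0 : U)
  have : Fintype U := Fintype.ofFinite U
  obtain ⟨x₀, hx₀, f₀, hf₀, hmax⟩ :=
    P.exists_max (Finset.univ.image ι) (ι u₁) (Finset.mem_image_of_mem _ (Finset.mem_univ _))
  obtain ⟨u₀, -, rfl⟩ := Finset.mem_image.mp hx₀
  set γ := v (f₀ (ι u₀) - f₀ 0) with hγ
  have hle : ∀ (u : U), ∀ f ∈ P.Λ, v (f (ι u) - f 0) ≤ γ := fun u f hf =>
    hmax _ (Finset.mem_image_of_mem _ (Finset.mem_univ u)) f hf
  have hq0 : (0 : A.ValueGroup) < v ((3 : ℕ) : Qbar) :=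
    zero_lt_iff.mpr (A.valuation.ne_zero_iff.mpr (by norm_num))
  have hγ1 : γ < 1 := P.mem_conn.mp (hconn u₀) f₀ hf₀
  have hγ2 : v ((3 : ℕ) : Qbar) ≤ γ ^ 2 := by
    refine not_lt.mp fun hlt => hu₁ (hι ?_)
    rw [map_zero]
    refine hP _ _ (P.apply_eq_of_small Nat.prime_three (fun f _ => ?_) fun f hf => ?_)
    · rw [← map_nsmul, ← Nat.cast_smul_eq_nsmul (ZMod 3), ZMod.natCast_self, zero_smul, map_zero]
    · exact (pow_le_pow_left' (hle u₁ f hf) 2).trans_lt hlt
  have hγ0 : γ ≠ 0 := fun e => by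
    rw [e, zero_pow two_ne_zero] at hγ2
    exact hq0.not_ge hγ2
  -- its value is a power of the value of `π`
  set b : U → Qbar := fun u => f₀ (ι u) - f₀ 0 with hb
  have hzero : ∀ σ ∈ A.inertiaSubgroupIn ℚ, act σ 0 = 0 := fun σ hσ => by
    obtain ⟨k, hk⟩ := hpow σ hσ
    simpa using hk 0
  have hσb : ∀ σ ∈ A.inertiaSubgroupIn ℚ, ∀ u k, (∀ x, act σ (ι x) = ι ((B ^ k) x)) →
      σ (b u) = b ((B ^ k) u) := fun σ hσ u k hk => by
    simp only [hb, map_sub, ← P.equiv f₀ hf₀ σ (hΓ hσ), hk, hzero σ hσ]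
  set y : Qbar := ∏ i ∈ Finset.range 8, b ((B ^ i) u₀) with hy
  have hshiftk : ∀ k, ∏ i ∈ Finset.range 8, b ((B ^ (i + k)) u₀) = y :=
    prod_range_add_eq_of_periodic (F := fun i => b ((B ^ i) u₀))
      fun i => by rw [pow_add, hB8, mul_one]
  have hvb : ∀ i, v (b ((B ^ i) u₀)) = γ := fun i => by
    induction i with
    | zero => rfl
    | succ i ih =>
      rw [← val_apply (inertia_le_decomposition hg)] at ih
      rw [hσb g hg _ 1 (fun x => by rw [pow_one]; exact hactg x), pow_one,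
        ← Module.End.mul_apply, ← pow_succ'] at ih
      exact ih
  have hvy : v y = γ ^ 8 := by
    rw [hy, map_prod, Finset.prod_congr rfl fun i _ => hvb i, Finset.prod_const, Finset.card_range]
  obtain ⟨n, ⟨hn1, hn4⟩, hγn⟩ := exists_pow_val_eq hA hπ hγ1 hγ2 hvy fun σ hσ => by
    obtain ⟨k, hk⟩ := hpow σ hσ
    rw [hy, map_prod, ← hy, ← hshiftk k]
    refine Finset.prod_congr rfl fun i _ => ?_
    rw [hσb σ hσ _ k hk, ← Module.End.mul_apply, ← pow_add, add_comm k i]
  -- the first-order coordinate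
  have hmem : ∀ u, b u / π ^ n ∈ A := fun u => by
    rw [mem_iff_val_le_one, map_div₀, map_pow, ← hγn]
    exact div_le_one_of_le₀ (hle u f₀ hf₀) zero_le
  let φ : U → κ := fun u => red A (b u / π ^ n)
  have hφadd : ∀ u u', φ (u + u') = φ u + φ u' := by
    intro u u'
    show red A _ = red A _ + red A _
    rw [← red_add (hmem u) (hmem u'),
      red_eq_iff (hmem _) (add_mem (hmem u) (hmem u')), ← add_div, ← sub_div, map_div₀, map_pow,
      ← hγn]
    refine (div_lt_one₀ (zero_lt_iff.mpr hγ0)).mpr ?_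
    have h := P.val_add_sub_le (hle u) (hle u') hf₀
    rw [← map_add ι] at h
    refine lt_of_le_of_lt ?_ (mul_lt_of_lt_one_left (zero_lt_iff.mpr hγ0) hγ1)
    refine le_of_eq_of_le (congrArg _ ?_) h
    simp only [hb]
    ring
  have hφneg : ∀ u, φ (-u) = -φ u := fun u => by
    have h0 : φ 0 = 0 := add_eq_left.mp ((hφadd 0 0).symm.trans (by rw [add_zero]))
    exact eq_neg_of_add_eq_zero_left (by rw [← hφadd, neg_add_cancel, h0])
  have hφB : ∀ u, φ (B u) = z ^ n * φ u := by
    intro u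
    show red A _ = z ^ n * red A _
    have hD := inertia_le_decomposition hg
    have e : b (B u) / π ^ n = (g π / π) ^ n * g (b u / π ^ n) := by
      rw [map_div₀, map_pow, hσb g hg u 1 (fun x => by rw [pow_one]; exact hactg x), pow_one,
        div_pow]
      have : g π ≠ 0 := (map_ne_zero_iff _ g.injective).mpr hπ0
      field_simp
    rw [e, red_mul (pow_mem (div_mem_of_decomposition hD π) n) (apply_mem hD (hmem u)),
      red_pow (div_mem_of_decomposition hD π), red_inertia hg (hmem u)]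
    rfl
  have hφ0 : φ u₀ ≠ 0 := by
    show red A _ ≠ 0
    rw [Ne, red_eq_zero_iff (hmem u₀), map_div₀, map_pow, ← hγn]
    show ¬ v (f₀ (ι u₀) - f₀ 0) / γ < 1
    rw [← hγ, div_self hγ0]
    exact lt_irrefl 1
  exact ⟨n, φ, u₀, ⟨hn1, hn4⟩, hφ0, hφadd, hφneg, hφB⟩

/-- **The twist of a plane with tame inertia of level two has no model.** -/
theorem false_of_model [Finite U] (hA : A.LiesOverPrime 3)
    (hU : Module.finrank (ZMod 3) U = 2) (ρ : GQ →* Module.End (ZMod 3) U)
    {π : Qbar} (hπ : π ^ 8 = 3) (w : U →+ IsLocalRing.ResidueField A) (hw : Function.Injective w)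
    (hwρ : ∀ σ ∈ A.inertiaSubgroupIn ℚ, ∀ x, w (ρ σ x) = tame A σ π * w x)
    {g : GQ} (hg : g ∈ A.inertiaSubgroupIn ℚ) (hgz : tame A g π ^ 4 = -1)
    {V : Type*} [AddCommGroup V] {act : GQ → V → V} {Γ : Subgroup GQ} (P : FnModel A Γ act)
    (hP : P.Sep) (hΓ : A.inertiaSubgroupIn ℚ ≤ Γ) (ι : U →+ V) (hι : Function.Injective ι)
    (hact : ∀ σ ∈ A.inertiaSubgroupIn ℚ, ∀ x,
      act σ (ι x) = ι (LinearMap.det (ρ σ) • ρ σ x)) : False := by
  classical
  have : Fact (Nat.Prime 3) := ⟨Nat.prime_three⟩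
  set κ := IsLocalRing.ResidueField A
  have h3κ : (3 : κ) = 0 := by
    have h := red_natCast (A := A) 3
    rw [red_eq_zero_of_lt (show A.valuation ((3 : ℕ) : Qbar) < 1 from hA)] at h
    simpa using h.symm
  have h2 : (2 : κ) ≠ 0 := fun e => one_ne_zero (α := κ) (by linear_combination h3κ - e)
  set z := tame A g π with hzdef
  have hz4 : z ^ 4 ≠ 1 := fun e => h2 (by linear_combination hgz - e)
  have hz8 : z ^ 8 = 1 := by rw [show 8 = 4 * 2 from rfl, pow_mul, hgz]; ring
  have hprim : IsPrimitiveRoot z 8 := by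
    refine IsPrimitiveRoot.iff_orderOf.mpr ?_
    exact orderOf_eq_prime_pow (p := 2) (n := 2) (by simpa using hz4) (by simpa using hz8)
  obtain ⟨hdet, htr⟩ := trace_det_of_tame hU h3κ (ρ g) w hw hgz (hwρ g hg)
  set B : Module.End (ZMod 3) U := LinearMap.det (ρ g) • ρ g with hB
  have hwB : ∀ x, w (B x) = -(z * w x) := fun x => by
    rw [hB, hdet, neg_one_smul, LinearMap.neg_apply, map_neg, hwρ g hg]
  have hwBk : ∀ (k : ℕ) x, w ((B ^ k) x) = (-z) ^ k * w x := by
    intro k x
    induction k with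
    | zero => simp
    | succ k ih => rw [pow_succ', Module.End.mul_apply, hwB, ih, pow_succ']; ring
  have hB8 : B ^ 8 = 1 := LinearMap.ext fun x => hw (by
    rw [hwBk, Module.End.one_apply, Even.neg_pow (by decide), hz8, one_mul])
  -- inertia acts through the powers of `B`
  have hpow : ∀ σ ∈ A.inertiaSubgroupIn ℚ, ∃ k : ℕ, ∀ x, act σ (ι x) = ι ((B ^ k) x) := by
    intro σ hσ
    obtain ⟨k, hρ⟩ := exists_pow_of_tame ρ hπ w hw hwρ hg hprim hσ
    exact ⟨k, fun x => by rw [hact σ hσ, hρ, map_pow, hB, smul_pow, LinearMap.smul_apply]⟩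
  have hactg : ∀ x, act g (ι x) = ι (B x) := fun x => hact g hg x
  -- everything reduces to the origin
  have hsurj := surjective_apply_sub_self B w hw (c := -z)
    (fun e => hz4 (by rw [← Even.neg_pow (by decide : Even 4), e, one_pow]))
    fun x => (hwB x).trans (neg_mul z (w x)).symm
  have hconn : ∀ x, ι x ∈ P.conn := fun x => by
    obtain ⟨y, rfl⟩ := hsurj x
    show ι (B y - y) ∈ P.conn
    rw [map_sub, ← hactg]
    exact P.act_sub_mem_conn (hΓ hg) hg _
  have : Nontrivial U := Module.nontrivial_of_finrank_pos (R := ZMod 3) (hU ▸ two_pos)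
  obtain ⟨n, φ, u₀, ⟨hn1, hn4⟩, hφ0, hφadd, hφneg, hφB⟩ :=
    exists_first_order hA hπ hg P hP hΓ ι hι hconn hB8 hpow hactg
  -- compare with the characteristic polynomial
  have hCH := congrArg φ (LinearMap.congr_fun (Gal.cayleyHamilton_two hU (ρ g)) u₀)
  have hB' : ∀ u, φ (ρ g u) = -(z ^ n * φ u) := fun u => by
    rw [← hφB, ← hφneg, hB, hdet, neg_one_smul, LinearMap.neg_apply, neg_neg]
  refine false_of_quadratic h3κ hgz hn1 hn4 (htr.imp ?_ ?_) <;> rintro ⟨ht, hz2⟩ <;>
    refine ⟨hz2, mul_right_cancel₀ hφ0 ?_⟩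
  · simp only [hdet, ht, one_smul, neg_smul, sub_neg_eq_add, Module.End.mul_apply,
      LinearMap.add_apply, Module.End.one_apply, hφadd, hB'] at hCH
    linear_combination hCH
  · simp only [hdet, ht, one_smul, neg_smul, sub_neg_eq_add, Module.End.mul_apply,
      LinearMap.add_apply, LinearMap.neg_apply, Module.End.one_apply, hφadd, hφneg, hB'] at hCH
    linear_combination hCH

end Fermat.Agent.RemoveThree
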