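import Fermat.Agent.Glue.Semistable
import Fermat.Agent.RemoveThree.AuxPrime
import Fermat.Agent.RemoveThree.Residual

/-!
# Removing the powers of `3` from the level

A residual system of level `3 ^ e M'` descends to level `3 R`, `R` being `M'` if it is even and
`2 M'` otherwise, up to the twist by `ℓ mod 3`.
-/

noncomputable section

open CongruenceSubgroup ModularFormClass WeierstrassCurve

namespace Fermat.Agent.RemoveThree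

/-- The twist `ℓ · a_ℓ` of the system of a curve without inertia-fixed `3`-torsion does not occur
at a level not divisible by `9`. -/
def NoTwistAtThree : Prop :=
  ∀ W : WeierstrassCurve ℤ, W.Δ ≠ 0 → W.IsSemistableModel → W.ModRepIsIrreducible 3 →
    Glue.NoInertiaFixedThree W → ∀ N : ℕ, 0 < N → ¬ 3 ^ 2 ∣ N →
      ¬ ResidualSystem (fun ℓ => ℓ.Prime ∧ W.IsGoodPrimeFor ℓ ∧ ¬ ℓ ∣ N ∧ ℓ ≠ 3)
        (fun ℓ => (ℓ : ℤ) * W.apOfModel ℓ) N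

/-- Some eigenclass of level `N ≠ 0` has the system `a` on `P`. -/
def HasClass (P : ℕ → Prop) (a : ℕ → ZMod 3) (N : ℕ) : Prop :=
  ∃ _ : NeZero N, ∃ x, IsEigenClass P a N x

/-- Twisting twice gives the system back, as `ℓ² = 1` in `ZMod 3`. -/
theorem isEigenClass_twist_twist {P : ℕ → Prop} (a : ℕ → ZMod 3) {R : ℕ}
    (hP : ∀ ℓ, P ℓ → ℓ.Prime ∧ ¬ ℓ ∣ R * 3) {N : ℕ} [NeZero N]
    {x : Additive (Gamma0 N) →+ ZMod 3}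
    (hx : IsEigenClass P (fun ℓ => (ℓ : ZMod 3) * ((ℓ : ZMod 3) * a ℓ)) N x) :
    IsEigenClass P a N x := by
  refine ⟨hx.ne_zero, hx.isCl, fun ℓ hℓ _ => ?_⟩
  rw [hx.eig ℓ hℓ]
  have h0 := natCast_ne_zero_of_not_dvd (hP ℓ hℓ).1 (hP ℓ hℓ).2
  congr 1
  revert h0
  generalize (ℓ : ZMod 3) = u
  generalize a ℓ = v
  revert u v
  decide

/-- Iterating the descent down to `3 R`. -/
theorem hasClass_descend {R : ℕ} (hR : 0 < R) (h2 : 2 ∣ R) {P : ℕ → Prop} {a : ℕ → ZMod 3}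
    (hP : ∀ ℓ, P ℓ → ℓ.Prime ∧ ¬ ℓ ∣ R * 3) :
    ∀ e : ℕ, (∃ ℓ₀, P ℓ₀ ∧ ((R * 3 ^ (e + 1) : ℕ) : ℤ) ∣ (ℓ₀ : ℤ) - 1 ∧ a ℓ₀ ≠ 2) →
      HasClass P a (R * 3 ^ (e + 1)) ∨ HasClass P (fun ℓ => (ℓ : ZMod 3) * a ℓ) (R * 3 ^ (e + 1)) →
      HasClass P a (R * 3) ∨ HasClass P (fun ℓ => (ℓ : ZMod 3) * a ℓ) (R * 3) := by
  intro e
  induction e with
  | zero =>
    intro _ h
    simpa using h
  | succ e ih =>
    intro hℓ₀ h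
    obtain ⟨ℓ₀, hP₀, h1, ha⟩ := hℓ₀
    have : NeZero R := ⟨hR.ne'⟩
    have hlev : R * 3 ^ (e + 1 + 1) = R * 3 ^ (e + 1) * 3 := by ring
    rw [hlev] at h h1
    have hP' : ∀ ℓ, P ℓ → ℓ.Prime ∧ ¬ ℓ ∣ R * 3 ^ (e + 1) * 3 := fun ℓ hℓ => by
      obtain ⟨hp, hn⟩ := hP ℓ hℓ
      refine ⟨hp, fun hd => ?_⟩
      rcases hp.dvd_mul.1 hd with hd | hd
      · rcases hp.dvd_mul.1 hd with hd | hd
        · exact hn (hd.mul_right 3)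
        · exact hn (dvd_mul_of_dvd_right (hp.dvd_of_dvd_pow hd) R)
      · exact hn (hd.mul_left R)
    have h31 : (ℓ₀ : ZMod 3) = 1 := natCast_eq_one_of_dvd_sub_one (dvd_mul_left 3 _) h1
    refine ih ⟨ℓ₀, hP₀, (Int.natCast_dvd_natCast.2 (dvd_mul_right _ 3)).trans h1, ha⟩ ?_
    have h2' : 2 ∣ R * 3 ^ (e + 1) := h2.mul_right _
    have h3' : 3 ∣ R * 3 ^ (e + 1) := dvd_mul_of_dvd_right (dvd_pow_self 3 (by omega)) _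
    have inst : NeZero (R * 3 ^ (e + 1)) := ⟨mul_ne_zero hR.ne' (by positivity)⟩
    rcases h with ⟨_, x, hx⟩ | ⟨_, x, hx⟩
    · obtain ⟨w, hw | hw⟩ := exists_descend h2' h3' hP' hP₀ h1 ha hx
      · exact Or.inl ⟨inst, w, hw⟩
      · exact Or.inr ⟨inst, w, hw⟩
    · obtain ⟨w, hw | hw⟩ :=
        exists_descend h2' h3' hP' hP₀ h1 (by rwa [h31, one_mul]) hx
      · exact Or.inr ⟨inst, w, hw⟩
      · exact Or.inl ⟨inst, w, isEigenClass_twist_twist a hP hw⟩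

/-- Residual modularity at `3` of a level `M` divisible by `9` and cube-free away from `3` descends
to a level `N ∣ 2 M` not divisible by `9`, up to a twist. -/
theorem exists_level_or_twist {W : WeierstrassCurve ℤ} (hΔ : W.Δ ≠ 0) (hW : W.IsSemistableModel)
    (h3 : W.ModRepIsIrreducible 3) {M : ℕ} (hM : 0 < M)
    (hres : W.IsResiduallyModularOfLevel 3 M) (hcube : ∀ q : ℕ, q.Prime → q ≠ 3 → ¬ q ^ 3 ∣ M)
    (h9 : 3 ^ 2 ∣ M) :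
    ∃ N : ℕ, 0 < N ∧ N ∣ 2 * M ∧ (2 ∣ M → N ∣ M) ∧ ¬ 3 ^ 2 ∣ N ∧
      (∀ q : ℕ, q.Prime → q ≠ 3 → ¬ q ^ 3 ∣ N) ∧
      (W.IsResiduallyModularOfLevel 3 N ∨
        ResidualSystem (fun ℓ => ℓ.Prime ∧ W.IsGoodPrimeFor ℓ ∧ ¬ ℓ ∣ N ∧ ℓ ≠ 3)
          (fun ℓ => (ℓ : ℤ) * W.apOfModel ℓ) N) := by
  classical
  obtain ⟨e, M', hM', rfl⟩ := Nat.exists_eq_pow_mul_and_not_dvd hM.ne' 3 (by norm_num)
  have he : 2 ≤ e := by
    by_contra hlt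
    have h9' : (3 : ℕ) ^ 2 ∣ 3 ^ 1 * M' :=
      h9.trans (Nat.mul_dvd_mul_right (pow_dvd_pow 3 (by omega)) M')
    rw [pow_one, pow_two] at h9'
    exact hM' (Nat.dvd_of_mul_dvd_mul_left (by norm_num) h9')
  obtain ⟨e, rfl⟩ : ∃ e', e = e' + 1 := ⟨e - 1, by omega⟩
  set R : ℕ := if 2 ∣ M' then M' else M' * 2 with hR
  have hR0 : 0 < R := by rw [hR]; split_ifs <;> omega
  have hR2 : 2 ∣ R := by
    rw [hR]; split_ifs with h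
    · exact h
    · exact dvd_mul_left 2 M'
  have hR3 : ¬ 3 ∣ R := by
    rw [hR]; split_ifs
    · exact hM'
    · exact fun h => hM' ((Nat.Coprime.dvd_mul_right (by norm_num)).1 h)
  have hRM : M' ∣ R := by rw [hR]; split_ifs <;> simp
  have hcubeR : ∀ q : ℕ, q.Prime → q ≠ 3 → ¬ q ^ 3 ∣ R * 3 := by
    intro q hq hq3 hd
    have hd' : q ^ 3 ∣ R := (Nat.Coprime.dvd_mul_right (Nat.Coprime.pow_left 3
      ((Nat.coprime_primes hq Nat.prime_three).2 hq3))).1 hd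
    rw [hR] at hd'
    split_ifs at hd' with h
    · exact hcube q hq hq3 (dvd_mul_of_dvd_right hd' _)
    · by_cases hq2 : q = 2
      · subst hq2
        exact h (Nat.dvd_of_mul_dvd_mul_right (by norm_num : 0 < 2)
          ((pow_dvd_pow 2 (by norm_num : 2 ≤ 3)).trans hd'))
      · exact hcube q hq hq3 (dvd_mul_of_dvd_right ((Nat.Coprime.dvd_mul_right
          (Nat.Coprime.pow_left 3 ((Nat.coprime_primes hq Nat.prime_two).2 hq2))).1 hd') _)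
  refine ⟨R * 3, by positivity, ?_, fun h2M => ?_, fun hd => ?_, hcubeR, ?_⟩
  · rw [show 2 * (3 ^ (e + 1) * M') = (2 * M') * (3 * 3 ^ e) by ring]
    exact mul_dvd_mul (by rw [hR]; split_ifs <;> simp [mul_comm]) (dvd_mul_right 3 _)
  · rw [hR, if_pos ((Nat.Coprime.dvd_mul_left (Nat.Coprime.pow_right _ (by norm_num))).1 h2M),
      show 3 ^ (e + 1) * M' = M' * 3 * 3 ^ e by ring]
    exact dvd_mul_right _ _
  · rw [pow_two] at hd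
    exact hR3 (Nat.dvd_of_mul_dvd_mul_right (by norm_num) hd)
  let P : ℕ → Prop := fun ℓ => ℓ.Prime ∧ W.IsGoodPrimeFor ℓ ∧ ¬ ℓ ∣ R * 3
  have hP : ∀ ℓ, P ℓ → ℓ.Prime ∧ ¬ ℓ ∣ R * 3 := fun ℓ h => ⟨h.1, h.2.2⟩
  have hPM : ∀ ℓ, P ℓ → ¬ ℓ ∣ 3 ^ (e + 1) * M' ∧ ℓ ≠ 3 ∧ ℓ ≠ 2 := fun ℓ h => by
    refine ⟨fun hd => ?_, fun h3 => h.2.2 (h3 ▸ dvd_mul_left 3 R),
      fun h2 => h.2.2 (h2 ▸ hR2.mul_right 3)⟩
    rcases h.1.dvd_mul.1 hd with hd | hd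
    · exact h.2.2 (dvd_mul_of_dvd_right (h.1.dvd_of_dvd_pow hd) R)
    · exact h.2.2 ((hd.trans hRM).mul_right 3)
  set a : ℕ → ℤ := fun ℓ => W.apOfModel ℓ
  have hstart : ResidualSystem P a (3 ^ (e + 1) * M') := by
    obtain ⟨f, 𝔪, hf, h𝔪, h3m, hc⟩ := hres
    exact ⟨f, 𝔪, hf, h𝔪, h3m, fun ℓ hℓ => hc ℓ hℓ.1 hℓ.2.1 (hPM ℓ hℓ).1 (hPM ℓ hℓ).2.1⟩
  obtain ⟨ℓ₀, hp₀, hℓS, hgood₀, h1, ha₀⟩ :=
    exists_prime_one_mod hΔ hW h3 (n := R * 3 ^ (e + 1)) (by positivity) (R * 3).primeFactors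
  have hP₀ : P ℓ₀ := ⟨hp₀, hgood₀, fun hd => hℓS (Nat.mem_primeFactors.2
    ⟨hp₀, hd, by positivity⟩)⟩
  have : NeZero (3 ^ (e + 1) * M') := ⟨hM.ne'⟩
  obtain ⟨x, hx⟩ := exists_eigenClass (fun ℓ hℓ => ⟨hℓ.1, (hPM ℓ hℓ).1⟩) hstart
  have hclass : HasClass P (fun ℓ => (a ℓ : ZMod 3)) (R * 3 ^ (e + 1)) := by
    by_cases h2 : 2 ∣ M'
    · rw [hR, if_pos h2, mul_comm]
      exact ⟨this, x, hx⟩
    · rw [hR, if_neg h2, show M' * 2 * 3 ^ (e + 1) = 3 ^ (e + 1) * M' * 2 by ring]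
      obtain ⟨y, hy⟩ := exists_double (fun ℓ hℓ => ⟨hℓ.1, fun hd =>
          (hℓ.1.dvd_mul.1 hd).elim (hPM ℓ hℓ).1
            (fun h => (hPM ℓ hℓ).2.2 ((Nat.prime_dvd_prime_iff_eq hℓ.1 Nat.prime_two).1 h))⟩) hx
      exact ⟨⟨mul_ne_zero hM.ne' two_ne_zero⟩, y, hy⟩
  rcases hasClass_descend hR0 hR2 hP e ⟨ℓ₀, hP₀, h1, ha₀⟩ (Or.inl hclass) with
    ⟨_, w, hw⟩ | ⟨_, w, hw⟩
  · obtain ⟨f, 𝔪, hf, h𝔪, h3m, hc⟩ := residualSystem_of_eigenClass hP a hw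
    exact Or.inl ⟨f, 𝔪, hf, h𝔪, h3m, fun ℓ hℓ hgood hℓN _ => hc ℓ ⟨hℓ, hgood, hℓN⟩⟩
  · have hw' : IsEigenClass P (fun ℓ => (((ℓ : ℤ) * a ℓ : ℤ) : ZMod 3)) (R * 3) w := by
      simpa using hw
    obtain ⟨f, 𝔪, hf, h𝔪, h3m, hc⟩ := residualSystem_of_eigenClass hP _ hw'
    exact Or.inr ⟨f, 𝔪, hf, h𝔪, h3m, fun ℓ hℓ => hc ℓ ⟨hℓ.1, hℓ.2.1, hℓ.2.2.1⟩⟩

end Fermat.Agent.RemoveThree
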