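import Fermat.Agent.Gal.RepTwo
import Fermat.Agent.Mazur.Tame.Inertia

/-!
# A stable line in a plane whose twist has a part containing the second differences of inertia

If inertia at `3` stabilises a line of a plane `U` and the twist of `U` by the determinant has a
stable part which contains `(σ - 1) ^ 2` of everything, `σ` acting through the twist, and has no
nonzero fixed vector, then inertia fixes a nonzero vector of `U`, provided some inertia element
has determinant `-1` on `U`.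
-/

noncomputable section

open scoped Pointwise

namespace Fermat.Agent.RemoveThree

local notation "Qbar" => AlgebraicClosure ℚ
local notation "GQ" => (AlgebraicClosure ℚ ≃ₐ[ℚ] AlgebraicClosure ℚ)

theorem eq_one_or_neg_one {c : ZMod 3} (h : c ≠ 0) : c = 1 ∨ c = -1 := by
  revert c; decide

theorem two_ne_zero_three : (2 : ZMod 3) ≠ 0 := by decide

theorem neg_two_eq_one : (-2 : ZMod 3) = 1 := by decide

theorem neg_one_ne_one_three : (-1 : ZMod 3) ≠ 1 := by decide

theorem eq_one_of_pow_three_pow {c : ZMod 3} (N : ℕ) (h : c ^ 3 ^ N = 1) : c = 1 := by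
  have : Fact (Nat.Prime 3) := ⟨Nat.prime_three⟩
  rwa [ZMod.pow_card_pow] at h

variable {A : ValuationSubring Qbar} {U : Type*} [AddCommGroup U] [Module (ZMod 3) U]

/-- An endomorphism of `3`-power order which sends `u₀` to `± u₀` fixes it. -/
theorem apply_eq_of_pow_three_pow {f : Module.End (ZMod 3) U} {N : ℕ} (hf : f ^ 3 ^ N = 1)
    {u₀ : U} (hu₀ : u₀ ≠ 0) (h : f u₀ = u₀ ∨ f u₀ = -u₀) : f u₀ = u₀ := by
  have : Fact (Nat.Prime 3) := ⟨Nat.prime_three⟩
  refine h.resolve_right fun e => ?_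
  have hk : ∀ m : ℕ, (f ^ m) u₀ = ((-1 : ZMod 3) ^ m) • u₀ := by
    intro m
    induction m with
    | zero => simp
    | succ m ih =>
      rw [pow_succ', Module.End.mul_apply, ih, map_smul, e, pow_succ, mul_smul, neg_one_smul]
  have h' := hk (3 ^ N)
  rw [hf, Module.End.one_apply, Odd.neg_one_pow (Odd.pow (by decide)), neg_one_smul] at h'
  have : (2 : ZMod 3) • u₀ = 0 := by rw [two_smul]; nth_rewrite 1 [h']; exact neg_add_cancel u₀
  exact hu₀ ((smul_eq_zero.mp this).resolve_left two_ne_zero_three)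

/-- An endomorphism of a plane fixing a basis is the identity. -/
theorem eq_one_of_fixed (hU : Module.finrank (ZMod 3) U = 2) [Module.Finite (ZMod 3) U]
    {T : Module.End (ZMod 3) U} {u₀ y' : U} (hu₀ : u₀ ≠ 0) (hy'0 : y' ≠ 0)
    {S' : Submodule (ZMod 3) U} (hS'1 : Module.finrank (ZMod 3) S' = 1) (hy'S : y' ∈ S')
    (hnotS : u₀ ∉ S') (hTu : T u₀ = u₀) (hTy : T y' = y') : T = 1 := by
  have : Fact (Nat.Prime 3) := ⟨Nat.prime_three⟩
  refine LinearMap.ext fun x => ?_
  have hsup : Submodule.span (ZMod 3) {u₀} ⊔ S' = ⊤ := by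
    refine Submodule.eq_top_of_finrank_eq ?_
    have hsum := Submodule.finrank_sup_add_finrank_inf_eq (Submodule.span (ZMod 3) {u₀}) S'
    have hinf : Submodule.span (ZMod 3) {u₀} ⊓ S' = ⊥ := by
      refine (Submodule.eq_bot_iff _).mpr fun z hz => ?_
      obtain ⟨hz1, hz2⟩ := Submodule.mem_inf.mp hz
      obtain ⟨a, rfl⟩ := Submodule.mem_span_singleton.mp hz1
      rcases eq_or_ne a 0 with rfl | ha
      · exact zero_smul _ _
      · exact absurd (by simpa [smul_smul, inv_mul_cancel₀ ha] using S'.smul_mem a⁻¹ hz2 :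
          u₀ ∈ S') hnotS
    rw [hinf, finrank_bot, finrank_span_singleton hu₀, hS'1] at hsum
    omega
  obtain ⟨p, hp, q, hq, rfl⟩ := Submodule.mem_sup.mp (hsup ▸ Submodule.mem_top : x ∈ _)
  obtain ⟨a, rfl⟩ := Submodule.mem_span_singleton.mp hp
  obtain ⟨b, hb⟩ := exists_smul_eq_of_finrank_eq_one hS'1 (x := (⟨y', hy'S⟩ : S'))
    (fun h => hy'0 (congrArg Subtype.val h)) ⟨q, hq⟩
  have hb' : b • y' = q := congrArg Subtype.val hb
  rw [map_add, map_smul, hTu, ← hb', map_smul, hTy]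
  rfl

/-- **The ordinary case**: under these hypotheses inertia fixes a nonzero vector of `U`. -/
theorem exists_fixed_of_line [Finite U] (hA : A.LiesOverPrime 3)
    (hU : Module.finrank (ZMod 3) U = 2) (ρ : GQ →* Module.End (ZMod 3) U)
    (hρ : ∃ L : IntermediateField ℚ Qbar, FiniteDimensional ℚ L ∧
      ∀ σ : GQ, (∀ x ∈ L, σ x = x) → ρ σ = 1)
    (hex : ∃ σ ∈ A.inertiaSubgroupIn ℚ, LinearMap.det (ρ σ) = -1)
    {u₀ : U} (hu₀ : u₀ ≠ 0) (hline : ∀ σ ∈ A.inertiaSubgroupIn ℚ, ρ σ u₀ = u₀ ∨ ρ σ u₀ = -u₀)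
    (S : AddSubgroup U)
    (hS : ∀ σ ∈ A.inertiaSubgroupIn ℚ, ∀ x ∈ S, LinearMap.det (ρ σ) • ρ σ x ∈ S)
    (hdiff : ∀ σ ∈ A.inertiaSubgroupIn ℚ, ∀ x,
      LinearMap.det (ρ σ) • ρ σ (LinearMap.det (ρ σ) • ρ σ x - x) -
        (LinearMap.det (ρ σ) • ρ σ x - x) ∈ S)
    (hfree : ∀ x ∈ S, (∀ σ ∈ A.inertiaSubgroupIn ℚ, LinearMap.det (ρ σ) • ρ σ x = x) → x = 0) :
    ∃ x : U, x ≠ 0 ∧ ∀ σ ∈ A.inertiaSubgroupIn ℚ, ρ σ x = x := by
  classical
  have : Fact (Nat.Prime 3) := ⟨Nat.prime_three⟩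
  have : Module.Finite (ZMod 3) U := Module.Finite.of_finite
  have : Nontrivial U := Module.nontrivial_of_finrank_pos (R := ZMod 3) (hU ▸ two_pos)
  obtain ⟨L, hL, hfix⟩ := hρ
  let E := IntermediateField.normalClosure ℚ L Qbar
  have : Normal ℚ E := normalClosure.normal ℚ L Qbar
  obtain ⟨g, hg, hgen, -⟩ := Mazur.Tame.exists_generator Nat.prime_three hA E
  let χ : GQ →* ZMod 3 := (LinearMap.det).comp ρ
  have hχ0 : ∀ σ, χ σ ≠ 0 := fun σ => (((Group.isUnit σ).map χ)).ne_zero
  have hχ : ∀ σ, χ σ = LinearMap.det (ρ σ) := fun σ => rfl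
  -- the tame decomposition
  have hdec : ∀ σ ∈ A.inertiaSubgroupIn ℚ, ∃ (k N : ℕ) (u : GQ), u ∈ A.inertiaSubgroupIn ℚ ∧
      σ = g ^ k * u ∧ ρ u ^ 3 ^ N = 1 := by
    intro σ hσ
    obtain ⟨k, N, hN⟩ := hgen σ hσ
    refine ⟨k, N, (g ^ k)⁻¹ * σ, mul_mem (inv_mem (pow_mem hg k)) hσ,
      (mul_inv_cancel_left _ _).symm, ?_⟩
    rw [← map_pow]
    exact hfix _ fun x hx => hN x (L.le_normalClosure hx)
  have hχu : ∀ {u : GQ} {N : ℕ}, ρ u ^ 3 ^ N = 1 → χ u = 1 := fun {u N} h =>
    eq_one_of_pow_three_pow N (by rw [hχ, ← map_pow, h, map_one])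
  have hχg : χ g = -1 := by
    obtain ⟨σ, hσ, hσd⟩ := hex
    obtain ⟨k, N, u, -, rfl, hu⟩ := hdec σ hσ
    rw [← hχ, map_mul, map_pow, hχu hu, mul_one] at hσd
    rcases eq_one_or_neg_one (hχ0 g) with e | e
    · rw [e, one_pow] at hσd; exact absurd hσd.symm neg_one_ne_one_three
    · exact e
  have hu_fix : ∀ {u : GQ} {N : ℕ}, u ∈ A.inertiaSubgroupIn ℚ → ρ u ^ 3 ^ N = 1 →
      ρ u u₀ = u₀ := fun hu h => apply_eq_of_pow_three_pow h hu₀ (hline _ hu)
  rcases hline g hg with hgu | hgu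
  · refine ⟨u₀, hu₀, fun σ hσ => ?_⟩
    obtain ⟨k, N, u, hu, rfl, hN⟩ := hdec σ hσ
    rw [map_mul, map_pow, Module.End.mul_apply, hu_fix hu hN]
    clear hN hσ
    induction k with
    | zero => simp
    | succ k ih => rw [pow_succ', Module.End.mul_apply, ih, hgu]
  -- inertia acts on the line by the determinant
  have hline' : ∀ σ ∈ A.inertiaSubgroupIn ℚ, χ σ • ρ σ u₀ = u₀ := by
    intro σ hσ
    obtain ⟨k, N, u, hu, rfl, hN⟩ := hdec σ hσ
    rw [map_mul χ, map_pow, hχu hN, mul_one, hχg, map_mul, map_pow, Module.End.mul_apply,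
      hu_fix hu hN]
    clear hN hσ
    induction k with
    | zero => simp
    | succ k ih =>
      rw [pow_succ, pow_succ (ρ g), Module.End.mul_apply, hgu, mul_smul, map_neg, neg_one_smul,
        neg_neg]
      exact ih
  have hnotS : u₀ ∉ S := fun h => hu₀ (hfree u₀ h hline')
  -- the complementary vector
  set B : Module.End (ZMod 3) U := χ g • ρ g with hB
  have htr : LinearMap.trace (ZMod 3) U (ρ g) = 0 := by
    have h := LinearMap.congr_fun (Gal.cayleyHamilton_two hU (ρ g)) u₀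
    rw [Module.End.mul_apply, LinearMap.sub_apply, LinearMap.smul_apply, LinearMap.smul_apply,
      Module.End.one_apply, ← hχ, hχg, hgu, map_neg, hgu, neg_neg, neg_one_smul, sub_neg_eq_add,
      smul_neg, ← sub_eq_zero] at h
    have h' : (LinearMap.trace (ZMod 3) U (ρ g)) • u₀ = 0 := by rw [← h]; abel
    exact (smul_eq_zero.mp h').resolve_right hu₀
  have hB2 : ∀ y, B (B y) = y := fun y => by
    have h := LinearMap.congr_fun (Gal.cayleyHamilton_two hU (ρ g)) y
    rw [htr, ← hχ, hχg] at h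
    simp only [Module.End.mul_apply,
      Module.End.one_apply, zero_smul, zero_sub, neg_one_smul, neg_neg] at h
    rw [hB, hχg, neg_one_smul]
    simp only [LinearMap.neg_apply, map_neg, neg_neg]
    exact h
  obtain ⟨y, hy⟩ : ∃ y, B y ≠ y := by
    by_contra! hall
    have h : LinearMap.det B = 1 := by
      rw [show B = 1 from LinearMap.ext hall, map_one]
    rw [hB, LinearMap.det_smul, hU, ← hχ, hχg] at h
    exact neg_one_ne_one_three (by linear_combination h)
  set y' := B y - y with hy'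
  have hy'0 : y' ≠ 0 := sub_ne_zero.mpr hy
  have hy'S : y' ∈ S := by
    have h : B y' - y' ∈ S := hdiff g hg y
    have e : B y' - y' = (-2 : ZMod 3) • y' := by
      rw [hy', map_sub, hB2, neg_smul, two_smul]; abel
    rwa [e, neg_two_eq_one, one_smul] at h
  -- `S` is the line of `y'`
  let S' : Submodule (ZMod 3) U :=
    { S with
      smul_mem' := fun c x hx => by
        rw [← ZMod.natCast_zmod_val c, Nat.cast_smul_eq_nsmul]
        exact S.nsmul_mem hx _ }
  have hS'1 : Module.finrank (ZMod 3) S' = 1 := by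
    have hlt : Module.finrank (ZMod 3) S' < 2 := hU ▸
      Submodule.finrank_lt fun h => hnotS (h ▸ (Submodule.mem_top (R := ZMod 3) (x := u₀)) :
        u₀ ∈ S')
    have hpos : Module.finrank (ZMod 3) S' ≠ 0 := fun h => hy'0
      (by
        have h' : y' ∈ S' := hy'S
        rwa [Submodule.finrank_eq_zero.mp h, Submodule.mem_bot] at h')
    omega
  refine ⟨y', hy'0, fun σ hσ => ?_⟩
  obtain ⟨c, hc⟩ := exists_smul_eq_of_finrank_eq_one hS'1 (x := (⟨y', hy'S⟩ : S'))
    (fun h => hy'0 (congrArg Subtype.val h)) ⟨_, hS σ hσ y' hy'S⟩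
  have hc' : c • y' = χ σ • ρ σ y' := congrArg Subtype.val hc
  set T : Module.End (ZMod 3) U := χ σ • ρ σ with hT
  have hTu : T u₀ = u₀ := hline' σ hσ
  have hTy : T y' = c • y' := hc'.symm
  have hdd : χ σ * χ σ = 1 := by rcases eq_one_or_neg_one (hχ0 σ) with e | e <;> rw [e] <;> ring
  have hTdet : LinearMap.det T = χ σ := by
    rw [hT, LinearMap.det_smul, hU, ← hχ, pow_two, hdd, one_mul]
  have ch := Gal.cayleyHamilton_two hU T
  rw [hTdet] at ch
  have h1 := LinearMap.congr_fun ch u₀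
  have h2 := LinearMap.congr_fun ch y'
  simp only [Module.End.mul_apply, LinearMap.sub_apply, LinearMap.smul_apply,
    Module.End.one_apply, hTu, hTy, map_smul, smul_smul, ← sub_smul] at h1 h2
  have e1 : LinearMap.trace (ZMod 3) U T - χ σ = 1 :=
    smul_left_injective (ZMod 3) hu₀ (h1.symm.trans (one_smul _ u₀).symm)
  have e2 : c * c = LinearMap.trace (ZMod 3) U T * c - χ σ := smul_left_injective (ZMod 3) hy'0 h2
  have hcχ : c = χ σ := by
    rcases mul_eq_zero.mp (show (c - 1) * (c - χ σ) = 0 by linear_combination e2 + c * e1) with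
      e | e
    · have hc1 : c = 1 := sub_eq_zero.mp e
      have hT1 : T = 1 := eq_one_of_fixed hU hu₀ hy'0 hS'1 hy'S hnotS hTu
        (by rw [hTy, hc1, one_smul])
      rw [hT1, map_one] at hTdet
      rw [hc1, hTdet]
    · exact sub_eq_zero.mp e
  have h := congrArg (fun z => χ σ • z) (hTy.trans (by rw [hcχ]) : T y' = χ σ • y')
  simp only [hT, LinearMap.smul_apply, smul_smul, hdd, one_smul] at h
  exact h

end Fermat.Agent.RemoveThree
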