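import Fermat.Prelude.Def_FLTPrelim_GaloisRep
import Fermat.Prelude.Def_FLTPrelim_Modularity
import Fermat.Agent.LevelFifteen.Torsion
import Fermat.Agent.TW.Flat.Value
import Fermat.Agent.Tate.Deep

/-!
# Points of order three at a place over `3`

If `3 ∤ b₂` exactly one abscissa of a point of order three is nonintegral, so its line is stable
under the decomposition group. Otherwise (good supersingular reduction) the residue of
`(x / (2 y + a₁ x + a₃)) / π`, with `π ^ 8 = 3`, is an additive and equivariant embedding of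
`E[3]` in the residue field.
-/

noncomputable section

open Polynomial WeierstrassCurve WeierstrassCurve.Affine
open scoped WeierstrassCurve.Affine

namespace Fermat.Agent.RemoveThree

open Fermat.Agent.TW.Flat

local notation "Qbar" => AlgebraicClosure ℚ
local notation "GQ" => AlgebraicClosure ℚ ≃ₐ[ℚ] AlgebraicClosure ℚ

/-- The curve over `ℚ̄`. -/
abbrev EB (W : WeierstrassCurve ℤ) : WeierstrassCurve.Affine Qbar :=
  (W.map (Int.castRingHom ℚ))⁄Qbar

/-- Its `3`-torsion. -/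
abbrev T3 (W : WeierstrassCurve ℤ) :=
  Submodule.torsionBy ℤ ((W.map (Int.castRingHom ℚ))⁄Qbar).Point ((3 : ℕ) : ℤ)

variable {W : WeierstrassCurve ℤ}

theorem EB_coeff : (EB W).a₁ = (W.a₁ : Qbar) ∧ (EB W).a₂ = (W.a₂ : Qbar) ∧
    (EB W).a₃ = (W.a₃ : Qbar) ∧ (EB W).a₄ = (W.a₄ : Qbar) ∧ (EB W).a₆ = (W.a₆ : Qbar) := by
  simp [EB, WeierstrassCurve.baseChange]

theorem EB_Δ_ne_zero (hΔ : W.Δ ≠ 0) : (EB W).Δ ≠ 0 := by
  have : (EB W).Δ = (W.Δ : Qbar) := by simp [EB, WeierstrassCurve.baseChange]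
  rw [this]
  exact_mod_cast hΔ

/-- `2 y + a₁ x + a₃`. -/
def bigY (W : WeierstrassCurve ℤ) (x y : Qbar) : Qbar :=
  2 * y + (W.a₁ : Qbar) * x + (W.a₃ : Qbar)

theorem bigY_sq {x y : Qbar} (h : (EB W).Equation x y) :
    bigY W x y ^ 2 =
      4 * x ^ 3 + (W.b₂ : Qbar) * x ^ 2 + 2 * (W.b₄ : Qbar) * x + (W.b₆ : Qbar) := by
  obtain ⟨h1, h2, h3, h4, h6⟩ := EB_coeff (W := W)
  rw [equation_iff, h1, h2, h3, h4, h6] at h
  simp only [bigY, WeierstrassCurve.b₂, WeierstrassCurve.b₄, WeierstrassCurve.b₆]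
  push_cast
  linear_combination 4 * h

theorem eval_psiThree (x : Qbar) : (EB W).Ψ₃.eval x =
    3 * x ^ 4 + (W.b₂ : Qbar) * x ^ 3 + 3 * (W.b₄ : Qbar) * x ^ 2 + 3 * (W.b₆ : Qbar) * x +
      (W.b₈ : Qbar) := by
  simp [Ψ₃, EB, WeierstrassCurve.baseChange]

theorem three_nsmul_coe (P : T3 W) : (3 : ℕ) • (P : (EB W).Point) = 0 := by
  have h := (Submodule.mem_torsionBy_iff _ _).mp P.2
  rwa [natCast_zsmul] at h

theorem mem_T3 {P : (EB W).Point} (h : (3 : ℕ) • P = 0) :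
    P ∈ Submodule.torsionBy ℤ ((W.map (Int.castRingHom ℚ))⁄Qbar).Point ((3 : ℕ) : ℤ) := by
  rw [Submodule.mem_torsionBy_iff, natCast_zsmul]
  exact h

section valuation

variable {A : ValuationSubring Qbar} (hA : A.LiesOverPrime 3)

local notation "v" => A.valuation

theorem val_int_le (n : ℤ) : v (n : Qbar) ≤ 1 :=
  (A.valuation_le_one_iff _).mpr (intCast_mem A n)

include hA

theorem val_three_lt : v (3 : Qbar) < 1 := hA

theorem val_int_eq_one {n : ℤ} (hn : ¬ (3 : ℤ) ∣ n) : v (n : Qbar) = 1 := by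
  refine le_antisymm (val_int_le n) (not_lt.mp fun hlt => ?_)
  obtain ⟨a, b, hab⟩ : IsCoprime (3 : ℤ) n := by
    refine (Prime.coprime_iff_not_dvd ?_).mpr hn
    norm_num
  have h1 : (a : Qbar) * 3 + (b : Qbar) * n = 1 := by exact_mod_cast hab
  have h2 : v ((a : Qbar) * 3 + (b : Qbar) * n) < 1 := by
    refine (A.valuation.map_add _ _).trans_lt (max_lt ?_ ?_)
    · rw [map_mul]; exact (mul_le_of_le_one_left' (val_int_le a)).trans_lt (val_three_lt hA)
    · rw [map_mul]; exact (mul_le_of_le_one_left' (val_int_le b)).trans_lt hlt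
  rw [h1, map_one] at h2
  exact lt_irrefl _ h2

omit hA in
theorem val_int_le_three {n : ℤ} (hn : (3 : ℤ) ∣ n) : v (n : Qbar) ≤ v (3 : Qbar) := by
  obtain ⟨m, rfl⟩ := hn
  push_cast
  rw [map_mul]
  exact mul_le_of_le_one_right' (val_int_le m)

theorem val_four : v (4 : Qbar) = 1 := by
  have := val_int_eq_one hA (n := 4) (by norm_num)
  simpa using this

theorem three_eq_zero_residue : (3 : IsLocalRing.ResidueField A) = 0 := by
  have h := red_natCast (A := A) 3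
  rw [red_eq_zero_of_lt (by simpa using val_three_lt hA)] at h
  simpa using h.symm

/-- Two roots of `Ψ₃` outside the place coincide when `3 ∤ b₂`. -/
theorem eq_of_not_mem {x x' : Qbar} (hb : ¬ (3 : ℤ) ∣ W.b₂) (hx : x ∉ A) (hx' : x' ∉ A)
    (h : (EB W).Ψ₃.eval x = 0) (h' : (EB W).Ψ₃.eval x' = 0) : x = x' := by
  have hx0 : x ≠ 0 := fun e => hx (e ▸ A.zero_mem)
  have hx0' : x' ≠ 0 := fun e => hx' (e ▸ A.zero_mem)
  set u := x⁻¹ with hu
  set u' := x'⁻¹ with hu'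
  have key : ∀ {z : Qbar}, z ≠ 0 → (EB W).Ψ₃.eval z = 0 →
      (W.b₈ : Qbar) * z⁻¹ ^ 4 + 3 * (W.b₆ : Qbar) * z⁻¹ ^ 3 + 3 * (W.b₄ : Qbar) * z⁻¹ ^ 2 +
        (W.b₂ : Qbar) * z⁻¹ + 3 = 0 := by
    intro z hz he
    rw [eval_psiThree] at he
    field_simp
    linear_combination he
  have hlt : ∀ {z : Qbar}, z ∉ A → v z⁻¹ < 1 := by
    intro z hz
    have hz1 : (1 : A.ValueGroup) < v z := not_le.mp fun h => hz ((A.valuation_le_one_iff z).mp h)
    rw [map_inv₀]
    exact (inv_lt_one₀ (zero_lt_one.trans hz1)).mpr hz1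
  set R : Qbar := (W.b₈ : Qbar) * ((u + u') * (u ^ 2 + u' ^ 2)) +
    3 * (W.b₆ : Qbar) * (u ^ 2 + u * u' + u' ^ 2) + 3 * (W.b₄ : Qbar) * (u + u')
  have hR : v R < 1 := by
    have hu1 : v u < 1 := hlt hx
    have hu1' : v u' < 1 := hlt hx'
    have hs : v (u + u') < 1 := (A.valuation.map_add _ _).trans_lt (max_lt hu1 hu1')
    have h3 : ∀ (n : ℤ) {z : Qbar}, v z ≤ 1 → v (3 * (n : Qbar) * z) < 1 := fun n z hz => by
      rw [map_mul, map_mul]
      exact ((mul_le_of_le_one_right' hz).trans (mul_le_of_le_one_right' (val_int_le n))).trans_lt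
        (val_three_lt hA)
    have hsq : ∀ {a b : Qbar}, v a ≤ 1 → v b ≤ 1 → v (a * b) ≤ 1 := fun ha hb => by
      rw [map_mul]; exact mul_le_one' ha hb
    refine (A.valuation.map_add _ _).trans_lt (max_lt ((A.valuation.map_add _ _).trans_lt
      (max_lt ?_ (h3 _ ?_))) (h3 _ hs.le))
    · rw [map_mul, map_mul]
      refine (mul_le_of_le_one_left' (val_int_le _)).trans_lt
        ((mul_le_of_le_one_right' ?_).trans_lt hs)
      rw [pow_two, pow_two]
      exact (A.valuation.map_add _ _).trans (max_le (hsq hu1.le hu1.le) (hsq hu1'.le hu1'.le))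
    · rw [pow_two, pow_two]
      exact (A.valuation.map_add _ _).trans (max_le ((A.valuation.map_add _ _).trans
        (max_le (hsq hu1.le hu1.le) (hsq hu1.le hu1'.le))) (hsq hu1'.le hu1'.le))
  have hprod : (u - u') * ((W.b₂ : Qbar) + R) = 0 := by
    linear_combination key hx0 h - key hx0' h'
  have hne : (W.b₂ : Qbar) + R ≠ 0 := by
    intro e
    have := A.valuation.map_add_eq_of_lt_left (x := (W.b₂ : Qbar)) (y := R)
      (by rw [val_int_eq_one hA hb]; exact hR)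
    rw [e, map_zero, val_int_eq_one hA hb] at this
    exact zero_ne_one this
  exact inv_injective (sub_eq_zero.mp ((mul_eq_zero.mp hprod).resolve_right hne))

/-- When `3 ∤ b₂` some line of `E[3]` is stable under the decomposition group. -/
theorem exists_stable_line (hΔ : W.Δ ≠ 0) (hb : ¬ (3 : ℤ) ∣ W.b₂) :
    ∃ P : T3 W, P ≠ 0 ∧ ∀ σ ∈ A.decompositionSubgroup ℚ, σ • P = P ∨ σ • P = -P := by
  let f : A[X] := C (W.b₈ : A) * X ^ 4 + C (3 * (W.b₆ : A)) * X ^ 3 +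
    C (3 * (W.b₄ : A)) * X ^ 2 + C (W.b₂ : A) * X + C 3
  have hres : ∀ n : ℤ, IsLocalRing.residue A (n : A) = red A (n : Qbar) := fun n => by
    rw [map_intCast, red_intCast]
  obtain ⟨u, hu, hu1⟩ := Tate.exists_root_lt_one (f := f) (fun h0 => by
    have h1 := congrArg (fun q : (IsLocalRing.ResidueField A)[X] => q.coeff 1) h0
    simp only [Polynomial.coeff_map, coeff_zero] at h1
    rw [show f.coeff 1 = (W.b₂ : A) by
        simp only [f, coeff_add, coeff_C_mul_X_pow, coeff_C_mul_X, coeff_C]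
        norm_num, hres,
      red_eq_zero_iff (intCast_mem A _), val_int_eq_one hA hb] at h1
    exact lt_irrefl _ h1) (by
    rw [show f.coeff 0 = ((3 : ℤ) : A) by simp [f, coeff_X_pow, coeff_C], hres,
      red_eq_zero_iff (intCast_mem A _)]
    simpa using val_three_lt hA)
  have hu' : (W.b₈ : Qbar) * u ^ 4 + 3 * (W.b₆ : Qbar) * u ^ 3 + 3 * (W.b₄ : Qbar) * u ^ 2 +
      (W.b₂ : Qbar) * u + 3 = 0 := by
    simpa [f, map_ofNat] using hu
  have hu0 : u ≠ 0 := fun e => by simp [e] at hu'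
  have hroot : (EB W).Ψ₃.eval u⁻¹ = 0 := by
    rw [eval_psiThree]
    field_simp
    linear_combination hu'
  have hnot : u⁻¹ ∉ A := by
    intro hm
    have h1 := (A.valuation_le_one_iff _).mpr hm
    rw [map_inv₀, inv_le_one₀ (zero_lt_iff.mpr (A.valuation.ne_zero_iff.mpr hu0))] at h1
    exact h1.not_gt hu1
  obtain ⟨x, y, hn, hx⟩ := LevelFifteen.exists_point (EB W) (EB_Δ_ne_zero hΔ) (f := X - C u⁻¹)
    (by rw [natDegree_X_sub_C]; exact one_ne_zero)
  obtain rfl : x = u⁻¹ := by simpa [sub_eq_zero] using hx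
  refine ⟨⟨_, mem_T3 ((LevelFifteen.three_nsmul_eq_zero_iff hn).mpr hroot)⟩,
    fun e => Point.some_ne_zero hn (congrArg Subtype.val e), fun σ hσ => ?_⟩
  have hn' : (EB W).Nonsingular (σ u⁻¹) (σ y) :=
    ((W.map (Int.castRingHom ℚ)).toAffine.baseChange_nonsingular σ.toAlgHom.injective u⁻¹ y).mpr hn
  have hσP : σ • (Point.some u⁻¹ y hn : (EB W).Point) = Point.some (σ u⁻¹) (σ y) hn' := rfl
  have hmem : (σ • (Point.some u⁻¹ y hn : (EB W).Point)) ∈
      Submodule.torsionBy ℤ ((W.map (Int.castRingHom ℚ))⁄Qbar).Point ((3 : ℕ) : ℤ) :=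
    Point.smul_mem_torsionBy σ (mem_T3 ((LevelFifteen.three_nsmul_eq_zero_iff hn).mpr hroot))
  have hrootσ : (EB W).Ψ₃.eval (σ u⁻¹) = 0 := by
    refine (LevelFifteen.three_nsmul_eq_zero_iff hn').mp ?_
    rw [← hσP]
    exact three_nsmul_coe ⟨_, hmem⟩
  have hnotσ : σ u⁻¹ ∉ A := fun hm => hnot ((Gal.mem_decomposition_iff.mp hσ _).mp hm)
  have hxe := eq_of_not_mem hA hb hnotσ hnot hrootσ hroot
  rcases LevelFifteen.nsmul_eq_some_or hn' hn hxe with e | e
  · exact Or.inl (Subtype.ext (hσP.trans e))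
  · exact Or.inr (Subtype.ext (hσP.trans e))

omit hA in
theorem good_of_dvd_b₂ (hW : W.IsSemistableModel) (hb : (3 : ℤ) ∣ W.b₂) :
    ¬ (3 : ℤ) ∣ W.b₈ ∧ ¬ (3 : ℤ) ∣ W.Δ := by
  have h3 : Prime (3 : ℤ) := by norm_num
  have hΔ : ¬ (3 : ℤ) ∣ W.Δ := fun h => hW 3 Nat.prime_three (by exact_mod_cast h) (by
    obtain ⟨k, hk⟩ := hb
    exact ⟨3 * k ^ 2 - 8 * W.b₄, by rw [WeierstrassCurve.c₄, hk]; push_cast; ring⟩)
  refine ⟨fun h => hΔ ?_, hΔ⟩
  obtain ⟨k, hk⟩ := hb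
  obtain ⟨m, hm⟩ := h
  have hb4 : (3 : ℤ) ∣ W.b₄ := h3.dvd_of_dvd_pow (n := 2)
    ⟨k * W.b₆ - 4 * m, by linear_combination W.b_relation + W.b₆ * hk - 4 * hm⟩
  obtain ⟨j, hj⟩ := hb4
  exact ⟨-(3 * k ^ 2 * W.b₈) - 72 * j ^ 3 - 9 * W.b₆ ^ 2 + 27 * k * j * W.b₆, by
    rw [WeierstrassCurve.Δ, hk, hj]; ring⟩

/-- The valuations of the coordinates of a point of order three, supersingular case. -/
theorem val_coord (hW : W.IsSemistableModel) (hb : (3 : ℤ) ∣ W.b₂) {π : Qbar} (hπ : π ^ 8 = 3)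
    {x y : Qbar} {hn : (EB W).Nonsingular x y}
    (h : (3 : ℕ) • (Point.some x y hn : (EB W).Point) = 0) :
    bigY W x y ≠ 0 ∧ x ≠ 0 ∧ v (x / bigY W x y) = v π ∧ v (1 / bigY W x y) = v π ^ 3 := by
  have hroot := (LevelFifteen.three_nsmul_eq_zero_iff hn).mp h
  rw [eval_psiThree] at hroot
  have hq1 := val_three_lt hA
  set q := v (3 : Qbar) with hq
  have hb8 := val_int_eq_one hA (good_of_dvd_b₂ hW hb).1
  set rest : Qbar := (W.b₂ : Qbar) * x ^ 3 + 3 * (W.b₄ : Qbar) * x ^ 2 + 3 * (W.b₆ : Qbar) * x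
    with hrest
  have hbound : ∀ γ : A.ValueGroup, v x ^ 3 ≤ γ → v x ^ 2 ≤ γ → v x ≤ γ → v rest ≤ q * γ := by
    intro γ g3 g2 g1
    refine (A.valuation.map_add _ _).trans
        (max_le ((A.valuation.map_add _ _).trans (max_le ?_ ?_)) ?_)
    · rw [map_mul, map_pow]; exact mul_le_mul' (val_int_le_three hb) g3
    · rw [map_mul, map_mul, map_pow]
      exact mul_le_mul' (mul_le_of_le_one_right' (val_int_le _)) g2
    · rw [map_mul, map_mul]
      exact mul_le_mul' (mul_le_of_le_one_right' (val_int_le _)) g1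
  have hbig : 1 < v x := by
    refine not_le.mp fun hx => ?_
    have h3 : v (3 * x ^ 4 + rest) < 1 := by
      refine (A.valuation.map_add _ _).trans_lt (max_lt ?_ ?_)
      · rw [map_mul, map_pow]; exact (mul_le_of_le_one_right' (pow_le_one₀ zero_le hx)).trans_lt hq1
      · exact ((hbound 1 (pow_le_one₀ zero_le hx) (pow_le_one₀ zero_le hx) hx).trans_eq
          (mul_one q)).trans_lt hq1
    rw [show 3 * x ^ 4 + rest = -(W.b₈ : Qbar) by rw [hrest]; linear_combination hroot,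
      Valuation.map_neg, hb8] at h3
    exact lt_irrefl _ h3
  have hx0 : x ≠ 0 := fun e => by simp [e] at hbig
  have hvx : q * v x ^ 4 = 1 := by
    have hrlt : v rest < q * v x ^ 4 := by
      refine (hbound (v x ^ 3) le_rfl (pow_le_pow_right₀ hbig.le (by norm_num))
        (le_self_pow hbig.le (by norm_num))).trans_lt ?_
      rw [show q * v x ^ 4 = q * v x ^ 3 * v x by rw [mul_assoc, ← pow_succ]]
      refine lt_mul_of_one_lt_right ?_ hbig
      exact mul_pos (zero_lt_iff.mpr (A.valuation.ne_zero_iff.mpr (by norm_num)))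
        (pow_pos (zero_lt_one.trans hbig) 3)
    have e := A.valuation.map_add_eq_of_lt_left (x := 3 * x ^ 4) (y := rest)
      (by rwa [map_mul, map_pow])
    rw [show 3 * x ^ 4 + rest = -(W.b₈ : Qbar) by rw [hrest]; linear_combination hroot,
      Valuation.map_neg, hb8, map_mul, map_pow] at e
    exact e.symm
  have hε : q = v π ^ 8 := by rw [hq, ← hπ, map_pow]
  have hπ0 : π ≠ 0 := fun e => by simp [e] at hπ
  have hx2 : v π ^ 2 * v x = 1 := by
    refine (pow_left_inj₀ zero_le zero_le (n := 4) (by norm_num)).mp ?_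
    rw [mul_pow, ← pow_mul, ← hε, hvx, one_pow]
  have hY : v (bigY W x y) ^ 2 = v x ^ 3 := by
    rw [← map_pow, bigY_sq hn.1]
    have hlt : v ((W.b₂ : Qbar) * x ^ 2 + 2 * (W.b₄ : Qbar) * x + (W.b₆ : Qbar)) <
        v (4 * x ^ 3) := by
      rw [map_mul, val_four hA, one_mul, map_pow]
      refine lt_of_le_of_lt ?_ (pow_lt_pow_right₀ hbig (by norm_num : 2 < 3))
      refine (A.valuation.map_add _ _).trans (max_le ((A.valuation.map_add _ _).trans
        (max_le ?_ ?_)) ?_)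
      · rw [map_mul, map_pow]; exact mul_le_of_le_one_left' (val_int_le _)
      · rw [map_mul]
        exact (mul_le_of_le_one_left' (by exact_mod_cast val_int_le (A := A) (2 * W.b₄))).trans
          (le_self_pow hbig.le (by norm_num))
      · exact (val_int_le _).trans (one_le_pow₀ hbig.le)
    rw [add_assoc, add_assoc, A.valuation.map_add_eq_of_lt_left (by rwa [← add_assoc]), map_mul,
      val_four hA, one_mul, map_pow]
  have hY0 : bigY W x y ≠ 0 := fun e => by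
    rw [e, map_zero, zero_pow two_ne_zero] at hY
    exact (pow_pos (zero_lt_one.trans hbig) 3).ne hY
  have hY3 : v π ^ 3 * v (bigY W x y) = 1 := by
    refine (pow_left_inj₀ zero_le zero_le (n := 2) two_ne_zero).mp ?_
    rw [mul_pow, ← pow_mul, hY, one_pow, show 3 * 2 = 2 * 3 from rfl, pow_mul, ← mul_pow, hx2,
      one_pow]
  refine ⟨hY0, hx0, ?_, ?_⟩
  · rw [map_div₀, eq_inv_of_mul_eq_one_right hx2, eq_inv_of_mul_eq_one_right hY3]
    field_simp
  · rw [map_div₀, map_one, eq_inv_of_mul_eq_one_right hY3, one_div, inv_inv]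

omit hA in
theorem val_mul_le_mul {a b : Qbar} {γ δ : A.ValueGroup} (ha : v a ≤ γ) (hb : v b ≤ δ) :
    v (a * b) ≤ γ * δ := by
  rw [map_mul]; exact mul_le_mul' ha hb

omit hA in
theorem val_int_mul_le (n : ℤ) {a : Qbar} {γ : A.ValueGroup} (ha : v a ≤ γ) :
    v ((n : Qbar) * a) ≤ γ := by
  simpa using val_mul_le_mul (val_int_le (A := A) n) ha

omit hA in
/-- Points of the chart with small parameters: the difference of the `S` is at most `ε ^ 2` times
the difference of the `T`. -/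
theorem val_sub_le_of_chart {b₂ b₄ b₆ : ℤ} {ε : A.ValueGroup} (hε1 : ε < 1) {T T' S S' : Qbar}
    (hT : v T ≤ ε) (hT' : v T' ≤ ε) (hS : v S ≤ ε ^ 3) (hS' : v S' ≤ ε ^ 3)
    (e : S = 4 * T ^ 3 + b₂ * T ^ 2 * S + 2 * b₄ * T * S ^ 2 + b₆ * S ^ 3)
    (e' : S' = 4 * T' ^ 3 + b₂ * T' ^ 2 * S' + 2 * b₄ * T' * S' ^ 2 + b₆ * S' ^ 3) :
    v (S - S') ≤ ε ^ 2 * v (T - T') := by
  have add_le := @A.valuation.map_add_le
  have int_le := @val_int_mul_le A
  have pow_le : ∀ {m n : ℕ}, m ≤ n → ε ^ n ≤ ε ^ m := fun h => pow_le_pow_right_of_le_one' hε1.le h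
  have two_le : ∀ {a : Qbar} {γ : A.ValueGroup}, v a ≤ γ → v (2 * a) ≤ γ := fun ha => by
    exact_mod_cast int_le 2 ha
  have hT2 : ∀ {a b : Qbar}, v a ≤ ε → v b ≤ ε → v (a * b) ≤ ε ^ 2 := fun ha hb => by
    rw [pow_two]; exact val_mul_le_mul ha hb
  have hS2 : ∀ {a b : Qbar}, v a ≤ ε ^ 3 → v b ≤ ε ^ 3 → v (a * b) ≤ ε ^ 2 := fun ha hb =>
    (val_mul_le_mul ha hb).trans (by rw [← pow_add]; exact pow_le (by norm_num))
  set G : Qbar := 4 * (T * T + T * T' + T' * T') + b₂ * ((T + T') * S) + b₄ * (2 * (S * S))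
  set H : Qbar := b₂ * (T' * T') + b₄ * (2 * (T' * (S + S'))) +
    b₆ * (S * S + S * S' + S' * S')
  have hG : v G ≤ ε ^ 2 := by
    refine add_le (add_le ?_ (int_le _ ?_)) (int_le _ (two_le (hS2 hS hS)))
    · exact_mod_cast int_le 4 (add_le (add_le (hT2 hT hT) (hT2 hT hT')) (hT2 hT' hT'))
    · exact (val_mul_le_mul (add_le hT hT') hS).trans (by
        rw [← pow_succ']; exact pow_le (by norm_num))
  have hH : v H ≤ ε ^ 2 := add_le (add_le (int_le _ (hT2 hT' hT'))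
    (int_le _ (two_le ((val_mul_le_mul hT' (add_le hS hS')).trans (by
        rw [← pow_succ']; exact pow_le (by norm_num))))))
    (int_le _ (add_le (add_le (hS2 hS hS) (hS2 hS hS')) (hS2 hS' hS')))
  have key : (S - S') * (1 - H) = (T - T') * G := by linear_combination e - e'
  have h1 : v (1 - H) = 1 := by
    refine A.valuation.map_one_sub_of_lt (hH.trans_lt ?_)
    exact pow_lt_one₀ zero_le hε1 two_ne_zero
  have := congrArg v key
  rw [map_mul, map_mul, h1, mul_one] at this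
  rw [this, mul_comm]
  exact mul_le_mul' hG le_rfl

/-- Three points on a line with small parameters have small sum. -/
theorem val_sum_lt {b₂ b₄ b₆ : ℤ} {ε : A.ValueGroup} (hε0 : ε ≠ 0) (hε1 : ε < 1)
    {T₁ T₂ T₃ S₁ S₂ S₃ c M : Qbar}
    (hT₁ : v T₁ ≤ ε) (hT₂ : v T₂ ≤ ε) (hT₃ : v T₃ ≤ ε)
    (hS₁ : v S₁ ≤ ε ^ 3) (hS₂ : v S₂ ≤ ε ^ 3) (hS₃ : v S₃ ≤ ε ^ 3)
    (e₁ : S₁ = 4 * T₁ ^ 3 + b₂ * T₁ ^ 2 * S₁ + 2 * b₄ * T₁ * S₁ ^ 2 + b₆ * S₁ ^ 3)
    (e₂ : S₂ = 4 * T₂ ^ 3 + b₂ * T₂ ^ 2 * S₂ + 2 * b₄ * T₂ * S₂ ^ 2 + b₆ * S₂ ^ 3)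
    (e₃ : S₃ = 4 * T₃ ^ 3 + b₂ * T₃ ^ 2 * S₃ + 2 * b₄ * T₃ * S₃ ^ 2 + b₆ * S₃ ^ 3)
    (l₁ : c * S₁ + M * T₁ = 1) (l₂ : c * S₂ + M * T₂ = 1) (l₃ : c * S₃ + M * T₃ = 1)
    (h12 : ¬ (T₁ = T₂ ∧ S₁ = S₂)) (h13 : ¬ (T₁ = T₃ ∧ S₁ = S₃))
    (h23 : ¬ (T₂ = T₃ ∧ S₂ = S₃)) : v (T₁ + T₂ + T₃) < ε := by
  have add_le := @A.valuation.map_add_le
  have int_le := @val_int_mul_le A
  have two_le : ∀ {a : Qbar} {γ : A.ValueGroup}, v a ≤ γ → v (2 * a) ≤ γ := fun ha => by
    exact_mod_cast int_le 2 ha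
  -- the differences
  have diff := @val_sub_le_of_chart A b₂ b₄ b₆ ε hε1
  have hne : ∀ {T T' S S' : Qbar}, v (S - S') ≤ ε ^ 2 * v (T - T') →
      ¬ (T = T' ∧ S = S') → T ≠ T' := by
    intro T T' S S' h hn he
    refine hn ⟨he, ?_⟩
    rw [he, sub_self, map_zero, mul_zero, le_zero_iff, map_eq_zero, sub_eq_zero] at h
    exact h
  have d12 := diff hT₁ hT₂ hS₁ hS₂ e₁ e₂
  have t12 := hne d12 h12
  have t13 := hne (diff hT₁ hT₃ hS₁ hS₃ e₁ e₃) h13
  have t23 := hne (diff hT₂ hT₃ hS₂ hS₃ e₂ e₃) h23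
  set lam : Qbar := (S₁ - S₂) / (T₁ - T₂) with hlam
  have hd : lam * (T₁ - T₂) = S₁ - S₂ := div_mul_cancel₀ _ (sub_ne_zero.mpr t12)
  have hlam2 : v lam ≤ ε ^ 2 := by
    rw [hlam, map_div₀, div_le_iff₀ (zero_lt_iff.mpr (A.valuation.ne_zero_iff.mpr
      (sub_ne_zero.mpr t12)))]
    exact d12
  set mu : Qbar := S₁ - lam * T₁ with hmu
  have hmu3 : v mu ≤ ε ^ 3 := A.valuation.map_sub_le hS₁ (by
    rw [show ε ^ 3 = ε ^ 2 * ε from pow_succ ε 2]; exact val_mul_le_mul hlam2 hT₁)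
  have hc : c ≠ 0 := by
    intro e
    rw [e, zero_mul, zero_add] at l₁ l₂
    have hM : M ≠ 0 := fun e' => by simp [e'] at l₁
    exact t12 (mul_left_cancel₀ hM (l₁.trans l₂.symm))
  have hlamc : c * lam = -M := by
    refine mul_right_cancel₀ (sub_ne_zero.mpr t12) ?_
    linear_combination c * hd + l₁ - l₂
  have f₁ : S₁ = lam * T₁ + mu := by rw [hmu]; ring
  have f₂ : S₂ = lam * T₂ + mu := by rw [hmu]; linear_combination hd
  have f₃ : S₃ = lam * T₃ + mu := by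
    refine mul_left_cancel₀ hc ?_
    rw [hmu]; linear_combination l₃ - l₁ - (T₃ - T₁) * hlamc
  set a3 : Qbar := 4 + (b₂ * lam + b₄ * (2 * (lam * lam)) + b₆ * (lam * (lam * lam)))
  set a2 : Qbar := b₂ * mu + b₄ * (2 * (2 * (lam * mu))) + b₆ * ((3 : ℤ) * (lam * (lam * mu)))
  set a1 : Qbar := 2 * b₄ * mu ^ 2 + 3 * b₆ * lam * mu ^ 2 - lam
  set a0 : Qbar := b₆ * mu ^ 3 - mu
  have hroot : ∀ {T S : Qbar}, S = lam * T + mu →
      S = 4 * T ^ 3 + b₂ * T ^ 2 * S + 2 * b₄ * T * S ^ 2 + b₆ * S ^ 3 →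
      a3 * T ^ 3 + a2 * T ^ 2 + a1 * T + a0 = 0 := by
    intro T S hS e
    subst hS
    simp only [a3, a2, a1, a0]
    push_cast
    linear_combination -e
  have hsum : a3 * (T₁ + T₂ + T₃) = -a2 := by
    have g12 : a3 * (T₁ ^ 2 + T₁ * T₂ + T₂ ^ 2) + a2 * (T₁ + T₂) + a1 = 0 :=
      mul_left_cancel₀ (sub_ne_zero.mpr t12)
        (by linear_combination hroot f₁ e₁ - hroot f₂ e₂)
    have g13 : a3 * (T₁ ^ 2 + T₁ * T₃ + T₃ ^ 2) + a2 * (T₁ + T₃) + a1 = 0 :=
      mul_left_cancel₀ (sub_ne_zero.mpr t13)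
        (by linear_combination hroot f₁ e₁ - hroot f₃ e₃)
    refine mul_left_cancel₀ (sub_ne_zero.mpr t23) ?_
    linear_combination g12 - g13
  have hl1 : v lam ≤ 1 := hlam2.trans (pow_le_one₀ zero_le hε1.le)
  have hm3 : ∀ {a : Qbar}, v a ≤ 1 → v (a * mu) ≤ ε ^ 3 := fun ha =>
    (val_mul_le_mul ha hmu3).trans_eq (one_mul _)
  have hl2 : ∀ {a : Qbar}, v a ≤ 1 → v (lam * a) ≤ ε ^ 2 := fun ha =>
    (val_mul_le_mul hlam2 ha).trans_eq (mul_one _)
  have ha3 : v a3 = 1 := by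
    have hr : v (b₂ * lam + b₄ * (2 * (lam * lam)) + b₆ * (lam * (lam * lam))) < 1 := by
      refine (add_le (add_le (int_le _ hlam2) (int_le _ (two_le (hl2 hl1))))
        (int_le _ (hl2 ((hl2 hl1).trans (pow_le_one₀ zero_le hε1.le))))).trans_lt ?_
      exact pow_lt_one₀ zero_le hε1 two_ne_zero
    rw [A.valuation.map_add_eq_of_lt_left (by rw [val_four hA]; exact hr), val_four hA]
  have ha2 : v a2 ≤ ε ^ 3 :=
    add_le (add_le (int_le _ hmu3) (int_le _ (two_le (two_le (hm3 hl1)))))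
      (int_le _ (int_le 3 (by
        rw [← mul_assoc]; exact hm3 (by rw [map_mul]; exact mul_le_one' hl1 hl1))))
  have := congrArg v hsum
  rw [map_mul, ha3, one_mul, Valuation.map_neg] at this
  rw [this]
  refine ha2.trans_lt ?_
  calc ε ^ 3 < ε ^ 1 := pow_lt_pow_right_of_lt_one₀ (zero_lt_iff.mpr hε0) hε1 (by norm_num)
    _ = ε := pow_one ε

end valuation

variable (A : ValuationSubring Qbar) (π : Qbar)

/-- The leading residue of the parameter. -/
def leadPar : (EB W).Point → IsLocalRing.ResidueField A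
  | 0 => 0
  | .some x y _ => red A (x / bigY W x y / π)

variable {A π}

theorem leadPar_some {x y : Qbar} {h : (EB W).Nonsingular x y} :
    leadPar A π (Point.some x y h : (EB W).Point) = red A (x / bigY W x y / π) := rfl

theorem div_bigY_div_mem (hA : A.LiesOverPrime 3) (hW : W.IsSemistableModel)
    (hb : (3 : ℤ) ∣ W.b₂) (hπ : π ^ 8 = 3) {x y : Qbar} {hn : (EB W).Nonsingular x y}
    (h : (3 : ℕ) • (Point.some x y hn : (EB W).Point) = 0) : x / bigY W x y / π ∈ A := by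
  have hπ0 : π ≠ 0 := fun e => by simp [e] at hπ
  rw [mem_iff_val_le_one, map_div₀, (val_coord hA hW hb hπ h).2.2.1,
    div_self (A.valuation.ne_zero_iff.mpr hπ0)]

/-- The leading residue of the parameter is odd. -/
theorem leadPar_neg (hA : A.LiesOverPrime 3) (hW : W.IsSemistableModel) (hb : (3 : ℤ) ∣ W.b₂)
    (hπ : π ^ 8 = 3) (P : T3 W) :
    leadPar A π ((-P : T3 W) : (EB W).Point) = -leadPar A π (P : (EB W).Point) := by
  have mem : ∀ {x y : Qbar} {hn : (EB W).Nonsingular x y},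
      (3 : ℕ) • (Point.some x y hn : (EB W).Point) = 0 → x / bigY W x y / π ∈ A :=
    fun h => div_bigY_div_mem hA hW hb hπ h
  rcases P with ⟨_ | ⟨x, y, hn⟩, hP⟩
  · exact neg_zero.symm
  · show leadPar A π (-(Point.some x y hn : (EB W).Point)) = -leadPar A π _
    rw [Point.neg_some, leadPar_some, leadPar_some]
    have e : bigY W x ((EB W).negY x y) = -bigY W x y := by
      obtain ⟨h1, -, h3, -, -⟩ := EB_coeff (W := W)
      rw [negY, bigY, bigY, h1, h3]
      ring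
    rw [e, div_neg, neg_div, ← zero_sub, red_sub A.zero_mem (mem (three_nsmul_coe ⟨_, hP⟩)),
      red_zero, zero_sub]

/-- The equation of the curve in the chart at the origin. -/
theorem chart_eq {x y : Qbar} (he : (EB W).Equation x y) (hy : bigY W x y ≠ 0) :
    1 / bigY W x y = 4 * (x / bigY W x y) ^ 3 +
      W.b₂ * (x / bigY W x y) ^ 2 * (1 / bigY W x y) +
      2 * W.b₄ * (x / bigY W x y) * (1 / bigY W x y) ^ 2 +
      W.b₆ * (1 / bigY W x y) ^ 3 := by
  have := bigY_sq he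
  field_simp
  linear_combination this

theorem val_root_lt (hA : A.LiesOverPrime 3) (hπ : π ^ 8 = 3) : A.valuation π < 1 := by
  refine not_le.mp fun h => (val_three_lt hA).not_ge ?_
  rw [← hπ, map_pow]
  exact one_le_pow₀ h

/-- The leading residue of the parameter is additive on `E[3]`. -/
theorem leadPar_add (hA : A.LiesOverPrime 3) (hW : W.IsSemistableModel) (hb : (3 : ℤ) ∣ W.b₂)
    (hπ : π ^ 8 = 3) (P Q : T3 W) : leadPar A π ((P + Q : T3 W) : (EB W).Point) =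
      leadPar A π (P : (EB W).Point) + leadPar A π (Q : (EB W).Point) := by
  have hπ0 : π ≠ 0 := fun e => by simp [e] at hπ
  have hε0 : A.valuation π ≠ 0 := A.valuation.ne_zero_iff.mpr hπ0
  have hε1 : A.valuation π < 1 := val_root_lt hA hπ
  have h3κ := three_eq_zero_residue hA
  set w₀ : T3 W → IsLocalRing.ResidueField A := fun P => leadPar A π (P : (EB W).Point) with hw₀
  show w₀ (P + Q) = w₀ P + w₀ Q
  have mem : ∀ {x y : Qbar} {hn : (EB W).Nonsingular x y},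
      (3 : ℕ) • (Point.some x y hn : (EB W).Point) = 0 → x / bigY W x y / π ∈ A :=
    fun h => div_bigY_div_mem hA hW hb hπ h
  have hneg : ∀ P : T3 W, w₀ (-P) = -w₀ P := leadPar_neg hA hW hb hπ
  by_cases hQP : Q = P
  · subst hQP
    rw [show Q + Q = -Q from ?_, hneg]
    · linear_combination (-w₀ Q) * h3κ
    rw [eq_neg_iff_add_eq_zero]
    refine Subtype.ext ?_
    rw [Submodule.coe_add, Submodule.coe_add, ← two_nsmul, ← succ_nsmul, Submodule.coe_zero]
    exact three_nsmul_coe Q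
  by_cases hQn : Q = -P
  · subst hQn
    rw [add_neg_cancel, hneg, add_neg_cancel]
    rfl
  obtain ⟨_ | ⟨x₁, y₁, hn₁⟩, hP⟩ := P
  · show w₀ (0 + Q) = w₀ 0 + w₀ Q
    rw [zero_add, show w₀ 0 = 0 from rfl, zero_add]
  obtain ⟨_ | ⟨x₂, y₂, hn₂⟩, hQ⟩ := Q
  · show w₀ (_ + 0) = _ + w₀ 0
    rw [add_zero, show w₀ 0 = 0 from rfl, add_zero]
  have hxne : x₁ ≠ x₂ := fun e => by
    rcases LevelFifteen.nsmul_eq_some_or hn₁ hn₂ e with e' | e'
    · exact hQP (Subtype.ext e'.symm)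
    · exact hQn (Subtype.ext (by
        rw [Submodule.coe_neg]
        exact (eq_neg_iff_add_eq_zero.mpr (by
          rw [add_comm]; exact eq_neg_iff_add_eq_zero.mp e'))))
  obtain ⟨h1, -, h3, -, -⟩ := EB_coeff (W := W)
  set L := (EB W).slope x₁ x₂ y₁ y₂ with hL
  set x₃ := (EB W).addX x₁ x₂ L with hx₃
  set y₃ := (EB W).negAddY x₁ x₂ y₁ L with hy₃
  have hadd' := Point.add_of_X_ne (h₁ := hn₁) (h₂ := hn₂) hxne
  have hn₃' : (EB W).Nonsingular x₃ ((EB W).addY x₁ x₂ y₁ L) :=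
    nonsingular_add hn₁ hn₂ fun h => hxne h.1
  have hn₃ : (EB W).Nonsingular x₃ y₃ := by
    have := (nonsingular_neg _ _).mpr hn₃'
    rwa [show (EB W).negY x₃ ((EB W).addY x₁ x₂ y₁ L) = y₃ from negY_negY _ _] at this
  set R : (EB W).Point := Point.some x₃ y₃ hn₃ with hR
  have hPQ : (Point.some x₁ y₁ hn₁ : (EB W).Point) + Point.some x₂ y₂ hn₂ = -R := by
    rw [hadd', hR, Point.neg_some]
    rfl
  have hR3 : (3 : ℕ) • R = 0 := by
    have h := three_nsmul_coe (-(⟨_, hP⟩ + ⟨_, hQ⟩ : T3 W))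
    rwa [Submodule.coe_neg, Submodule.coe_add, hPQ, neg_neg] at h
  have hP3 := three_nsmul_coe (⟨_, hP⟩ : T3 W)
  have hQ3 := three_nsmul_coe (⟨_, hQ⟩ : T3 W)
  obtain ⟨Y1, X1, T1, S1⟩ := val_coord hA hW hb hπ hP3
  obtain ⟨Y2, X2, T2, S2⟩ := val_coord hA hW hb hπ hQ3
  obtain ⟨Y3, X3, T3', S3⟩ := val_coord hA hW hb hπ hR3
  have hy2 : y₂ = y₁ + L * (x₂ - x₁) := by
    rw [hL, slope_of_X_ne hxne]
    field_simp [sub_ne_zero.mpr hxne]
    ring
  set M : Qbar := 2 * L + (W.a₁ : Qbar) with hM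
  set c : Qbar := 2 * y₁ - 2 * L * x₁ + (W.a₃ : Qbar) with hc
  have line : ∀ {x y : Qbar}, y = y₁ + L * (x - x₁) → bigY W x y ≠ 0 →
      c * (1 / bigY W x y) + M * (x / bigY W x y) = 1 := by
    intro x y hy hy0
    field_simp
    rw [hM, hc, bigY, hy]
    ring
  have dist : ∀ {x y x' y' : Qbar} {hn : (EB W).Nonsingular x y}
      {hn' : (EB W).Nonsingular x' y'}, bigY W x' y' ≠ 0 →
      (Point.some x y hn : (EB W).Point) ≠ Point.some x' y' hn' →
      ¬ (x / bigY W x y = x' / bigY W x' y' ∧ 1 / bigY W x y = 1 / bigY W x' y') := by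
    rintro x y x' y' hn hn' hy' hne ⟨e1, e2⟩
    rw [one_div, one_div, inv_inj] at e2
    rw [e2, div_left_inj' hy'] at e1
    subst e1
    refine hne ?_
    rw [Point.some.injEq]
    simp only [bigY] at e2
    exact ⟨rfl, by linear_combination e2 / 2⟩
  have hsum := val_sum_lt hA (b₂ := W.b₂) (b₄ := W.b₄) (b₆ := W.b₆) hε0 hε1 T1.le T2.le T3'.le
    S1.le S2.le S3.le (chart_eq hn₁.1 Y1) (chart_eq hn₂.1 Y2) (chart_eq hn₃.1 Y3)
    (line (by ring) Y1) (line hy2 Y2) (line (by rw [hy₃, negAddY, hx₃]; ring) Y3)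
    (dist Y2 (fun e => hQP (Subtype.ext e.symm)))
    (dist Y3 (hn := hn₁) (hn' := hn₃) (fun e => by
      have h := hPQ
      rw [hR, ← e] at h
      refine hQP (Subtype.ext (add_left_cancel (a := (Point.some x₁ y₁ hn₁ : (EB W).Point)) ?_))
      rw [h, eq_comm, eq_neg_iff_add_eq_zero, ← two_nsmul, ← succ_nsmul]
      exact hP3))
    (dist Y3 (hn := hn₂) (hn' := hn₃) (fun e => by
      have h := hPQ
      rw [hR, ← e] at h
      refine hQP (Subtype.ext (add_right_cancel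
        (b := (Point.some x₂ y₂ hn₂ : (EB W).Point)) ?_)).symm
      rw [h, eq_comm, eq_neg_iff_add_eq_zero, ← two_nsmul, ← succ_nsmul]
      exact hQ3))
  have hwR : leadPar A π R = -w₀ (⟨_, hP⟩ + ⟨_, hQ⟩) := by
    rw [← hneg]
    show _ = leadPar A π (-((Point.some x₁ y₁ hn₁ : (EB W).Point) + Point.some x₂ y₂ hn₂))
    rw [hPQ, neg_neg]
  have hz : red A (x₁ / bigY W x₁ y₁ / π) + red A (x₂ / bigY W x₂ y₂ / π) +
      red A (x₃ / bigY W x₃ y₃ / π) = 0 := by
    rw [← red_add (mem hP3) (mem hQ3), ← red_add (add_mem (mem hP3) (mem hQ3)) (mem hR3),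
      ← add_div, ← add_div]
    refine red_eq_zero_of_lt ?_
    rw [map_div₀]
    exact (div_lt_one₀ (zero_lt_iff.mpr hε0)).mpr hsum
  rw [hR, leadPar_some] at hwR
  rw [hwR] at hz
  exact (sub_eq_zero.mp (by rw [sub_eq_add_neg]; exact hz)).symm

/-- **The supersingular case**: `E[3]` embeds in the residue field, inertia acting by the tame
character at `π`. -/
theorem exists_tame_embedding (hA : A.LiesOverPrime 3) (hW : W.IsSemistableModel)
    (hb : (3 : ℤ) ∣ W.b₂) (hπ : π ^ 8 = 3) :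
    ∃ w : T3 W →+ IsLocalRing.ResidueField A, Function.Injective w ∧
      ∀ σ ∈ A.inertiaSubgroupIn ℚ, ∀ P : T3 W, w (σ • P) = tame A σ π * w P := by
  have hπ0 : π ≠ 0 := fun e => by simp [e] at hπ
  have hε0 : A.valuation π ≠ 0 := A.valuation.ne_zero_iff.mpr hπ0
  set w₀ : T3 W → IsLocalRing.ResidueField A := fun P => leadPar A π (P : (EB W).Point) with hw₀
  have mem : ∀ {x y : Qbar} {hn : (EB W).Nonsingular x y},
      (3 : ℕ) • (Point.some x y hn : (EB W).Point) = 0 → x / bigY W x y / π ∈ A :=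
    fun h => div_bigY_div_mem hA hW hb hπ h
  have hadd : ∀ P Q : T3 W, w₀ (P + Q) = w₀ P + w₀ Q := leadPar_add hA hW hb hπ
  refine ⟨AddMonoidHom.mk' w₀ hadd, (injective_iff_map_eq_zero _).mpr ?_, fun σ hσ => ?_⟩
  · rintro ⟨_ | ⟨x, y, hn⟩, hP⟩ h
    · rfl
    · exfalso
      have h3 := three_nsmul_coe (⟨_, hP⟩ : T3 W)
      change red A (x / bigY W x y / π) = 0 at h
      rw [red_eq_zero_iff (mem h3), map_div₀, (val_coord hA hW hb hπ h3).2.2.1,
        div_self hε0] at h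
      exact lt_irrefl _ h
  · rintro ⟨_ | ⟨x, y, hn⟩, hP⟩
    · exact (mul_zero _).symm
    · have h3 := three_nsmul_coe (⟨_, hP⟩ : T3 W)
      show red A (σ x / bigY W (σ x) (σ y) / π) = tame A σ π * red A (x / bigY W x y / π)
      have hD := inertia_le_decomposition hσ
      have e : σ x / bigY W (σ x) (σ y) / π = σ π / π * σ (x / bigY W x y / π) := by
        have hσπ : σ π ≠ 0 := (map_ne_zero_iff _ σ.injective).mpr hπ0
        simp only [bigY, map_div₀, map_add, map_mul, map_intCast, map_ofNat]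
        field_simp
      rw [e, red_mul (div_mem_of_decomposition hD π) (apply_mem hD (mem h3)),
        red_inertia hσ (mem h3)]
      rfl

end Fermat.Agent.RemoveThree
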