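import Fermat.Agent.Flat.ModularTorsion
import Fermat.Agent.RemoveThree.FlatTame
import Fermat.Agent.TwoComponent.Ordinary.OfFlat

/-!
# The model of `J₀(N)[3]` at a place over `3`

For `3 ∤ N` the points killed by `3` have a separating model over the inertia ring at the place.
-/

noncomputable section

open scoped TensorProduct Pointwise
open ModularCurve

namespace Fermat.Agent.RemoveThree

open Fermat.Agent.Flat Fermat.Agent.TwoComponent.Ordinary

local notation "Qbar" => AlgebraicClosure ℚ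
local notation "GQ" => (AlgebraicClosure ℚ ≃ₐ[ℚ] AlgebraicClosure ℚ)

/-- `J₀(N)[3]` has a separating model over the inertia ring when `3 ∤ N`. -/
theorem exists_torsion_model (N : ℕ) [NeZero N] (h3N : ¬ 3 ∣ N) {A : ValuationSubring Qbar}
    (hA : A.LiesOverPrime 3) :
    ∃ (act : GQ → Submodule.torsionBy ℤ (JZero N) ((3 : ℕ) : ℤ) →
        Submodule.torsionBy ℤ (JZero N) ((3 : ℕ) : ℤ))
      (P : TW.Flat.FnModel A (A.inertiaSubgroupIn ℚ) act), P.Sep ∧
        ∀ σ x, ((act σ x : Submodule.torsionBy ℤ (JZero N) ((3 : ℕ) : ℤ)) : JZero N) =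
          σ • (x : JZero N) := by
  classical
  have : Fact (Nat.Prime 3) := ⟨Nat.prime_three⟩
  set Mn := Submodule.torsionBy ℤ (JZero N) (((3 : ℕ) : ℤ) ^ 1) with hMn
  obtain ⟨Hf, _, _, hHfin, -, -, e, hadd, heq⟩ :
      HasFlatModel 3 ↥Mn fun σ x => ⟨σ • (x : JZero N), Flat.Mdl.smul_mem_torsionBy σ x.2⟩ :=
    Flat.Mdl.hasFlatModel_JZero_torsion (N := N) (ℓ := 3) h3N 1
  have hstab : ∀ (σ : GQ) (x : Mn), σ • (x : JZero N) ∈ Mn := fun σ x =>
    Flat.Mdl.smul_mem_torsionBy σ x.2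
  let : DistribMulAction GQ Mn :=
    { smul := fun σ x => ⟨σ • (x : JZero N), hstab σ x⟩
      one_smul := fun x => Subtype.ext (one_smul GQ (x : JZero N))
      mul_smul := fun σ τ x => Subtype.ext (mul_smul σ τ (x : JZero N))
      smul_zero := fun σ => Subtype.ext (smul_zero σ)
      smul_add := fun σ x y => Subtype.ext (smul_add σ (x : JZero N) (y : JZero N)) }
  let P : FunModel A Mn :=
    funModelOfFlat hA e hadd heq
  have e31 : ((3 : ℕ) : ℤ) ^ 1 = ((3 : ℕ) : ℤ) := pow_one _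
  rw [← e31]
  exact ⟨fun σ x => σ • x, P.toFnModel, P.sep_toFnModel, fun σ x => rfl⟩

end Fermat.Agent.RemoveThree
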