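import Fermat.Agent.LoweringAtP.HeckeCompat.GaloisMap

/-!
# Embedding `E[3] ⊗ ω` into `J₀(N)[3]`

If the system of eigenvalues `ℓ a_ℓ` modulo `3` occurs in level `N`, then there is an injection
`E[3] → J₀(N)[3]` which is equivariant up to the cyclotomic character.
-/

noncomputable section

namespace Fermat.Agent.RemoveThree

open WeierstrassCurve WeierstrassCurve.Affine.Point ModularCurve
open Fermat.Agent.Attach Fermat.Agent.LevelLowering Fermat.Agent.LoweringAtP.HeckeCompat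
open scoped WeierstrassCurve.Affine

local notation "Qbar" => AlgebraicClosure ℚ
local notation "GQ" => AlgebraicClosure ℚ ≃ₐ[ℚ] AlgebraicClosure ℚ

theorem zmodThree_mul_self {d : ZMod 3} (h : d ≠ 0) : d * d = 1 := by
  revert d; decide

variable {N : ℕ} [NeZero N]

/-- A homomorphism multiplied by a character. -/
def twistHom {R X : Type*} [CommRing R] [Ring X] [Algebra R X] (χ : GQ →* R) (τ : GQ →* X) :
    GQ →* X where
  toFun g := χ g • τ g
  map_one' := by rw [_root_.map_one, _root_.map_one, one_smul]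
  map_mul' g h := by rw [_root_.map_mul, _root_.map_mul, smul_mul_smul_comm]

theorem twistHom_apply {R X : Type*} [CommRing R] [Ring X] [Algebra R X] (χ : GQ →* R)
    (τ : GQ →* X) (g : GQ) : twistHom χ τ g = χ g • τ g := rfl

theorem twistHom_eq_pow {R X : Type*} [CommRing R] [Ring X] [Algebra R X] {χ : GQ →* R}
    {τ : GQ →* X} {g σ : GQ} {k : ℕ} (hχ : χ g = χ σ ^ k) (hτ : τ g = τ σ ^ k) :
    twistHom χ τ g = twistHom χ τ σ ^ k := by
  rw [twistHom_apply, twistHom_apply, smul_pow, hτ, hχ]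

theorem twistHom_quadratic {X : Type*} [Ring X] [Algebra (ZMod 3) X] {χ : GQ →* ZMod 3}
    {τ : GQ →* X} {σ : GQ} {d a : ZMod 3} (hχ : χ σ = d) (hd : d ≠ 0)
    (h : τ σ + d • τ σ⁻¹ = (d * a) • 1) :
    twistHom χ τ σ + d • twistHom χ τ σ⁻¹ = a • 1 := by
  have hinv : d * χ σ⁻¹ = 1 := by
    rw [← hχ, ← _root_.map_mul, mul_inv_cancel, _root_.map_one]
  have hdd := zmodThree_mul_self hd
  have hi : χ σ⁻¹ = d := by linear_combination d * hinv - χ σ⁻¹ * hdd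
  rw [twistHom_apply, twistHom_apply, hχ, hi, smul_comm d, ← smul_add, h, smul_smul,
    ← mul_assoc, hdd, one_mul]

variable (W : WeierstrassCurve ℤ) [(W.map (Int.castRingHom ℚ)).IsElliptic]

/-- **The twisted Galois map** `E[3] ⊗ ω → J₀(N)[3]`. -/
theorem exists_twist_map
    (hirr : GaloisRepIsIrreducible (K := Qbar) ℚ (W.map (Int.castRingHom ℚ)) 3)
    (M : TorsionModel N 3) (hG : TorsionGalois N 3) {S : Finset ℕ} (hpS : 3 ∈ S)
    (hNS : ∀ q, q.Prime → q ∣ N → q ∈ (↑S : Set ℕ))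
    (hΔS : ∀ q : ℕ, q.Prime → (q : ℤ) ∣ W.Δ → q ∈ S)
    (θ : CuspForm.heckeAlgebra N 2 (↑S : Set ℕ) →+* ZMod 3)
    (hθ : ∀ (ℓ : ℕ) (hℓ : ℓ.Prime) (hℓN : ¬ ℓ ∣ N) (hℓS : ℓ ∉ (↑S : Set ℕ)),
      θ (CuspForm.heckeAlgebra.T hℓ hℓN hℓS) = (((ℓ : ℤ) * W.apOfModel ℓ : ℤ) : ZMod 3)) :
    ∃ ι : Submodule.torsionBy ℤ ((W.map (Int.castRingHom ℚ))⁄Qbar).Point ((3 : ℕ) : ℤ) →+ JZero N,
      Function.Injective ι ∧ (∀ x, 3 • ι x = 0) ∧
      ∀ (g : GQ) x, g • ι x = ι (LinearMap.det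
        (galoisRepModuleEnd (K := Qbar) ℚ (W.map (Int.castRingHom ℚ)) 3 g) • (g • x)) := by
  have : Fact (Nat.Prime 3) := ⟨Nat.prime_three⟩
  classical
  set aT : ℕ → ℤ := fun ℓ => (ℓ : ℤ) * W.apOfModel ℓ
  set J := eigenTorsion N 3 S aT
  obtain ⟨x₀, hx₀, hx₀0⟩ := exists_mem_eigenTorsion M hNS aT θ hθ
  have : Nontrivial J := ⟨⟨x₀, hx₀⟩, 0, fun h => hx₀0 (congrArg Subtype.val h)⟩
  have hN : ∀ ℓ : Nat.Primes, (ℓ : ℕ) ∉ S → ¬ (ℓ : ℕ) ∣ N := fun ℓ hℓ h =>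
    hℓ (Finset.mem_coe.1 (hNS _ ℓ.2 h))
  set ρ := galoisRepModuleEnd (K := Qbar) ℚ (W.map (Int.castRingHom ℚ)) 3
  let χ : GQ →* ZMod 3 := (LinearMap.det).comp ρ
  have hu : ∀ g, χ g * χ g = 1 := fun g => zmodThree_mul_self
    ((((Group.isUnit g).map χ)).ne_zero)
  set τ := eigenAction hG hN aT
  obtain ⟨f, hf, hfg⟩ := exists_intertwiner_of_quadratic W (by norm_num : (3 : ℕ) ≠ 2) hirr
    (twistHom χ τ) fun g => by
      obtain ⟨ℓ, hℓ, hℓS, A, hA, σ, hσ, k, -, hg, -⟩ :=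
        Gal.exists_frobenius_map_generates _ (eigenAction_finite_level W M hG hN aT) g S
      have hℓp : ℓ ≠ 3 := fun h => hℓS (h ▸ hpS)
      have hdet : χ σ = (ℓ : ZMod 3) :=
        EC.det_frobenius 3 ℓ (W.map (Int.castRingHom ℚ)) hℓ hℓp hA hσ
      have hg2 : ρ g = ρ σ ^ k := congrArg Prod.snd hg
      have hχ : χ g = χ σ ^ k := by
        show LinearMap.det (ρ g) = _
        rw [hg2, map_pow]; rfl
      have hd0 : (ℓ : ZMod 3) ≠ 0 := fun h => hℓp ((Nat.prime_dvd_prime_iff_eq Nat.prime_three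
        hℓ).mp ((ZMod.natCast_eq_zero_iff ℓ 3).mp h)).symm
      refine quadratic_of_frobenius W _ hℓ hℓp (fun h => hℓS (hΔS ℓ hℓ h)) hA hσ hg2
        (twistHom_eq_pow hχ (congrArg Prod.fst hg)) (twistHom_quadratic hdet hd0 ?_)
      have h := eigenAction_frobenius hG hN hpS aT hℓ hℓS hA hσ
      simpa only [aT, Int.cast_mul, Int.cast_natCast] using h
  refine ⟨J.subtype.comp f.toAddMonoidHom, Subtype.val_injective.comp hf, fun x => (f x).2.1,
    fun g x => ?_⟩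
  have h1 : f (g • x) = χ g • τ g (f x) := hfg g x
  show g • ((f x : J) : JZero N) = ((f (χ g • (g • x)) : J) : JZero N)
  rw [map_smul, h1, smul_smul, hu, one_smul]
  rfl

end Fermat.Agent.RemoveThree
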