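import Fermat.Agent.Attach.Inputs
import Fermat.Agent.RemoveThree.Main
import Fermat.Agent.RemoveThree.Ordinary
import Fermat.Agent.RemoveThree.ThreePoints
import Fermat.Agent.RemoveThree.TorsionModel
import Fermat.Agent.RemoveThree.TwistMap
import Fermat.Agent.ResidualThree.Galois.FarFixed
import Fermat.Agent.SquareLevel.GluePush
import Fermat.Agent.TwoComponent.Ordinary.Geo

/-!
# The twist of `E[3]` by `ω` is not modular of a level not divisible by `9`

`noTwistAtThree` proves the statement `NoTwistAtThree`: it removes the twisted alternative left by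
`exists_level_or_twist`.
-/

noncomputable section

open WeierstrassCurve WeierstrassCurve.Affine.Point ModularCurve
open scoped WeierstrassCurve.Affine Pointwise

namespace Fermat.Agent.RemoveThree

open Fermat.Agent.TW.Flat (tame)

local notation "Qbar" => AlgebraicClosure ℚ
local notation "GQ" => AlgebraicClosure ℚ ≃ₐ[ℚ] AlgebraicClosure ℚ

/-- The action on `E[3]`. -/
abbrev repThree (W : WeierstrassCurve ℤ) : GQ →* Module.End (ZMod 3) (T3 W) :=
  galoisRepModuleEnd (K := Qbar) ℚ (W.map (Int.castRingHom ℚ)) 3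

variable {W : WeierstrassCurve ℤ}

theorem det_repThree (hΔ : W.Δ ≠ 0) (σ : GQ) :
    LinearMap.det (repThree W σ) = ((modThreeCyclotomicChar σ : (ZMod 3)ˣ) : ZMod 3) := by
  have : Fact (Nat.Prime 3) := ⟨Nat.prime_three⟩
  have := Frey.isElliptic_mapRat hΔ
  rw [modThreeCyclotomicChar_apply]
  exact Ihara.det_galoisRepModuleEnd (p := 3) (W.map (Int.castRingHom ℚ))
    (Ihara.card_rootsOfUnity_Qbar 3) σ

theorem actsByOnRoots_det (hΔ : W.Δ ≠ 0) (σ : GQ) :
    TwoComponent.Ordinary.ActsByOnRoots 3 σ (LinearMap.det (repThree W σ)).val := by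
  intro z hz
  have hz0 : z ≠ 0 := fun e => by simp [e] at hz
  have ht : Units.mk0 z hz0 ∈ rootsOfUnity 3 Qbar := by
    rw [mem_rootsOfUnity]
    exact Units.ext (by simpa using hz)
  rw [det_repThree hΔ, modThreeCyclotomicChar_apply]
  exact modularCyclotomicCharacter.spec Qbar
    (IsAlgClosed.card_rootsOfUnity_eq Qbar 3) (σ : Qbar ≃+* Qbar) ht

theorem finrank_T3 (hΔ : W.Δ ≠ 0) : Module.finrank (ZMod 3) (T3 W) = 2 := by
  have := Frey.isElliptic_mapRat hΔ
  have : Fact (Nat.Prime 3) := ⟨Nat.prime_three⟩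
  exact EC.finrank_torsionBy (K := Qbar) (W.map (Int.castRingHom ℚ)) 3 (by norm_num)

theorem finite_T3 (hΔ : W.Δ ≠ 0) : Finite (T3 W) := by
  have : Fact (Nat.Prime 3) := ⟨Nat.prime_three⟩
  have : Module.Finite (ZMod 3) (T3 W) :=
    Module.finite_of_finrank_pos (finrank_T3 hΔ ▸ two_pos)
  exact Module.finite_of_finite (ZMod 3)

/-- Some subgroup of `E[3]` is stable under inertia twisted by the determinant, contains its
second differences `(σ - 1)² x` and has no nonzero fixed vector of the twisted action. -/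
def HasTwistedPart (W : WeierstrassCurve ℤ) (A : ValuationSubring Qbar) : Prop :=
  ∃ S : AddSubgroup (T3 W),
    (∀ σ ∈ A.inertiaSubgroupIn ℚ, ∀ x ∈ S,
      LinearMap.det (repThree W σ) • repThree W σ x ∈ S) ∧
    (∀ σ ∈ A.inertiaSubgroupIn ℚ, ∀ x,
      LinearMap.det (repThree W σ) •
          repThree W σ (LinearMap.det (repThree W σ) • repThree W σ x - x) -
        (LinearMap.det (repThree W σ) • repThree W σ x - x) ∈ S) ∧
    ∀ x ∈ S, (∀ σ ∈ A.inertiaSubgroupIn ℚ,
      LinearMap.det (repThree W σ) • repThree W σ x = x) → x = 0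

theorem false_of_line (hΔ : W.Δ ≠ 0) (hfix : Glue.NoInertiaFixedThree W)
    {A : ValuationSubring Qbar} (hA : A.LiesOverPrime 3) {P : T3 W} (hP : P ≠ 0)
    (hline : ∀ σ ∈ A.decompositionSubgroup ℚ, σ • P = P ∨ σ • P = -P) (hS : HasTwistedPart W A) :
    False := by
  obtain ⟨S, hS1, hS2, hS3⟩ := hS
  have := finite_T3 hΔ
  have := Frey.isElliptic_mapRat hΔ
  obtain ⟨τ, hτ, hτd⟩ := ResidualThree.exists_inertia_cyclotomic hA
  obtain ⟨x, hx, hxfix⟩ := exists_fixed_of_line hA (finrank_T3 hΔ) (repThree W)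
    (EC.galoisFactorsThroughFiniteLevel (W.map (Int.castRingHom ℚ)) 3 (by norm_num))
    ⟨τ, hτ, (det_repThree hΔ τ).trans hτd⟩ hP
    (fun σ hσ => hline σ (TW.Flat.inertia_le_decomposition hσ)) S hS1 hS2 hS3
  exact hx (hfix A hA x hxfix)

/-- Some inertia element has tame value of fourth power `-1` at an eighth root of `3`. -/
theorem exists_tame_pow_four_eq_neg_one {A : ValuationSubring Qbar} (hA : A.LiesOverPrime 3)
    {π : Qbar} (hπ : π ^ 8 = 3) : ∃ g ∈ A.inertiaSubgroupIn ℚ, tame A g π ^ 4 = -1 := by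
  obtain ⟨g, hg, hmove⟩ := Tate.exists_inertia_root_moved Nat.prime_three hA Nat.prime_two
    (by norm_num) (π := π ^ 4) (by rw [← pow_mul]; norm_num [hπ])
  refine ⟨g, hg, ?_⟩
  have hD := TW.Flat.inertia_le_decomposition hg
  have h4 : π ^ 4 ≠ 0 := pow_ne_zero 4 fun e => by simp [e] at hπ
  have hneg : g (π ^ 4) = -π ^ 4 := by
    refine (sq_eq_sq_iff_eq_or_eq_neg.mp ?_).resolve_left hmove
    rw [← map_pow, ← pow_mul, show 4 * 2 = 8 from rfl, hπ, map_ofNat]
  rw [← TW.Flat.tame_pow_right hD, tame, hneg, neg_div, div_self h4, ← zero_sub,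
    TW.Flat.red_sub A.zero_mem A.one_mem, TW.Flat.red_zero, TW.Flat.red_one, zero_sub]

theorem three_nsmul_map {J : Type} [AddCommGroup J] (ι : T3 W →+ J) (x : T3 W) : 3 • ι x = 0 := by
  rw [← map_nsmul, ← Nat.cast_smul_eq_nsmul (ZMod 3), ZMod.natCast_self, zero_smul,
    _root_.map_zero]

/-- The contradiction at level prime to `3`. -/
theorem false_of_prime_to_three (hΔ : W.Δ ≠ 0) (hW : W.IsSemistableModel)
    (hfix : Glue.NoInertiaFixedThree W) {M : ℕ} [NeZero M] (h3M : ¬ 3 ∣ M)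
    {A : ValuationSubring Qbar} (hA : A.LiesOverPrime 3) (ι : T3 W →+ JZero M)
    (hι : Function.Injective ι)
    (hg : ∀ (σ : GQ) x, σ • ι x = ι (LinearMap.det (repThree W σ) • repThree W σ x)) : False := by
  have : Fact (Nat.Prime 3) := ⟨Nat.prime_three⟩
  have h3ι := three_nsmul_map ι
  by_cases hb : (3 : ℤ) ∣ W.b₂
  · obtain ⟨π, hπ⟩ := IsAlgClosed.exists_pow_nat_eq (3 : Qbar) (n := 8) (by norm_num)
    obtain ⟨w, hw, hwρ⟩ := exists_tame_embedding hA hW hb hπ
    obtain ⟨g, hgI, hgz⟩ := exists_tame_pow_four_eq_neg_one hA hπ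
    obtain ⟨act, P, hP, hact⟩ := exists_torsion_model M h3M hA
    have := finite_T3 hΔ
    let ι' : T3 W →+ Submodule.torsionBy ℤ (JZero M) ((3 : ℕ) : ℤ) :=
      { toFun := fun x => ⟨ι x, by rw [Submodule.mem_torsionBy_iff, natCast_zsmul]; exact h3ι x⟩
        map_zero' := Subtype.ext (_root_.map_zero ι)
        map_add' := fun x y => Subtype.ext (map_add ι x y) }
    exact false_of_model hA (finrank_T3 hΔ) (repThree W) hπ w hw hwρ hgI hgz P hP le_rfl ι'
      (fun x y h => hι (congrArg Subtype.val h))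
      fun σ _ x => Subtype.ext ((hact σ (ι' x)).trans (hg σ x))
  · obtain ⟨P, hP, hline⟩ := exists_stable_line hA hΔ hb
    obtain ⟨C, -, hC2, hC3, hC4⟩ := TwoComponent.Ordinary.hasConnectedPart M 3
      (by norm_num) h3M hA 1
    have h31 : ∀ x, 3 ^ 1 • ι x = 0 := fun x => by rw [pow_one]; exact h3ι x
    refine false_of_line hΔ hfix hA hP hline ⟨C.comap ι, fun σ hσ x hx => ?_, fun σ hσ x => ?_,
      fun x hx hxfix => ?_⟩
    · show ι _ ∈ C
      rw [← hg]
      exact hC2 σ (TW.Flat.inertia_le_decomposition hσ) _ hx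
    · show ι _ ∈ C
      rw [map_sub ι (LinearMap.det (repThree W σ) • _), ← hg]
      exact hC3 σ hσ _ (h31 _)
    · refine hι (?_ : ι x = ι 0)
      rw [_root_.map_zero]
      exact AddSubgroup.mem_bot.mp (hC4 ⊥ bot_le (fun σ _ y hy => by
          rw [AddSubgroup.mem_bot] at hy ⊢; rw [hy, smul_zero]) (ι x) hx
        (AddSubgroup.mem_bot.mpr (h3ι x))
        fun σ hσ => AddSubgroup.mem_bot.mpr (by rw [hg, hxfix σ hσ, sub_self]))

/-- The contradiction on the part of level `3 M` killed by both pushforwards. -/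
theorem false_of_toric (hΔ : W.Δ ≠ 0) (hW : W.IsSemistableModel)
    (hfix : Glue.NoInertiaFixedThree W) {M : ℕ} [NeZero M] (h3M : ¬ 3 ∣ M)
    {A : ValuationSubring Qbar} (hA : A.LiesOverPrime 3) (ι : T3 W →+ JZero (M * 3))
    (hι : Function.Injective ι)
    (hg : ∀ (σ : GQ) x, σ • ι x = ι (LinearMap.det (repThree W σ) • repThree W σ x))
    (hα : ∀ x, SquareLevel.pushAlpha M 3 (ι x) = 0) (hβ : ∀ x, SquareLevel.pushBeta M 3 (ι x) = 0) :
    False := by
  have : Fact (Nat.Prime 3) := ⟨Nat.prime_three⟩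
  have h3ι := three_nsmul_map ι
  obtain ⟨C, -, hC2, hC3, hC4⟩ := TwoComponent.Ordinary.hasToricPart M 3 h3M hA 1
  have hscalar : ∀ σ ∈ A.inertiaSubgroupIn ℚ, ∀ x, ι x ∈ C →
      LinearMap.det (repThree W σ) • repThree W σ x = LinearMap.det (repThree W σ) • x := by
    intro σ hσ x hx
    apply hι
    rw [← hg, hC4 (ι x) hx (h3ι x) (hα x) (hβ x) σ hσ _ (actsByOnRoots_det hΔ σ), ← map_nsmul,
      ← Nat.cast_smul_eq_nsmul (ZMod 3), ZMod.natCast_zmod_val]
  have hdiff : ∀ σ ∈ A.inertiaSubgroupIn ℚ, ∀ x,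
      ι (LinearMap.det (repThree W σ) •
          repThree W σ (LinearMap.det (repThree W σ) • repThree W σ x - x) -
        (LinearMap.det (repThree W σ) • repThree W σ x - x)) ∈ C := by
    intro σ hσ x
    rw [map_sub, ← hg, map_sub, ← hg]
    exact hC3 σ hσ σ hσ (ι x) (by rw [pow_one]; exact h3ι x)
  by_cases hb : (3 : ℤ) ∣ W.b₂
  · obtain ⟨π, hπ⟩ := IsAlgClosed.exists_pow_nat_eq (3 : Qbar) (n := 8) (by norm_num)
    obtain ⟨w, hw, hwρ⟩ := exists_tame_embedding hA hW hb hπ
    obtain ⟨g, hgI, hgz⟩ := exists_tame_pow_four_eq_neg_one hA hπ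
    have := finite_T3 hΔ
    have : Module.Finite (ZMod 3) (T3 W) := Module.Finite.of_finite
    have : Nontrivial (T3 W) :=
      Module.nontrivial_of_finrank_pos (R := ZMod 3) (finrank_T3 hΔ ▸ two_pos)
    set f := repThree W g
    have h3κ := three_eq_zero_residue hA
    obtain ⟨hdet, -⟩ := trace_det_of_tame (finrank_T3 hΔ) h3κ f w hw hgz (hwρ g hgI)
    set z := tame A g π
    have hwf : ∀ u, w (f u) = z * w u := hwρ g hgI
    have hz4 : z ^ 4 ≠ 1 := fun e => by
      have h2 : (2 : IsLocalRing.ResidueField A) = 0 := by linear_combination hgz - e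
      exact one_ne_zero (α := IsLocalRing.ResidueField A) (by linear_combination h3κ - h2)
    have hsurj : Function.Surjective fun y : T3 W => LinearMap.det f • f y - y :=
      surjective_apply_sub_self (LinearMap.det f • f) w hw (c := -z)
        (fun e => hz4 (by rw [← Even.neg_pow (by decide : Even 4), e, one_pow]))
        fun u => by rw [LinearMap.smul_apply, hdet, neg_one_smul, map_neg, hwf, neg_mul]
    obtain ⟨x, hx⟩ := exists_ne (0 : T3 W)
    obtain ⟨x', hx'⟩ := hsurj x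
    obtain ⟨y, hy⟩ := hsurj x'
    have hxC : ι x ∈ C := by
      rw [← hx', ← hy]
      exact hdiff g hgI y
    have h := hscalar g hgI x hxC
    rw [hdet, neg_one_smul, neg_one_smul, neg_inj] at h
    have hw' : w x ≠ 0 := fun e => hx (hw (e.trans (_root_.map_zero w).symm))
    have e := congrArg w h
    rw [hwf] at e
    exact hz4 (by rw [mul_right_cancel₀ hw' (e.trans (one_mul _).symm), one_pow])
  · obtain ⟨P, hP, hline⟩ := exists_stable_line hA hΔ hb
    refine false_of_line hΔ hfix hA hP hline ⟨C.comap ι, fun σ hσ x hx => ?_, fun σ hσ x => ?_,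
      fun x hx hxfix => ?_⟩
    · show ι _ ∈ C
      rw [← hg]
      exact hC2 σ (TW.Flat.inertia_le_decomposition hσ) _ hx
    · exact hdiff σ hσ x
    · obtain ⟨τ, hτ, hτd⟩ := ResidualThree.exists_inertia_cyclotomic hA
      have h := hscalar τ hτ x hx
      rw [hxfix τ hτ, det_repThree hΔ, hτd, neg_one_smul] at h
      have h2 : (2 : ZMod 3) • x = 0 := by
        rw [two_smul]; nth_rewrite 2 [h]; exact add_neg_cancel x
      exact (smul_eq_zero.mp h2).resolve_left two_ne_zero_three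

/-- By irreducibility an equivariant map is either injective on the twisted image of `E[3]` or kills
all of it. -/
theorem ker_or_injective (hirr : W.ModRepIsIrreducible 3) {J J' : Type} [AddCommGroup J]
    [AddCommGroup J'] [DistribMulAction GQ J] [DistribMulAction GQ J'] (ι : T3 W →+ J)
    (hg : ∀ (σ : GQ) x, σ • ι x = ι (LinearMap.det (repThree W σ) • repThree W σ x))
    (f : J →+ J') (hf : ∀ (σ : GQ) z, f (σ • z) = σ • f z) :
    Function.Injective (f.comp ι) ∨ ∀ x, f (ι x) = 0 := by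
  have : Fact (Nat.Prime 3) := ⟨Nat.prime_three⟩
  let K : Submodule (ZMod 3) (T3 W) :=
    { (f.comp ι).ker with
      smul_mem' := fun c x hx => by
        rw [← ZMod.natCast_zmod_val c, Nat.cast_smul_eq_nsmul]
        exact (f.comp ι).ker.nsmul_mem hx _ }
  have hst : IsGaloisStable ℚ K := fun σ x hx => by
    have hd : LinearMap.det (repThree W σ) ≠ 0 :=
      ((Group.isUnit σ).map (LinearMap.det.comp (repThree W))).ne_zero
    have h : LinearMap.det (repThree W σ) • repThree W σ x ∈ K := by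
      show f (ι _) = 0
      rw [← hg, hf, show f (ι x) = 0 from hx, smul_zero]
    have := K.smul_mem (LinearMap.det (repThree W σ))⁻¹ h
    rwa [smul_smul, inv_mul_cancel₀ hd, one_smul, galoisRepModuleEnd_apply] at this
  rcases hirr.2 K hst with e | e
  · refine Or.inl ((injective_iff_map_eq_zero _).mpr fun x hx => ?_)
    have : x ∈ K := hx
    rwa [e, Submodule.mem_bot] at this
  · exact Or.inr fun x => (e ▸ Submodule.mem_top : x ∈ K)

/-- **`NoTwistAtThree` holds.** -/
theorem noTwistAtThree : NoTwistAtThree := by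
  intro W hΔ hW h3 hfix N hN h9 hres
  obtain ⟨f, 𝔪, hf, h𝔪, h3m, hc⟩ := hres
  have : NeZero N := ⟨hN.ne'⟩
  have : Fact (Nat.Prime 3) := ⟨Nat.prime_three⟩
  have := Frey.isElliptic_mapRat hΔ
  obtain ⟨Ins⟩ := Attach.nonempty_jacobianInputs N 3
  let S : Finset ℕ := insert 3 (N.primeFactors ∪ W.Δ.natAbs.primeFactors)
  have hNS : ∀ q, q.Prime → q ∣ N → q ∈ (↑S : Set ℕ) := fun q hq h => Finset.mem_coe.2
    (Finset.mem_insert_of_mem (Finset.mem_union_left _ (Nat.mem_primeFactors.2 ⟨hq, h, hN.ne'⟩)))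
  have hΔS : ∀ q : ℕ, q.Prime → (q : ℤ) ∣ W.Δ → q ∈ S := fun q hq h => Finset.mem_insert_of_mem
    (Finset.mem_union_right _
      (Nat.mem_primeFactors.2 ⟨hq, Int.natCast_dvd.1 h, Int.natAbs_ne_zero.2 hΔ⟩))
  obtain ⟨θ, hθ⟩ := LoweringAtP.HeckeCompat.exists_theta_of_congr hf hNS Ins.model h𝔪 h3m
    (fun ℓ => (ℓ : ℤ) * W.apOfModel ℓ) fun ℓ hℓ hℓN hℓS => hc ℓ
      ⟨hℓ, fun hd => hℓS (Finset.mem_coe.2 (hΔS ℓ hℓ hd)), hℓN,
        fun e => hℓS (Finset.mem_coe.2 (e ▸ Finset.mem_insert_self _ _))⟩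
  obtain ⟨ι, hι, -, hg'⟩ := exists_twist_map W h3 Ins.model Ins.galois
    (Finset.mem_insert_self _ _) hNS hΔS θ hθ
  have hg : ∀ (σ : GQ) x, σ • ι x = ι (LinearMap.det (repThree W σ) • repThree W σ x) :=
    fun σ x => by rw [galoisRepModuleEnd_apply]; exact hg' σ x
  obtain ⟨A, hA⟩ := Gal.exists_liesOverPrime Nat.prime_three
  by_cases h3N : 3 ∣ N
  · obtain ⟨M, rfl⟩ : ∃ M, N = M * 3 := ⟨N / 3, (Nat.div_mul_cancel h3N).symm⟩
    have : NeZero M := ⟨fun e => hN.ne' (by rw [e, zero_mul])⟩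
    have h3M : ¬ 3 ∣ M := fun h => h9 (by rw [pow_two]; exact mul_dvd_mul_right h 3)
    rcases ker_or_injective h3 ι hg (SquareLevel.pushAlpha M 3) (SquareLevel.pushAlpha_smul M 3)
      with h | hα
    · exact false_of_prime_to_three hΔ hW hfix h3M hA _ h fun σ x => by
        show σ • SquareLevel.pushAlpha M 3 (ι x) = SquareLevel.pushAlpha M 3 (ι _)
        rw [← SquareLevel.pushAlpha_smul, hg]
    rcases ker_or_injective h3 ι hg (SquareLevel.pushBeta M 3) (SquareLevel.pushBeta_smul M 3)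
      with h | hβ
    · exact false_of_prime_to_three hΔ hW hfix h3M hA _ h fun σ x => by
        show σ • SquareLevel.pushBeta M 3 (ι x) = SquareLevel.pushBeta M 3 (ι _)
        rw [← SquareLevel.pushBeta_smul, hg]
    exact false_of_toric hΔ hW hfix h3M hA ι hι hg hα hβ
  · exact false_of_prime_to_three hΔ hW hfix h3N hA ι hι hg

end Fermat.Agent.RemoveThree
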